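/-
S44 / DEPTH, node D1 (architect helper219, proof helper109): KRULL.
A function lying in the vertical valuation rings and in all the horizontal valuation rings through
the point `R` lies in `R`.
-/
import Fermat.Agent.S44.Depth.Defs
import Fermat.Agent.S18.Chart.Unif

set_option autoImplicit false

noncomputable section

namespace Fermat.Agent.S44.Depth

open Fermat.Agent.S18 Fermat.Agent.S36.BP Polynomial

variable {K F : Type*} [Field K] [Field F] [Algebra K F]
variable {A : ValuationSubring K} {ϖ : K} {e : ℕ} {Vi V0 : ValuationSubring F} {x y : F}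
  {Smi Sm0 Nd : Set (Subring F)} {R : Subring F}

/-- elements of `R[1/π]` have bounded denominators -/
private theorem krull_closure {π : F} (hπ0 : π ≠ 0) (hπ : π ∈ R) {z : F}
    (hz : z ∈ Subring.closure ((R : Set F) ∪ {π⁻¹})) : ∃ k : ℕ, π ^ k * z ∈ R := by
  induction hz using Subring.closure_induction with
  | mem z hz =>
    rcases hz with hz | hz
    · exact ⟨0, by simpa using hz⟩
    · rw [Set.mem_singleton_iff] at hz
      exact ⟨1, by rw [hz, pow_one, mul_inv_cancel₀ hπ0]; exact R.one_mem⟩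
  | zero => exact ⟨0, by simp⟩
  | one => exact ⟨0, by simp⟩
  | add a b _ _ ha hb =>
    obtain ⟨k, hk⟩ := ha
    obtain ⟨l, hl⟩ := hb
    refine ⟨k + l, ?_⟩
    have e : π ^ (k + l) * (a + b) = π ^ l * (π ^ k * a) + π ^ k * (π ^ l * b) := by
      rw [pow_add]; ring
    rw [e]
    exact R.add_mem (R.mul_mem (R.pow_mem hπ l) hk) (R.mul_mem (R.pow_mem hπ k) hl)
  | neg a _ ha =>
    obtain ⟨k, hk⟩ := ha
    exact ⟨k, by rw [mul_neg]; exact R.neg_mem hk⟩
  | mul a b _ _ ha hb =>
    obtain ⟨k, hk⟩ := ha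
    obtain ⟨l, hl⟩ := hb
    refine ⟨k + l, ?_⟩
    have e : π ^ (k + l) * (a * b) = (π ^ k * a) * (π ^ l * b) := by
      rw [pow_add]; ring
    rw [e]
    exact R.mul_mem hk hl

/-- clearing denominators in an integral equation over `R[1/π]` -/
private theorem krull_clear {π : F} (hπ0 : π ≠ 0) (hπ : π ∈ R) {f : F}
    (hf : IsIntegral (Subring.closure ((R : Set F) ∪ {π⁻¹})) f) :
    ∃ m : ℕ, IsIntegral R (π ^ m * f) := by
  obtain ⟨p, hp, hpf⟩ := hf
  set P : F[X] := p.map (algebraMap (Subring.closure ((R : Set F) ∪ {π⁻¹})) F) with hP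
  have hPm : P.Monic := hp.map _
  have hPf : P.eval f = 0 := by
    rw [hP, eval_map]
    exact hpf
  have hcoef : ∀ i, ∃ k : ℕ, π ^ k * P.coeff i ∈ R := by
    intro i
    apply krull_closure hπ0 hπ
    rw [hP, coeff_map]
    exact (p.coeff i).2
  choose k hk using hcoef
  set m : ℕ := (Finset.range (P.natDegree + 1)).sup k with hm
  have hmono : ∀ i ≤ P.natDegree, ∀ l, m ≤ l → π ^ l * P.coeff i ∈ R := by
    intro i hi l hl
    have h1 : k i ≤ m := Finset.le_sup (f := k) (Finset.mem_range.2 (Nat.lt_succ_of_le hi))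
    obtain ⟨j, rfl⟩ : ∃ j, l = j + k i := ⟨l - k i, by omega⟩
    rw [pow_add, mul_assoc]
    exact R.mul_mem (R.pow_mem hπ j) (hk i)
  refine ⟨m, ?_⟩
  set Q : F[X] := scaleRoots P (π ^ m) with hQ
  have hQm : Q.Monic := (monic_scaleRoots_iff _).2 hPm
  have hQf : Q.eval (π ^ m * f) = 0 := by
    have := scaleRoots_eval₂_eq_zero (p := P) (RingHom.id F) (r := f) (s := π ^ m)
      (by rw [eval₂_id]; exact hPf)
    rw [eval₂_id] at this
    exact this
  have hQc : (↑Q.coeffs : Set F) ⊆ R := by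
    intro c hc
    obtain ⟨i, -, rfl⟩ := Polynomial.mem_coeffs_iff.1 hc
    rw [hQ, coeff_scaleRoots]
    rcases lt_trichotomy i P.natDegree with hi | hi | hi
    · rw [← pow_mul, mul_comm]
      refine hmono i hi.le _ ?_
      exact Nat.le_mul_of_pos_right m (by omega)
    · rw [hi, Nat.sub_self, pow_zero, mul_one, coeff_natDegree, hPm.leadingCoeff]
      exact R.one_mem
    · rw [coeff_eq_zero_of_natDegree_lt hi, zero_mul]
      exact R.zero_mem
  refine ⟨Q.toSubring R hQc, (monic_toSubring Q R hQc).2 hQm, ?_⟩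
  have h1 : (Q.toSubring R hQc).map (algebraMap R F) = Q := map_toSubring Q R hQc
  rw [← eval_map, h1]
  exact hQf

/-- the common core -/
private theorem krull_core (hA : IsUnif A ϖ) (hP : IsPt A R) {f : F}
    (hW : ∀ W : ValuationSubring F, Hor K R W → f ∈ W) :
    ∃ m : ℕ, algebraMap K F ϖ ^ m * f ∈ R := by
  have hπ0 : algebraMap K F ϖ ≠ 0 := by
    rw [Ne, map_eq_zero]
    exact hA.ne_zero
  have hπ : algebraMap K F ϖ ∈ R := hP.const_mem ϖ hA.mem
  have h1 : f ∈ (⨅ V : {V : ValuationSubring F //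
      ((R : Set F) ∪ {(algebraMap K F ϖ)⁻¹}) ⊆ V.toSubring}, V.1.toSubring) := by
    rw [Subring.mem_iInf]
    rintro ⟨V, hV⟩
    show f ∈ V
    by_cases htop : V = ⊤
    · rw [htop]
      exact ValuationSubring.mem_top f
    · refine hW V ⟨?_, fun r hr => hV (Or.inl hr), htop⟩
      intro a
      obtain ⟨r, hr⟩ := hA.exists_pow_mul_mem a
      have h2 : algebraMap K F a = (algebraMap K F ϖ)⁻¹ ^ r * algebraMap K F (ϖ ^ r * a) := by
        rw [map_mul, map_pow, ← mul_assoc, ← mul_pow, inv_mul_cancel₀ hπ0, one_pow, one_mul]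
      rw [h2]
      exact V.mul_mem _ _ (pow_mem (hV (Or.inr rfl)) r) (hV (Or.inl (hP.const_mem _ hr)))
  rw [iInf_valuationSubring_superset] at h1
  obtain ⟨m, hm⟩ := krull_clear hπ0 hπ h1
  exact ⟨m, hP.intClosed _ hm⟩

/-- D1a. -/
theorem krull_node (hA : IsUnif A ϖ) (hN : IsNode A ϖ Vi V0 x y R) {f : F} (hi : f ∈ Vi)
    (h0 : f ∈ V0) (hW : ∀ W : ValuationSubring F, Hor K R W → f ∈ W) : f ∈ R := by
  obtain ⟨m, hm⟩ := krull_core hA hN.isPt hW
  have hπ : algebraMap K F ϖ ∈ R := hN.isPt.const_mem ϖ hA.mem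
  induction m with
  | zero => simpa using hm
  | succ m ih =>
    apply ih
    apply hN.qep
    · rw [← mul_assoc, ← pow_succ']
      exact hm
    · exact Vi.mul_mem _ _ (pow_mem (hN.thri.le _ hπ) m) hi
    · exact V0.mul_mem _ _ (pow_mem (hN.thr0.le _ hπ) m) h0

/-- D1b. -/
theorem krull_sm {V : ValuationSubring F} (hA : IsUnif A ϖ) (hS : IsSm A ϖ V R) {f : F}
    (hV : f ∈ V) (hW : ∀ W : ValuationSubring F, Hor K R W → f ∈ W) : f ∈ R := by
  obtain ⟨m, hm⟩ := krull_core hA hS.isPt hW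
  have hπ : algebraMap K F ϖ ∈ R := hS.isPt.const_mem ϖ hA.mem
  induction m with
  | zero => simpa using hm
  | succ m ih =>
    apply ih
    apply hS.qep
    · rw [← mul_assoc, ← pow_succ']
      exact hm
    · exact V.mul_mem _ _ (pow_mem (hS.thr.le _ hπ) m) hV

end Fermat.Agent.S44.Depth

end
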