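/-
S44 / DEPTH, node D2B (architect helper219, proof helper199): the order on the branch `C_∞` at a
node: every unit `z` of `Vi` is `x ^ b * (unit of R)` modulo `𝔪_Vi`.
-/
import Fermat.Agent.S44.Depth.Defs
import Fermat.Agent.S36.BP.Cong
import Fermat.Agent.S36.BP.Normal
import Fermat.Agent.S36.BP.Datum

set_option autoImplicit false

noncomputable section

namespace Fermat.Agent.S44.Depth

open Fermat.Agent.S18 Fermat.Agent.S36.BP Polynomial

variable {K F : Type*} [Field K] [Field F] [Algebra K F]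
variable {A : ValuationSubring K} {ϖ : K} {e : ℕ} {Vi V0 : ValuationSubring F} {x y : F}
  {Smi Sm0 Nd : Set (Subring F)} {R : Subring F}

/-- Krull intersection on the branch: an element of `R` which is divisible by all powers of `x`
modulo `𝔪_Vi` lies in `𝔪_Vi`. -/
private theorem branch_krull (hN : IsNode A ϖ Vi V0 x y R) {a : F} (ha : a ∈ R)
    (h : ∀ k : ℕ, ∃ s ∈ R, Vi.valuation (a - s * x ^ k) < 1) : Vi.valuation a < 1 := by
  classical
  have := hN.isPt.isLocalRing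
  have := hN.isPt.noeth
  let f : R →+* Vi := Subring.inclusion (show R ≤ Vi.toSubring from hN.thri.le)
  let P : Ideal R := (IsLocalRing.maximalIdeal Vi).comap f
  have hPp : P.IsPrime := Ideal.comap_isPrime f _
  have hP : ∀ r : R, r ∈ P ↔ Vi.valuation (r : F) < 1 := fun r => by
    rw [Ideal.mem_comap, ValuationSubring.valuation_lt_one_iff]
    rfl
  have : IsLocalRing (R ⧸ P) :=
    IsLocalRing.of_surjective' (Ideal.Quotient.mk P) Ideal.Quotient.mk_surjective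
  have hPle : P ≤ IsLocalRing.maximalIdeal R := IsLocalRing.le_maximalIdeal hPp.ne_top
  have hxm : Ideal.Quotient.mk P ⟨x, hN.x_rad.1⟩ ∈ IsLocalRing.maximalIdeal (R ⧸ P) := by
    rw [IsLocalRing.mem_maximalIdeal, mem_nonunits_iff]
    intro hu
    obtain ⟨b', hb'⟩ := isUnit_iff_exists_inv.1 hu
    obtain ⟨b, rfl⟩ := Ideal.Quotient.mk_surjective b'
    rw [← map_mul, ← map_one (Ideal.Quotient.mk P), Ideal.Quotient.eq] at hb'
    have h1 : (⟨x, hN.x_rad.1⟩ : R) ∈ IsLocalRing.maximalIdeal R := by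
      rw [IsLocalRing.mem_maximalIdeal, mem_nonunits_iff, ← mem_rad_iff_not_isUnit]
      exact hN.x_rad
    have h2 : (1 : R) ∈ IsLocalRing.maximalIdeal R := by
      have := (IsLocalRing.maximalIdeal R).sub_mem
        ((IsLocalRing.maximalIdeal R).mul_mem_right b h1) (hPle hb')
      simp at this
    exact (Ideal.ne_top_iff_one _).1 (IsLocalRing.maximalIdeal.isMaximal R).ne_top h2
  have hbot := Ideal.iInf_pow_eq_bot_of_isLocalRing (IsLocalRing.maximalIdeal (R ⧸ P))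
    (IsLocalRing.maximalIdeal.isMaximal _).ne_top
  have hmem : Ideal.Quotient.mk P ⟨a, ha⟩ ∈ ⨅ i : ℕ, IsLocalRing.maximalIdeal (R ⧸ P) ^ i := by
    rw [Ideal.mem_iInf]
    intro k
    obtain ⟨s, hs, hlt⟩ := h k
    have e1 : Ideal.Quotient.mk P ⟨a, ha⟩ =
        Ideal.Quotient.mk P ⟨s, hs⟩ * Ideal.Quotient.mk P ⟨x, hN.x_rad.1⟩ ^ k := by
      rw [← map_pow, ← map_mul, Ideal.Quotient.eq, hP]
      exact hlt
    rw [e1]
    exact Ideal.mul_mem_left _ _ (Ideal.pow_mem_pow hxm k)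
  rw [hbot, Ideal.mem_bot, Ideal.Quotient.eq_zero_iff_mem, hP] at hmem
  exact hmem

/-- the order of an element of `R` on the branch -/
private theorem branch_ord_aux (hN : IsNode A ϖ Vi V0 x y R) (hx : Vi.valuation x = 1) {a : F}
    (ha : a ∈ R) (ha1 : Vi.valuation a = 1) :
    ∃ (k : ℕ) (ρ : F), RUnit R ρ ∧ Cong Vi a (ρ * x ^ k) := by
  classical
  have hex : ∃ k : ℕ, ¬ ∃ s ∈ R, Vi.valuation (a - s * x ^ k) < 1 := by
    by_contra hcon
    push Not at hcon
    have := branch_krull hN ha hcon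
    rw [ha1] at this
    exact lt_irrefl _ this
  have hk0 : Nat.find hex ≠ 0 := by
    intro h0
    have := Nat.find_spec hex
    rw [h0] at this
    exact this ⟨a, ha, by simp⟩
  obtain ⟨k, hk⟩ := Nat.exists_eq_succ_of_ne_zero hk0
  have hlt : k < Nat.find hex := by omega
  have h1 := Nat.find_min hex hlt
  rw [not_not] at h1
  obtain ⟨s, hs, hsa⟩ := h1
  refine ⟨k, s, ?_, hsa⟩
  by_contra hnu
  obtain ⟨s', hs', hlt'⟩ := hN.dvri s ⟨hs, hnu⟩
  apply Nat.find_spec hex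
  rw [hk]
  refine ⟨s', hs', ?_⟩
  have c1 : Cong Vi a (s * x ^ k) := hsa
  have c2 : Cong Vi (s * x ^ k) (s' * x * x ^ k) :=
    Cong.mul_right (by rw [map_pow, hx, one_pow]) hlt'
  have c3 := c1.trans c2
  rw [mul_assoc, ← pow_succ'] at c3
  exact c3

/-- D2B: the order on the branch `C_∞`. -/
theorem branch_ord (M : NodalModel A ϖ e Vi V0 x y Smi Sm0 Nd) (hR : R ∈ Nd) {z : F}
    (hz : Vi.valuation z = 1) : ∃ (b : ℤ) (ρ : F), RUnit R ρ ∧ Vi.valuation (z / x ^ b - ρ) < 1 := by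
  have hN := M.nd R hR
  have hx := M.x_i
  have hx0 : x ≠ 0 := ne_zero_of_valuation_eq_one hx
  have hunit : ∀ ρ : F, RUnit R ρ → Vi.valuation ρ = 1 := fun ρ hρ =>
    (valuation_eq_one_iff_mem hρ.1).2 ⟨hN.thri.le _ hρ.2.1, hN.thri.le _ hρ.2.2⟩
  obtain ⟨s, hs, hs1, hsz⟩ := hN.thri.loc z ((Vi.valuation_le_one_iff z).1 hz.le)
  have hs0 : s ≠ 0 := ne_zero_of_valuation_eq_one hs1
  obtain ⟨k, ρ, hρ, hc⟩ := branch_ord_aux hN hx hsz (valuation_mul_eq_one hs1 hz)
  obtain ⟨l, ρ', hρ', hc'⟩ := branch_ord_aux hN hx hs hs1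
  refine ⟨(k : ℤ) - l, ρ / ρ', DatumAux.rUnit_div hρ hρ', ?_⟩
  have v1 : Vi.valuation (ρ * x ^ k) = 1 :=
    valuation_mul_eq_one (hunit ρ hρ) (valuation_pow_eq_one hx k)
  have v2 : Vi.valuation (ρ' * x ^ l) = 1 :=
    valuation_mul_eq_one (hunit ρ' hρ') (valuation_pow_eq_one hx l)
  have c := hc.div hc' v1.le v2
  rw [mul_div_cancel_left₀ z hs0] at c
  have c' : Cong Vi (z / x ^ ((k : ℤ) - l)) (ρ * x ^ k / (ρ' * x ^ l) / x ^ ((k : ℤ) - l)) :=
    c.div (Cong.refl Vi _) (by rw [map_div₀, v1, v2, div_one]) (valuation_zpow_eq_one hx _)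
  have e1 : ρ * x ^ k / (ρ' * x ^ l) / x ^ ((k : ℤ) - l) = ρ / ρ' := by
    have hρ'0 := hρ'.1
    rw [zpow_sub₀ hx0, zpow_natCast, zpow_natCast]
    field_simp
  rw [e1] at c'
  exact c'

end Fermat.Agent.S44.Depth

end
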