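/-
S44 / DEPTH, node D2D (architect helper219, proof helper298): `R ∩ 𝔪_W ⊆ P(x) R[1/ϖ]`, with the
conclusion of `hor_gen` (node D2G) as an explicit hypothesis.  The wrapper is `Abs/HorDiv.lean`.
-/
import Fermat.Agent.S44.Depth.Defs

set_option autoImplicit false

noncomputable section

namespace Fermat.Agent.S44.Depth

open Fermat.Agent.S18 Fermat.Agent.S36.BP Polynomial

variable {K F : Type*} [Field K] [Field F] [Algebra K F]
variable {A : ValuationSubring K} {ϖ : K} {e : ℕ} {Vi V0 : ValuationSubring F} {x y : F}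
  {Smi Sm0 Nd : Set (Subring F)} {R : Subring F}

/-- `R[1/ϖ]` as a subring of `F`. -/
private def hdLoc (R : Subring F) (π : F) (hπ : π ∈ R) : Subring F where
  carrier := {z | ∃ m : ℕ, π ^ m * z ∈ R}
  mul_mem' := by
    rintro z z' ⟨m, hm⟩ ⟨m', hm'⟩
    refine ⟨m + m', ?_⟩
    have : π ^ (m + m') * (z * z') = (π ^ m * z) * (π ^ m' * z') := by rw [pow_add]; ring
    rw [this]
    exact R.mul_mem hm hm'
  one_mem' := ⟨0, by simp⟩
  add_mem' := by
    rintro z z' ⟨m, hm⟩ ⟨m', hm'⟩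
    refine ⟨m + m', ?_⟩
    have : π ^ (m + m') * (z + z') = π ^ m' * (π ^ m * z) + π ^ m * (π ^ m' * z') := by
      rw [pow_add]; ring
    rw [this]
    exact R.add_mem (R.mul_mem (R.pow_mem hπ _) hm) (R.mul_mem (R.pow_mem hπ _) hm')
  zero_mem' := ⟨0, by simp⟩
  neg_mem' := by
    rintro z ⟨m, hm⟩
    exact ⟨m, by rw [mul_neg]; exact R.neg_mem hm⟩

private theorem hdLoc_mem_iff {R : Subring F} {π : F} {hπ : π ∈ R} {z : F} :
    z ∈ hdLoc R π hπ ↔ ∃ m : ℕ, π ^ m * z ∈ R := Iff.rfl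

private theorem hdLoc_of_mem {R : Subring F} {π : F} {hπ : π ∈ R} {z : F} (hz : z ∈ R) :
    z ∈ hdLoc R π hπ := ⟨0, by simpa using hz⟩

/-- every constant becomes integral after multiplication by a power of the uniformiser -/
private theorem hd_exists_pow_mul_mem (hA : IsUnif A ϖ) (a : K) : ∃ m : ℕ, ϖ ^ m * a ∈ A := by
  rcases eq_or_ne a 0 with rfl | ha
  · exact ⟨0, by simp⟩
  have hϖ0 : ϖ ≠ 0 := by
    rintro rfl
    exact hA.inv_notMem (by simp)
  obtain ⟨n, hn, -⟩ := hA.exists_zpow a ha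
  refine ⟨(-n).toNat, ?_⟩
  obtain ⟨k, hk⟩ : ∃ k : ℕ, (((-n).toNat : ℕ) : ℤ) + n = k :=
    ⟨(((-n).toNat : ℤ) + n).toNat, by
      have := Int.self_le_toNat (-n)
      omega⟩
  have h1 : ϖ ^ (-n).toNat * a = ϖ ^ k * (a / ϖ ^ n) := by
    rw [← zpow_natCast ϖ k, ← hk, zpow_add₀ hϖ0, zpow_natCast]
    field_simp
  rw [h1]
  exact A.mul_mem _ _ (A.pow_mem hA.mem _) hn

private theorem hdLoc_const (hA : IsUnif A ϖ) (hpt : IsPt A R)
    {hπ : algebraMap K F ϖ ∈ R} (a : K) : algebraMap K F a ∈ hdLoc R (algebraMap K F ϖ) hπ := by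
  obtain ⟨m, hm⟩ := hd_exists_pow_mul_mem hA a
  refine ⟨m, ?_⟩
  rw [← map_pow, ← map_mul]
  exact hpt.const_mem _ hm

private theorem hdLoc_aeval (hA : IsUnif A ϖ) (hpt : IsPt A R)
    {hπ : algebraMap K F ϖ ∈ R} {x : F} (hx : x ∈ R) (S : K[X]) :
    aeval x S ∈ hdLoc R (algebraMap K F ϖ) hπ := by
  induction S using Polynomial.induction_on' with
  | add p q hp hq => rw [map_add]; exact Subring.add_mem _ hp hq
  | monomial n a =>
    rw [aeval_monomial]
    exact Subring.mul_mem _ (hdLoc_const hA hpt a) (Subring.pow_mem _ (hdLoc_of_mem hx) n)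

/-- every element of `A[x, y]` is `Q(x) / x ^ n` -/
private theorem hd_axy_form {c₀ : K} (hx0 : x ≠ 0) (hxy : x * y = algebraMap K F c₀) {q : F}
    (hq : q ∈ Axy A x y) : ∃ (Q : K[X]) (n : ℕ), q * x ^ n = aeval x Q := by
  unfold Axy at hq
  induction hq using Subring.closure_induction with
  | mem z hz =>
    rcases hz with ⟨a, -, rfl⟩ | hz
    · exact ⟨C a, 0, by simp⟩
    · rcases hz with rfl | hz
      · exact ⟨X, 0, by simp⟩
      · rw [Set.mem_singleton_iff] at hz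
        subst hz
        exact ⟨C c₀, 1, by rw [pow_one, mul_comm, hxy, aeval_C]⟩
  | zero => exact ⟨0, 0, by simp⟩
  | one => exact ⟨1, 0, by simp⟩
  | add z z' _ _ h h' =>
    obtain ⟨Q, n, hQ⟩ := h
    obtain ⟨Q', n', hQ'⟩ := h'
    refine ⟨Q * X ^ n' + Q' * X ^ n, n + n', ?_⟩
    rw [map_add, map_mul, map_mul, map_pow, map_pow, aeval_X, ← hQ, ← hQ', pow_add]
    ring
  | neg z _ h =>
    obtain ⟨Q, n, hQ⟩ := h
    exact ⟨-Q, n, by rw [map_neg, ← hQ]; ring⟩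
  | mul z z' _ _ h h' =>
    obtain ⟨Q, n, hQ⟩ := h
    obtain ⟨Q', n', hQ'⟩ := h'
    refine ⟨Q * Q', n + n', ?_⟩
    rw [map_mul, ← hQ, ← hQ', pow_add]
    ring

/-- D2D, core: `R ∩ 𝔪_W ⊆ P(x) R[1/ϖ]` for an element generated by `A[x, y] ∩ 𝔪_W`. -/
theorem hor_div_of_gen (M : NodalModel A ϖ e Vi V0 x y Smi Sm0 Nd) (hR : R ∈ Nd)
    {W : ValuationSubring F} (hW : Hor K R W) {P : K[X]}
    (hmin : ∀ Q : K[X], W.valuation (aeval x Q) < 1 → P ∣ Q) {r : F}
    (hgen : ∃ (n : ℕ) (a q : Fin n → F), (∀ i, a i ∈ R) ∧ (∀ i, q i ∈ Axy A x y) ∧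
      (∀ i, W.valuation (q i) < 1) ∧ r = ∑ i, a i * q i) :
    ∃ m : ℕ, algebraMap K F ϖ ^ m * r / aeval x P ∈ R := by
  have hN := M.nd R hR
  have hpt := hN.isPt
  have hA := M.unifA
  have hπ : algebraMap K F ϖ ∈ R := hpt.const_mem _ hA.mem
  have hϖ0 : ϖ ≠ 0 := by
    rintro rfl
    exact hA.inv_notMem (by simp)
  obtain ⟨c₀, hc₀, hxy⟩ := M.xy
  have hc₀0 : c₀ ≠ 0 := by
    rintro rfl
    rw [map_zero] at hc₀
    exact pow_ne_zero e ((_root_.map_ne_zero A.valuation).2 hϖ0) hc₀.symm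
  have hc₀F : algebraMap K F c₀ ≠ 0 := (_root_.map_ne_zero _).2 hc₀0
  have hx0 : x ≠ 0 := by
    rintro rfl
    rw [zero_mul] at hxy
    exact hc₀F hxy.symm
  have hxR : x ∈ R := hN.x_rad.1
  have hyR : y ∈ R := hN.y_rad.1
  -- `x` is a unit of `W`
  have hxW : W.valuation x = 1 := by
    have h1 : W.valuation x ≤ 1 := (W.valuation_le_one_iff x).2 (hW.2.1 x hxR)
    have h2 : W.valuation y ≤ 1 := (W.valuation_le_one_iff y).2 (hW.2.1 y hyR)
    have h3 : W.valuation (algebraMap K F c₀⁻¹) ≤ 1 := (W.valuation_le_one_iff _).2 (hW.1 _)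
    have h4 : W.valuation x * (W.valuation y * W.valuation (algebraMap K F c₀⁻¹)) = 1 := by
      rw [← map_mul, ← map_mul, ← mul_assoc, hxy, ← map_mul, mul_inv_cancel₀ hc₀0, map_one, map_one]
    refine le_antisymm h1 ?_
    rw [← h4]
    exact mul_le_of_le_one_right' (mul_le_one' h2 h3)
  -- `x⁻¹ ∈ R[1/ϖ]`
  have hxinv : x⁻¹ ∈ hdLoc R (algebraMap K F ϖ) hπ := by
    have : x⁻¹ = y * algebraMap K F c₀⁻¹ := by
      rw [map_inv₀, ← hxy]
      have hy0 : y ≠ 0 := by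
        rintro rfl
        rw [mul_zero] at hxy
        exact hc₀F hxy.symm
      field_simp
    rw [this]
    exact Subring.mul_mem _ (hdLoc_of_mem hyR) (hdLoc_const hA hpt _)
  -- the key step for elements of `A[x, y]`
  have key : ∀ q ∈ Axy A x y, W.valuation q < 1 →
      q / aeval x P ∈ hdLoc R (algebraMap K F ϖ) hπ := by
    intro q hq hqW
    obtain ⟨Q, n, hQ⟩ := hd_axy_form hx0 hxy hq
    have hQW : W.valuation (aeval x Q) < 1 := by
      rw [← hQ, map_mul, map_pow, hxW, one_pow, mul_one]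
      exact hqW
    obtain ⟨S, rfl⟩ := hmin Q hQW
    rcases eq_or_ne (aeval x P) 0 with h0 | h0
    · rw [h0, div_zero]
      exact Subring.zero_mem _
    have : q / aeval x P = aeval x S * x⁻¹ ^ n := by
      rw [map_mul] at hQ
      have hq' : q = aeval x P * aeval x S * x⁻¹ ^ n := by
        rw [← hQ, inv_pow, mul_assoc, mul_inv_cancel₀ (pow_ne_zero n hx0), mul_one]
      rw [hq']
      field_simp
    rw [this]
    exact Subring.mul_mem _ (hdLoc_aeval hA hpt hxR S) (Subring.pow_mem _ hxinv n)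
  obtain ⟨n, a, q, ha, hq, hqW, rfl⟩ := hgen
  have hfin : (∑ i, a i * q i) / aeval x P ∈ hdLoc R (algebraMap K F ϖ) hπ := by
    rw [Finset.sum_div]
    refine Subring.sum_mem _ fun i _ => ?_
    rw [mul_div_assoc]
    exact Subring.mul_mem _ (hdLoc_of_mem (ha i)) (key _ (hq i) (hqW i))
  obtain ⟨m, hm⟩ := hfin
  exact ⟨m, by rw [mul_div_assoc]; exact hm⟩

end Fermat.Agent.S44.Depth

end
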