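/-
S44 / DEPTH (architect helper219), node D2G: a horizontal prime `R ∩ 𝔪_W` of the local ring `R` of
a node is generated by its intersection with `A[x, y]`.  Core: everything except `poly_surj`, which
enters as a hypothesis.
-/
import Mathlib
import Fermat.Agent.S44.Depth.Defs
import Fermat.Agent.S36.BP.Normal

set_option autoImplicit false

noncomputable section

namespace Fermat.Agent.S44.Depth

open Fermat.Agent.S18 Fermat.Agent.S36.BP Polynomial

variable {K F : Type*} [Field K] [Field F] [Algebra K F]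
variable {A : ValuationSubring K} {ϖ : K} {e : ℕ} {Vi V0 : ValuationSubring F} {x y : F}
  {Smi Sm0 Nd : Set (Subring F)} {R : Subring F}

/-- If `R / P` is a finite `A`-module and `P` is finitely generated then `R / (𝔪 P)` is a finite
`A`-module. -/
private theorem horGen_fin (hPt : IsPt A R) [IsLocalRing R] (P : Ideal R) (hPfg : P.FG)
    (S₀ : Finset F) (hS₀ : ∀ s ∈ S₀, s ∈ R)
    (h : ∀ r : R, ∃ c : F → K, (∀ s, c s ∈ A) ∧
      ∃ t ∈ P, (r : F) = ∑ s ∈ S₀, algebraMap K F (c s) * s + (t : F)) :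
    ∃ S : Finset F, (∀ s ∈ S, s ∈ R) ∧ ∀ r : R, ∃ c : F → K, (∀ s, c s ∈ A) ∧
      ∃ t ∈ IsLocalRing.maximalIdeal R * P,
        (r : F) = ∑ s ∈ S, algebraMap K F (c s) * s + (t : F) := by
  classical
  obtain ⟨G, hG⟩ := hPfg
  set G' : Finset F := G.image Subtype.val with hG'
  refine ⟨S₀ ∪ G', ?_, ?_⟩
  · intro s hs
    rcases Finset.mem_union.1 hs with hs | hs
    · exact hS₀ s hs
    · obtain ⟨g, -, rfl⟩ := Finset.mem_image.1 hs
      exact g.2
  intro r
  obtain ⟨c₀, hc₀, t₀, ht₀, hr⟩ := h r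
  rw [← hG] at ht₀
  obtain ⟨f, -, hf⟩ := Submodule.mem_span_finset.1 ht₀
  have hres : ∀ g : R, ∃ a : K, a ∈ A ∧ (f g : F) - algebraMap K F a ∈ rad R := fun g => by
    obtain ⟨a, ha, h1⟩ := hPt.res (f g : F) (f g).2
    exact ⟨a, ha, h1⟩
  choose a ha hrad using hres
  let a' : F → K := fun s => if hs : s ∈ R then a ⟨s, hs⟩ else 0
  have ha' : ∀ g : R, a' (g : F) = a g := fun g => by
    simp only [a', dif_pos g.2]
  have ha'A : ∀ s, a' s ∈ A := fun s => by
    by_cases hs : s ∈ R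
    · simp only [a', dif_pos hs]; exact ha _
    · simp only [a', dif_neg hs]; exact A.zero_mem
  let aR : R → R := fun g => ⟨algebraMap K F (a g), hPt.const_mem _ (ha g)⟩
  refine ⟨fun s => (if s ∈ S₀ then c₀ s else 0) + (if s ∈ G' then a' s else 0), ?_,
    ∑ g ∈ G, (f g - aR g) * g, ?_, ?_⟩
  · intro s
    refine A.add_mem _ _ ?_ ?_
    · split_ifs
      · exact hc₀ s
      · exact A.zero_mem
    · split_ifs
      · exact ha'A s
      · exact A.zero_mem
  · refine Ideal.sum_mem _ fun g hg => Ideal.mul_mem_mul ?_ ?_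
    · rw [IsLocalRing.mem_maximalIdeal, mem_nonunits_iff, ← mem_rad_iff_not_isUnit]
      exact hrad g
    · rw [← hG]
      exact Submodule.subset_span hg
  · have h1 : ∑ s ∈ S₀ ∪ G', algebraMap K F
        ((if s ∈ S₀ then c₀ s else 0) + (if s ∈ G' then a' s else 0)) * s =
        ∑ s ∈ S₀, algebraMap K F (c₀ s) * s + ∑ s ∈ G', algebraMap K F (a' s) * s := by
      have e1 : ∀ s : F, algebraMap K F
          ((if s ∈ S₀ then c₀ s else 0) + (if s ∈ G' then a' s else 0)) * s =
          (if s ∈ S₀ then algebraMap K F (c₀ s) * s else 0) +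
          (if s ∈ G' then algebraMap K F (a' s) * s else 0) := by
        intro s
        split_ifs <;> simp [add_mul]
      rw [Finset.sum_congr rfl (fun s _ => e1 s), Finset.sum_add_distrib, Finset.sum_ite_mem,
        Finset.sum_ite_mem, Finset.union_inter_cancel_left, Finset.union_inter_cancel_right]
    have h2 : ∑ s ∈ G', algebraMap K F (a' s) * s = ∑ g ∈ G, algebraMap K F (a g) * (g : F) := by
      rw [hG', Finset.sum_image (fun g₁ _ g₂ _ h12 => Subtype.ext h12)]
      exact Finset.sum_congr rfl fun g _ => by rw [ha']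
    have h3 : (t₀ : F) = ∑ g ∈ G, (f g : F) * (g : F) := by
      rw [← hf]
      simp [smul_eq_mul]
    have h4 : ((∑ g ∈ G, (f g - aR g) * g : R) : F) =
        ∑ g ∈ G, ((f g : F) - algebraMap K F (a g)) * (g : F) := by
      simp [aR]
    rw [h1, h2, h4, hr, h3, add_assoc, ← Finset.sum_add_distrib]
    congr 1
    exact Finset.sum_congr rfl fun g _ => by ring

/-- D2G, from the conclusion of `poly_surj`: the horizontal prime `R ∩ 𝔪_W` is generated by its
intersection with `A[x, y]`. -/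
theorem horGen_core (hN : IsNode A ϖ Vi V0 x y R)
    (hps : ∀ I : Ideal R, I ≠ ⊤ →
      (∃ S : Finset F, (∀ s ∈ S, s ∈ R) ∧ ∀ r : R, ∃ c : F → K, (∀ s, c s ∈ A) ∧
        ∃ t ∈ I, (r : F) = ∑ s ∈ S, algebraMap K F (c s) * s + (t : F)) →
      ∀ r : R, ∃ q ∈ Axy A x y, ∃ t ∈ I, (r : F) = q + (t : F))
    {W : ValuationSubring F} (hW : Hor K R W) {r : F} (hr : r ∈ R) (hrW : W.valuation r < 1) :
    ∃ (n : ℕ) (a q : Fin n → F), (∀ i, a i ∈ R) ∧ (∀ i, q i ∈ Axy A x y) ∧
      (∀ i, W.valuation (q i) < 1) ∧ r = ∑ i, a i * q i := by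
  classical
  have hPt : IsPt A R := hN.isPt
  have := hPt.isLocalRing
  have := hPt.noeth
  let f : R →+* W := Subring.inclusion (show R ≤ W.toSubring from hW.2.1)
  let P : Ideal R := (IsLocalRing.maximalIdeal W).comap f
  have hP : ∀ r : R, r ∈ P ↔ W.valuation (r : F) < 1 := fun r => by
    rw [Ideal.mem_comap, ValuationSubring.valuation_lt_one_iff]
    rfl
  have hPfg : P.FG := IsNoetherian.noetherian P
  have hI : IsLocalRing.maximalIdeal R * P ≠ ⊤ := by
    intro h
    have h1 : (⊤ : Ideal R) ≤ IsLocalRing.maximalIdeal R := h ▸ Ideal.mul_le_left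
    exact (IsLocalRing.maximalIdeal.isMaximal R).ne_top (top_le_iff.1 h1)
  obtain ⟨S₀, hS₀, hfin₀⟩ := hN.fin W hW
  have hfin := horGen_fin hPt P hPfg S₀ hS₀ (by
    intro r
    obtain ⟨c, hc, hv⟩ := hfin₀ r r.2
    have hmem : (r : F) - ∑ s ∈ S₀, algebraMap K F (c s) * s ∈ R :=
      R.sub_mem r.2 (R.sum_mem fun s hs => R.mul_mem (hPt.const_mem _ (hc s)) (hS₀ s hs))
    exact ⟨c, hc, ⟨_, hmem⟩, (hP _).2 hv, by simp⟩)
  have hsurj := hps _ hI hfin
  let J : Ideal R := Ideal.span {z : R | (z : F) ∈ Axy A x y ∧ W.valuation (z : F) < 1}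
  have hle : P ≤ J ⊔ IsLocalRing.maximalIdeal R • P := by
    intro z hz
    obtain ⟨q, hq, t, ht, hzq⟩ := hsurj z
    have htP : t ∈ P := Ideal.mul_le_right ht
    have hqR : q = ((z - t : R) : F) := by
      push_cast
      rw [hzq]; ring
    have hzt : z = (z - t) + t := by ring
    rw [hzt]
    refine Submodule.add_mem_sup (Ideal.subset_span ⟨hqR ▸ hq, ?_⟩) ht
    exact (hP _).1 (P.sub_mem hz htP)
  have hPJ : P ≤ J := Submodule.le_of_le_smul_of_le_jacobson_bot hPfg
    (IsLocalRing.maximalIdeal_le_jacobson ⊥) hle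
  have hrJ : (⟨r, hr⟩ : R) ∈ J := hPJ ((hP _).2 hrW)
  obtain ⟨n, a, g, hag⟩ := Submodule.mem_span_set'.1 hrJ
  refine ⟨n, fun i => (a i : F), fun i => ((g i : R) : F), fun i => (a i).2, fun i => (g i).2.1,
    fun i => (g i).2.2, ?_⟩
  have := congrArg (Subtype.val) hag
  simp only [smul_eq_mul] at this
  rw [← this]
  simp

end Fermat.Agent.S44.Depth

end
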