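/-
S44 / DEPTH, node D2N (owner helper277): if `R / I` is a finite `A`-module then
`A[x, y] → R / I` is surjective.

Proof: `B = A[x, y] ⊆ R`, `J = (x, y, ϖ) B`.  The `B`-module `Q = R / (B + I)` is finitely generated
and `Q = J Q` because `R = A + x R + y R + ϖ R`.  By the determinant trick there is `b ∈ 1 + J` with
`b Q = 0`; but `b` is a unit of `R`, so `Q = b Q = 0`.
-/
import Fermat.Agent.S44.Depth.Defs
import Fermat.Agent.S36.BP.Datum
import Fermat.Agent.S44.Depth.Abs.Rad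

set_option autoImplicit false

noncomputable section

namespace Fermat.Agent.S44.Depth

open Fermat.Agent.S18 Fermat.Agent.S36.BP Polynomial

/-- The determinant trick inside one field. -/
private theorem PolySurj.nakayama {F : Type*} [Field F] (B R : Subring F) (hBR : B ≤ R)
    (I : Ideal R) (g₁ g₂ g₃ : F) (h₁ : g₁ ∈ B) (h₂ : g₂ ∈ B) (h₃ : g₃ ∈ B)
    (hunit : ∀ r₁ ∈ R, ∀ r₂ ∈ R, ∀ r₃ ∈ R, RUnit R (1 + (r₁ * g₁ + r₂ * g₂ + r₃ * g₃)))
    (hgen : ∀ r ∈ R, ∃ q ∈ B, ∃ r₁ ∈ R, ∃ r₂ ∈ R, ∃ r₃ ∈ R,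
      r = q + (r₁ * g₁ + r₂ * g₂ + r₃ * g₃))
    (S : Finset F) (hS : ∀ s ∈ S, s ∈ R)
    (hfin : ∀ r : R, ∃ c : F → F, (∀ s, c s ∈ B) ∧ ∃ t ∈ I, (r : F) = ∑ s ∈ S, c s * s + (t : F)) :
    ∀ r : R, ∃ q ∈ B, ∃ t ∈ I, (r : F) = q + (t : F) := by
  classical
  -- the `B`-submodules `R`, `I`, `B` of `F`
  let Rm : Submodule B F :=
    { carrier := {z | z ∈ R}
      add_mem' := fun ha hb => R.add_mem ha hb
      zero_mem' := R.zero_mem
      smul_mem' := fun b z hz => R.mul_mem (hBR b.2) hz }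
  let Im : Submodule B F :=
    { carrier := {z | ∃ t ∈ I, (t : F) = z}
      add_mem' := by
        rintro _ _ ⟨t, ht, rfl⟩ ⟨t', ht', rfl⟩
        exact ⟨t + t', I.add_mem ht ht', rfl⟩
      zero_mem' := ⟨0, I.zero_mem, rfl⟩
      smul_mem' := by
        rintro b _ ⟨t, ht, rfl⟩
        exact ⟨⟨b, hBR b.2⟩ * t, I.mul_mem_left _ ht, rfl⟩ }
  let Bm : Submodule B F :=
    { carrier := {z | z ∈ B}
      add_mem' := fun ha hb => B.add_mem ha hb
      zero_mem' := B.zero_mem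
      smul_mem' := fun b z hz => B.mul_mem b.2 hz }
  let P : Submodule B F := Bm ⊔ Im
  let N : Submodule B (F ⧸ P) := Rm.map P.mkQ
  let J : Ideal B := Ideal.span {⟨g₁, h₁⟩, ⟨g₂, h₂⟩, ⟨g₃, h₃⟩}
  have hBP : ∀ z ∈ B, P.mkQ z = 0 := fun z hz =>
    (Submodule.Quotient.mk_eq_zero P).2 (Submodule.mem_sup_left (show z ∈ Bm from hz))
  have hIP : ∀ t ∈ I, P.mkQ (t : F) = 0 := fun t ht =>
    (Submodule.Quotient.mk_eq_zero P).2 (Submodule.mem_sup_right (show (t : F) ∈ Im from ⟨t, ht, rfl⟩))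
  have hNeq : N = (Submodule.span B (S : Set F)).map P.mkQ := by
    apply le_antisymm
    · rintro _ ⟨r, hr, rfl⟩
      obtain ⟨c, hc, t, ht, hrt⟩ := hfin ⟨r, hr⟩
      refine ⟨∑ s ∈ S, c s * s, ?_, ?_⟩
      · refine Submodule.sum_mem _ fun s hs => ?_
        exact Submodule.smul_mem _ (⟨c s, hc s⟩ : B) (Submodule.subset_span hs)
      · have : r = ∑ s ∈ S, c s * s + (t : F) := hrt
        rw [this, map_add, hIP t ht, add_zero]
    · exact Submodule.map_mono (Submodule.span_le.2 fun s hs => hS s hs)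
  have hNfg : N.FG := by
    rw [hNeq]
    exact (Submodule.fg_span S.finite_toSet).map _
  have hmem : ∀ (g : F) (hg : g ∈ B), (⟨g, hg⟩ : B) ∈ J → ∀ r ∈ R, P.mkQ (r * g) ∈ J • N := by
    intro g hg hgJ r hr
    have : P.mkQ (r * g) = (⟨g, hg⟩ : B) • P.mkQ r := by
      rw [← map_smul]
      congr 1
      exact mul_comm r g
    rw [this]
    exact Submodule.smul_mem_smul hgJ (Submodule.mem_map_of_mem (show r ∈ Rm from hr))
  have hJ₁ : (⟨g₁, h₁⟩ : B) ∈ J := Ideal.subset_span (by simp)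
  have hJ₂ : (⟨g₂, h₂⟩ : B) ∈ J := Ideal.subset_span (by simp)
  have hJ₃ : (⟨g₃, h₃⟩ : B) ∈ J := Ideal.subset_span (by simp)
  have hle : N ≤ J • N := by
    rintro _ ⟨r, hr, rfl⟩
    obtain ⟨q, hq, r₁, hr₁, r₂, hr₂, r₃, hr₃, rfl⟩ := hgen r hr
    rw [map_add, hBP q hq, zero_add, map_add, map_add]
    exact Submodule.add_mem _ (Submodule.add_mem _ (hmem g₁ h₁ hJ₁ r₁ hr₁) (hmem g₂ h₂ hJ₂ r₂ hr₂))
      (hmem g₃ h₃ hJ₃ r₃ hr₃)
  obtain ⟨b, hbJ, hb⟩ := Submodule.exists_sub_one_mem_and_smul_eq_zero_of_fg_of_le_smul J N hNfg hle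
  -- `b` is a unit of `R`
  have hbu : RUnit R (b : F) := by
    rw [Ideal.mem_span_insert] at hbJ
    obtain ⟨c₁, z, hz, hbz⟩ := hbJ
    rw [Ideal.mem_span_pair] at hz
    obtain ⟨c₂, c₃, rfl⟩ := hz
    have h := hunit c₁ (hBR c₁.2) c₂ (hBR c₂.2) c₃ (hBR c₃.2)
    have h' : (b : F) = 1 + ((c₁ : F) * g₁ + (c₂ : F) * g₂ + (c₃ : F) * g₃) := by
      have := congrArg (Subtype.val : B → F) hbz
      push_cast at this
      linear_combination this
    rw [h']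
    exact h
  intro r
  have h1 : (b : F)⁻¹ * (r : F) ∈ R := R.mul_mem hbu.2.2 r.2
  have h2 := hb _ (Submodule.mem_map_of_mem (f := P.mkQ) (show (b : F)⁻¹ * (r : F) ∈ Rm from h1))
  rw [← map_smul] at h2
  have h3 : b • ((b : F)⁻¹ * (r : F)) = (r : F) := by
    show (b : F) * ((b : F)⁻¹ * (r : F)) = (r : F)
    rw [mul_inv_cancel_left₀ hbu.1]
  rw [h3] at h2
  have h4 : (r : F) ∈ P := (Submodule.Quotient.mk_eq_zero P).1 h2
  obtain ⟨q, hq, _, ⟨t, ht, rfl⟩, hqt⟩ := Submodule.mem_sup.1 h4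
  exact ⟨q, hq, t, ht, hqt.symm⟩

variable {K F : Type*} [Field K] [Field F] [Algebra K F]
variable {A : ValuationSubring K} {ϖ : K} {e : ℕ} {Vi V0 : ValuationSubring F} {x y : F}
  {Smi Sm0 Nd : Set (Subring F)} {R : Subring F}

private theorem PolySurj.const_mem_axy {a : K} (ha : a ∈ A) : algebraMap K F a ∈ Axy A x y :=
  Subring.subset_closure (Or.inl ⟨a, ha, rfl⟩)

private theorem PolySurj.x_mem_axy : x ∈ Axy A x y :=
  Subring.subset_closure (Or.inr (by simp))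

private theorem PolySurj.y_mem_axy : y ∈ Axy A x y :=
  Subring.subset_closure (Or.inr (by simp))

private theorem PolySurj.axy_le (hP : IsPt A R) (hx : x ∈ R) (hy : y ∈ R) : Axy A x y ≤ R := by
  unfold Axy
  rw [Subring.closure_le]
  rintro z (⟨a, ha, rfl⟩ | hz)
  · exact hP.const_mem a ha
  · rcases hz with rfl | hz
    · exact hx
    · rw [Set.mem_singleton_iff] at hz
      rw [hz]
      exact hy

/-- D2N (Nakayama): if `R / I` is a finite `A`-module then `A[x, y] → R / I` is surjective. -/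
theorem poly_surj (M : NodalModel A ϖ e Vi V0 x y Smi Sm0 Nd) (hR : R ∈ Nd) (I : Ideal R)
    (hI : I ≠ ⊤)
    (hfin : ∃ S : Finset F, (∀ s ∈ S, s ∈ R) ∧ ∀ r : R, ∃ c : F → K, (∀ s, c s ∈ A) ∧
      ∃ t ∈ I, (r : F) = ∑ s ∈ S, algebraMap K F (c s) * s + (t : F)) :
    ∀ r : R, ∃ q ∈ Axy A x y, ∃ t ∈ I, (r : F) = q + (t : F) := by
  have hN := M.nd R hR
  have hP := hN.isPt
  obtain ⟨S, hS, hfin⟩ := hfin
  have hϖA : ϖ ∈ A := M.unifA.mem
  have hϖ : algebraMap K F ϖ ∈ rad R := hP.const_rad ϖ (valuation_lt_one_of_isUnif M.unifA)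
  refine PolySurj.nakayama (Axy A x y) R (PolySurj.axy_le hP hN.x_rad.1 hN.y_rad.1) I x y
    (algebraMap K F ϖ) PolySurj.x_mem_axy PolySurj.y_mem_axy (PolySurj.const_mem_axy hϖA)
    ?_ ?_ S hS ?_
  · intro r₁ hr₁ r₂ hr₂ r₃ hr₃
    exact DatumAux.rUnit_add_rad hP DatumAux.rUnit_one
      (hP.add_rad _ (hP.add_rad _ (DatumAux.mul_mem_rad hr₁ hN.x_rad) _
        (DatumAux.mul_mem_rad hr₂ hN.y_rad)) _ (DatumAux.mul_mem_rad hr₃ hϖ))
  · intro r hr
    obtain ⟨a, ha, har⟩ := hP.res r hr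
    obtain ⟨r₁, hr₁, r₂, hr₂, r₃, hr₃, h⟩ := rad_eq M hR har
    exact ⟨algebraMap K F a, PolySurj.const_mem_axy ha, r₁, hr₁, r₂, hr₂, r₃, hr₃, by
      rw [← h]; ring⟩
  · intro r
    obtain ⟨c, hc, t, ht, h⟩ := hfin r
    exact ⟨fun s => algebraMap K F (c s), fun s => PolySurj.const_mem_axy (hc s), t, ht, h⟩

end Fermat.Agent.S44.Depth

end
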