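/-
S44 / DEPTH (architect helper219), node D2G: a horizontal prime `R ∩ 𝔪_W` of the local ring `R` of
a node is generated by its intersection with `A[x, y]` (`horGen_core` + `poly_surj`).
-/
import Fermat.Agent.S44.Depth.Abs.HorGenCore
import Fermat.Agent.S44.Depth.Abs.PolySurj

set_option autoImplicit false

noncomputable section

namespace Fermat.Agent.S44.Depth

open Fermat.Agent.S18 Fermat.Agent.S36.BP Polynomial

variable {K F : Type*} [Field K] [Field F] [Algebra K F]
variable {A : ValuationSubring K} {ϖ : K} {e : ℕ} {Vi V0 : ValuationSubring F} {x y : F}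
  {Smi Sm0 Nd : Set (Subring F)} {R : Subring F}

/-- D2G: the horizontal prime `R ∩ 𝔪_W` is generated by its intersection with `A[x, y]`. -/
theorem hor_gen (M : NodalModel A ϖ e Vi V0 x y Smi Sm0 Nd) (hR : R ∈ Nd)
    {W : ValuationSubring F} (hW : Hor K R W) {r : F} (hr : r ∈ R) (hrW : W.valuation r < 1) :
    ∃ (n : ℕ) (a q : Fin n → F), (∀ i, a i ∈ R) ∧ (∀ i, q i ∈ Axy A x y) ∧
      (∀ i, W.valuation (q i) < 1) ∧ r = ∑ i, a i * q i :=
  horGen_core (M.nd R hR) (fun I hI hfin => poly_surj M hR I hI hfin) hW hr hrW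

end Fermat.Agent.S44.Depth

end
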