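/-
S44 / DEPTH (architect helper219), node D2D: `hor_div` = `hor_div_of_gen` (helper298) + `hor_gen`.
Wrapper.
-/
import Fermat.Agent.S44.Depth.Abs.HorDivCore
import Fermat.Agent.S44.Depth.Abs.HorGen

set_option autoImplicit false

noncomputable section

namespace Fermat.Agent.S44.Depth

open Fermat.Agent.S18 Fermat.Agent.S36.BP Polynomial

variable {K F : Type*} [Field K] [Field F] [Algebra K F]
variable {A : ValuationSubring K} {ϖ : K} {e : ℕ} {Vi V0 : ValuationSubring F} {x y : F}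
  {Smi Sm0 Nd : Set (Subring F)} {R : Subring F}

/-- D2D: `R ∩ 𝔪_W ⊆ P(x) R[1/ϖ]`. -/
theorem hor_div (M : NodalModel A ϖ e Vi V0 x y Smi Sm0 Nd) (hR : R ∈ Nd)
    {W : ValuationSubring F} (hW : Hor K R W) {P : K[X]} (hP : P.Monic)
    (hPW : W.valuation (aeval x P) < 1) (hmin : ∀ Q : K[X], W.valuation (aeval x Q) < 1 → P ∣ Q)
    {r : F} (hr : r ∈ R) (hrW : W.valuation r < 1) :
    ∃ m : ℕ, algebraMap K F ϖ ^ m * r / aeval x P ∈ R :=
  hor_div_of_gen M hR hW hmin (hor_gen M hR hW hr hrW)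

end Fermat.Agent.S44.Depth

end
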