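/-
S44 / DEPTH (architect helper219), node D2M: the minimal polynomial of `x` modulo a horizontal
valuation through a node.
-/
import Fermat.Agent.S44.Depth.Defs

set_option autoImplicit false

noncomputable section

namespace Fermat.Agent.S44.Depth

open Fermat.Agent.S18 Fermat.Agent.S36.BP Polynomial

variable {K F : Type*} [Field K] [Field F] [Algebra K F]
variable {A : ValuationSubring K} {ϖ : K} {e : ℕ} {Vi V0 : ValuationSubring F} {x y : F}
  {Smi Sm0 Nd : Set (Subring F)} {R : Subring F}

/-- D2M: the minimal polynomial of `x` modulo `𝔪_W`. -/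
theorem hor_minpoly (M : NodalModel A ϖ e Vi V0 x y Smi Sm0 Nd) (hR : R ∈ Nd)
    {W : ValuationSubring F} (hW : Hor K R W) :
    ∃ P : K[X], P.Monic ∧ (∀ i, P.coeff i ∈ A) ∧ W.valuation (aeval x P) < 1 ∧
      ∀ Q : K[X], W.valuation (aeval x Q) < 1 → P ∣ Q := by
  classical
  have hN := M.nd R hR
  have hK : ∀ a : K, algebraMap K F a ∈ W := hW.1
  have hRW : R ≤ W.toSubring := hW.2.1
  have hxR : x ∈ R := hN.x_rad.1
  have hxW : x ∈ W := hRW hxR
  let kW := IsLocalRing.ResidueField W
  let ι : K →+* W := (algebraMap K F).codRestrict W.toSubring hK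
  let _ : Algebra K kW := ((IsLocalRing.residue W).comp ι).toAlgebra
  let _ : Algebra A kW := ((algebraMap K kW).comp (algebraMap A K)).toAlgebra
  have : IsScalarTower A K kW := IsScalarTower.of_algebraMap_eq (fun _ => rfl)
  let xb : kW := IsLocalRing.residue W ⟨x, hxW⟩
  have hres : ∀ z : W, IsLocalRing.residue W z = 0 ↔ W.valuation (z : F) < 1 := fun z => by
    rw [IsLocalRing.residue_eq_zero_iff, ValuationSubring.valuation_lt_one_iff]
  have key : ∀ Q : K[X], aeval xb Q = 0 ↔ W.valuation (aeval x Q) < 1 := by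
    intro Q
    have h1 : aeval xb Q = IsLocalRing.residue W (eval₂ ι ⟨x, hxW⟩ Q) := by
      rw [aeval_def, hom_eval₂]
      rfl
    have h2 : ((eval₂ ι ⟨x, hxW⟩ Q : W) : F) = aeval x Q := by
      have := hom_eval₂ Q ι W.subtype ⟨x, hxW⟩
      rw [aeval_def]
      exact this
    rw [h1, hres, h2]
  have hint : IsIntegral A xb := by
    obtain ⟨S, hSR, hS⟩ := hN.fin W hW
    let π : R →+* kW := (IsLocalRing.residue W).comp (Subring.inclusion hRW)
    let κ : A →+* R :=
      ((algebraMap K F).comp (algebraMap A K)).codRestrict R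
        (fun a => hN.isPt.const_mem a a.2)
    have hκ : ∀ a : A, algebraMap A kW a = π (κ a) := fun a => rfl
    let g : S → kW := fun s => π ⟨s, hSR s s.2⟩
    let N : Submodule A kW := Submodule.span A (Set.range g)
    have hmem : ∀ r : R, π r ∈ N := by
      intro r
      obtain ⟨c, hc, hv⟩ := hS r r.2
      have h0 : π (r - ∑ s : S, κ ⟨c s, hc s⟩ * ⟨s, hSR s s.2⟩) = 0 := by
        have : ((Subring.inclusion hRW (r - ∑ s : S, κ ⟨c s, hc s⟩ * ⟨s, hSR s s.2⟩) : W) : F)
            = r - ∑ s ∈ S, algebraMap K F (c s) * s := by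
          rw [← Finset.sum_coe_sort S (fun s => algebraMap K F (c s) * s)]
          change ((r - ∑ s : S, κ ⟨c s, hc s⟩ * ⟨s, hSR s s.2⟩ : R) : F) = _
          rw [AddSubgroupClass.coe_sub, AddSubmonoidClass.coe_finsetSum]
          rfl
        show IsLocalRing.residue W _ = 0
        rw [hres, this]
        exact hv
      rw [map_sub, sub_eq_zero] at h0
      rw [h0, map_sum]
      refine Submodule.sum_mem _ fun s _ => ?_
      rw [map_mul, ← hκ, ← Algebra.smul_def]
      exact Submodule.smul_mem _ _ (Submodule.subset_span ⟨s, rfl⟩)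
    refine isIntegral_of_smul_mem_submodule N ?_ (Submodule.fg_span (Set.finite_range g)) xb ?_
    · intro h
      have h1 : (1 : kW) ∈ N := by simpa using hmem 1
      rw [h] at h1
      exact one_ne_zero ((Submodule.mem_bot A).1 h1)
    · intro n hn
      induction hn using Submodule.span_induction with
      | mem z hz =>
        obtain ⟨s, rfl⟩ := hz
        have : xb • g s = π (⟨x, hxR⟩ * ⟨s, hSR s s.2⟩) := by
          rw [map_mul, smul_eq_mul]
          rfl
        rw [this]
        exact hmem _
      | zero => simp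
      | add a b _ _ ha hb => rw [smul_add]; exact N.add_mem ha hb
      | smul a z _ hz => rw [smul_comm]; exact N.smul_mem a hz
  refine ⟨minpoly K xb, minpoly.monic hint.tower_top, ?_, (key _).1 (minpoly.aeval _ _),
    fun Q hQ => minpoly.dvd _ _ ((key Q).2 hQ)⟩
  intro i
  rw [minpoly.isIntegrallyClosed_eq_field_fractions' K hint, coeff_map]
  exact Subtype.property _

end Fermat.Agent.S44.Depth

end
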