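/-
S44 / DEPTH (architect helper219), task D2a: basic facts of `NodalModel`, `𝔪_R = (x, y, ϖ)` at a
node, and monic polynomials in `x` with integral coefficients are units on `C_∞`.
-/
import Fermat.Agent.S44.Depth.Defs
import Fermat.Agent.S18.Chart.Unif
import Fermat.Agent.S36.BP.Base
import Fermat.Agent.S36.BP.Datum
import Fermat.Agent.S36.BP.OrdersAux

set_option autoImplicit false

noncomputable section

namespace Fermat.Agent.S44.Depth

open Fermat.Agent.S18 Fermat.Agent.S36.BP Polynomial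

variable {K F : Type*} [Field K] [Field F] [Algebra K F]
variable {A : ValuationSubring K} {ϖ : K} {e : ℕ} {Vi V0 : ValuationSubring F} {x y : F}
  {Smi Sm0 Nd : Set (Subring F)} {R : Subring F}

/-! ### Basic facts -/

/-- elements of positive valuation are divisible by the uniformiser -/
theorem NodalModel.div_unif_mem {V : ValuationSubring F} {ϖF : F} (hV : IsUnif V ϖF) {z : F}
    (hz : V.valuation z < 1) : z / ϖF ∈ V := by
  rcases eq_or_ne z 0 with rfl | hz0
  · rw [zero_div]
    exact V.zero_mem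
  refine hV.div_mem ((V.valuation_le_one_iff _).mp hz.le) fun h => ?_
  have h1 := (V.valuation_le_one_iff _).mpr h
  rw [map_inv₀, inv_le_one₀ (zero_lt_iff.mpr ((Valuation.ne_zero_iff _).mpr hz0))] at h1
  exact absurd hz (not_lt.mpr h1)

/-- the valuation of a constant of order `k` -/
theorem NodalModel.val_const_of {W : ValuationSubring F} (hA : IsUnif A ϖ)
    (hW : ∀ a ∈ A, algebraMap K F a ∈ W) {c : K} {k : ℕ}
    (hc : A.valuation c = A.valuation ϖ ^ k) :
    W.valuation (algebraMap K F c) = W.valuation (algebraMap K F ϖ) ^ k := by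
  have hϖ : ϖ ≠ 0 := hA.ne_zero
  have hv : A.valuation ϖ ^ k ≠ 0 := pow_ne_zero _ ((Valuation.ne_zero_iff _).mpr hϖ)
  have hu : A.valuation (c / ϖ ^ k) = 1 := by
    rw [map_div₀, map_pow, hc, div_self hv]
  have h1 := ord_val_const_unit hW hu
  have h2 : c = c / ϖ ^ k * ϖ ^ k := by
    rw [div_mul_cancel₀ _ (pow_ne_zero _ hϖ)]
  rw [h2, map_mul, map_mul, h1, one_mul, map_pow, map_pow]

/-- constants of positive valuation have positive valuation -/
theorem NodalModel.val_const_lt_one_of {W : ValuationSubring F} (hA : IsUnif A ϖ)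
    (hWu : IsUnif W (algebraMap K F ϖ)) (hW : ∀ a ∈ A, algebraMap K F a ∈ W) {c : K}
    (hc : A.valuation c < 1) : W.valuation (algebraMap K F c) < 1 := by
  have h1 : c / ϖ ∈ A := NodalModel.div_unif_mem hA hc
  have h2 : c = ϖ * (c / ϖ) := by
    rw [mul_div_cancel₀ _ hA.ne_zero]
  rw [h2, map_mul, map_mul]
  exact mul_lt_one_of_lt_of_le (valuation_lt_one_of_isUnif hWu)
    ((W.valuation_le_one_iff _).mpr (hW _ h1))

section Model

variable (M : NodalModel A ϖ e Vi V0 x y Smi Sm0 Nd)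
include M

theorem NodalModel.val_unif_i_lt_one : Vi.valuation (algebraMap K F ϖ) < 1 :=
  valuation_lt_one_of_isUnif M.unifi

theorem NodalModel.val_unif_0_lt_one : V0.valuation (algebraMap K F ϖ) < 1 :=
  valuation_lt_one_of_isUnif M.unif0

theorem NodalModel.val_const_i_lt_one {c : K} (hc : A.valuation c < 1) :
    Vi.valuation (algebraMap K F c) < 1 :=
  NodalModel.val_const_lt_one_of M.unifA M.unifi M.consti hc

theorem NodalModel.val_const_0_lt_one {c : K} (hc : A.valuation c < 1) :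
    V0.valuation (algebraMap K F c) < 1 :=
  NodalModel.val_const_lt_one_of M.unifA M.unif0 M.const0 hc

theorem NodalModel.val_y_i : Vi.valuation y = Vi.valuation (algebraMap K F ϖ) ^ e := by
  obtain ⟨c₀, hc, hxy⟩ := M.xy
  rw [← NodalModel.val_const_of M.unifA M.consti hc, ← hxy, map_mul, M.x_i, one_mul]

theorem NodalModel.val_x_0 : V0.valuation x = V0.valuation (algebraMap K F ϖ) ^ e := by
  obtain ⟨c₀, hc, hxy⟩ := M.xy
  rw [← NodalModel.val_const_of M.unifA M.const0 hc, ← hxy, map_mul, M.y_0, mul_one]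

theorem NodalModel.val_y_i_lt_one : Vi.valuation y < 1 := by
  rw [M.val_y_i]
  exact pow_lt_one₀ zero_le M.val_unif_i_lt_one M.e_pos.ne'

theorem NodalModel.val_x_0_lt_one : V0.valuation x < 1 := by
  rw [M.val_x_0]
  exact pow_lt_one₀ zero_le M.val_unif_0_lt_one M.e_pos.ne'

theorem NodalModel.x_ne_zero : x ≠ 0 := by
  rintro rfl
  have := M.x_i
  rw [map_zero] at this
  exact zero_ne_one this

theorem NodalModel.y_ne_zero : y ≠ 0 := by
  rintro rfl
  have := M.y_0
  rw [map_zero] at this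
  exact zero_ne_one this

theorem NodalModel.Vi_ne_V0 : Vi ≠ V0 := by
  rintro rfl
  exact absurd M.y_0 M.val_y_i_lt_one.ne

theorem NodalModel.unif_ne_zero : algebraMap K F ϖ ≠ 0 := M.unifi.ne_zero

theorem NodalModel.unif_mem_rad (hR : IsPt A R) : algebraMap K F ϖ ∈ rad R :=
  hR.const_rad ϖ (valuation_lt_one_of_isUnif M.unifA)

theorem NodalModel.x_mem (hR : R ∈ Nd) : x ∈ R := (M.nd R hR).x_rad.1

theorem NodalModel.y_mem (hR : R ∈ Nd) : y ∈ R := (M.nd R hR).y_rad.1

/-- polynomials in `x` with integral coefficients lie in `R` -/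
theorem NodalModel.aeval_x_mem (hR : R ∈ Nd) {P : K[X]} (hc : ∀ i, P.coeff i ∈ A) :
    aeval x P ∈ R := by
  rw [aeval_eq_sum_range]
  refine R.sum_mem fun i _ => ?_
  rw [Algebra.smul_def]
  exact R.mul_mem ((M.nd R hR).isPt.const_mem _ (hc i)) (R.pow_mem (M.x_mem hR) i)

/-- a polynomial in `x` with integral coefficients and unit constant term is a unit of `R` -/
theorem NodalModel.rUnit_aeval_x (hR : R ∈ Nd) {P : K[X]} (hc : ∀ i, P.coeff i ∈ A)
    (h0 : A.valuation (P.coeff 0) = 1) : RUnit R (aeval x P) := by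
  have hN := M.nd R hR
  have hQ : aeval x P.divX ∈ R := M.aeval_x_mem hR fun i => by rw [coeff_divX]; exact hc _
  have h1 : aeval x P = algebraMap K F (P.coeff 0) + aeval x P.divX * x := by
    conv_lhs => rw [← divX_mul_X_add P]
    rw [map_add, map_mul, aeval_X, aeval_C, add_comm]
  rw [h1]
  exact DatumAux.rUnit_add_rad hN.isPt (DatumAux.rUnit_const hN.isPt h0)
    (DatumAux.mul_mem_rad hQ hN.x_rad)

/-- a polynomial in `x` with integral coefficients, one of which is a unit, is a unit on `C_∞` -/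
theorem NodalModel.val_aeval_x (hR : R ∈ Nd) (m : ℕ) : ∀ {P : K[X]}, (∀ i, P.coeff i ∈ A) →
    A.valuation (P.coeff m) = 1 → Vi.valuation (aeval x P) = 1 := by
  have hN := M.nd R hR
  induction m with
  | zero =>
    intro P hc h0
    exact DatumAux.valuation_eq_one_of_rUnit hN.thri.le (M.rUnit_aeval_x hR hc h0)
  | succ m ih =>
    intro P hc hm
    rcases ((A.valuation_le_one_iff _).mpr (hc 0)).lt_or_eq with h0 | h0
    · have hQ : Vi.valuation (aeval x P.divX) = 1 :=
        ih (fun i => by rw [coeff_divX]; exact hc _) (by rw [coeff_divX]; exact hm)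
      have h1 : aeval x P = algebraMap K F (P.coeff 0) + aeval x P.divX * x := by
        conv_lhs => rw [← divX_mul_X_add P]
        rw [map_add, map_mul, aeval_X, aeval_C, add_comm]
      have h2 : Vi.valuation (aeval x P.divX * x) = 1 := by
        rw [map_mul, hQ, M.x_i, one_mul]
      rw [h1, Valuation.map_add_eq_of_lt_right _ (by rw [h2]; exact M.val_const_i_lt_one h0), h2]
    · exact DatumAux.valuation_eq_one_of_rUnit hN.thri.le (M.rUnit_aeval_x hR hc h0)

end Model

/-! ### The two statements of the skeleton -/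

/-- D2a: `𝔪_R = (x, y, ϖ)`. -/
theorem rad_eq (M : NodalModel A ϖ e Vi V0 x y Smi Sm0 Nd) (hR : R ∈ Nd) {r : F}
    (hr : r ∈ rad R) : ∃ a ∈ R, ∃ b ∈ R, ∃ c ∈ R, r = a * x + b * y + c * algebraMap K F ϖ := by
  have hN := M.nd R hR
  obtain ⟨s₁, hs₁, h1⟩ := hN.dvri r hr
  have hr' : r - s₁ * x ∈ rad R :=
    DatumAux.sub_mem_rad hN.isPt hr (DatumAux.mul_mem_rad hs₁ hN.x_rad)
  obtain ⟨s₂, hs₂, h2⟩ := hN.dvr0 _ hr'
  have hr'' : r - s₁ * x - s₂ * y ∈ R := R.sub_mem hr'.1 (R.mul_mem hs₂ hN.y_rad.1)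
  have h3 : Vi.valuation (s₂ * y) < 1 := by
    rw [map_mul, mul_comm]
    exact mul_lt_one_of_lt_of_le M.val_y_i_lt_one
      ((Vi.valuation_le_one_iff _).mpr (hN.thri.le _ hs₂))
  have h4 : Vi.valuation (r - s₁ * x - s₂ * y) < 1 :=
    lt_of_le_of_lt (Valuation.map_sub _ _ _) (max_lt h1 h3)
  have hϖ := M.unif_ne_zero
  have h5 : (r - s₁ * x - s₂ * y) / algebraMap K F ϖ ∈ R := by
    refine hN.qep _ ?_ (NodalModel.div_unif_mem M.unifi h4) (NodalModel.div_unif_mem M.unif0 h2)
    rw [mul_div_cancel₀ _ hϖ]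
    exact hr''
  refine ⟨s₁, hs₁, s₂, hs₂, _, h5, ?_⟩
  rw [div_mul_cancel₀ _ hϖ]
  ring

/-- D2V: a monic polynomial in `x` with integral coefficients is a unit on `C_∞`. -/
theorem val_aeval_monic (M : NodalModel A ϖ e Vi V0 x y Smi Sm0 Nd) (hR : R ∈ Nd) {P : K[X]}
    (hP : P.Monic) (hc : ∀ i, P.coeff i ∈ A) : aeval x P ∈ R ∧ Vi.valuation (aeval x P) = 1 :=
  ⟨M.aeval_x_mem hR hc, M.val_aeval_x hR P.natDegree hc (by rw [hP.coeff_natDegree, map_one])⟩

end Fermat.Agent.S44.Depth

end
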