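/-
S44 / DEPTH (architect helper219), node D2U (owner helper289): core of `hor_unif`.
Everything except the input `hor_div` (node D2D), which enters as the hypothesis `hdivH`.
The final statement `hor_unif` is in `Depth/Abs/HorUnif.lean`.
-/
import Fermat.Agent.S44.Depth.Defs
import Fermat.Agent.S44.Depth.Abs.Rad
import Fermat.Agent.S44.Depth.Abs.HorMinpoly
import Fermat.Agent.S18.Chart.Unif
import Fermat.Agent.S36.BP.Base
import Fermat.Agent.S36.BP.Approx

set_option autoImplicit false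

noncomputable section

namespace Fermat.Agent.S44.Depth

open Fermat.Agent.S18 Fermat.Agent.S36.BP Polynomial

variable {K F : Type*} [Field K] [Field F] [Algebra K F]
variable {A : ValuationSubring K} {ϖ : K} {e : ℕ} {Vi V0 : ValuationSubring F} {x y : F}
  {Smi Sm0 Nd : Set (Subring F)} {R : Subring F}

/-- `z` lies in the localisation of `R` at the prime `R ∩ 𝔪_W`. -/
def HorUnifLoc (R : Subring F) (W : ValuationSubring F) (z : F) : Prop :=
  ∃ s ∈ R, W.valuation s = 1 ∧ s * z ∈ R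

section Core

variable {W : ValuationSubring F}

theorem horUnifLoc_of_mem {z : F} (hz : z ∈ R) : HorUnifLoc R W z :=
  ⟨1, R.one_mem, map_one _, by rwa [one_mul]⟩

theorem HorUnifLoc.add {z z' : F} (h : HorUnifLoc R W z) (h' : HorUnifLoc R W z') :
    HorUnifLoc R W (z + z') := by
  obtain ⟨s, hs, hsv, hsz⟩ := h
  obtain ⟨s', hs', hsv', hsz'⟩ := h'
  refine ⟨s * s', R.mul_mem hs hs', by rw [map_mul, hsv, hsv', one_mul], ?_⟩
  have e : s * s' * (z + z') = s' * (s * z) + s * (s' * z') := by ring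
  rw [e]
  exact R.add_mem (R.mul_mem hs' hsz) (R.mul_mem hs hsz')

theorem HorUnifLoc.mul {z z' : F} (h : HorUnifLoc R W z) (h' : HorUnifLoc R W z') :
    HorUnifLoc R W (z * z') := by
  obtain ⟨s, hs, hsv, hsz⟩ := h
  obtain ⟨s', hs', hsv', hsz'⟩ := h'
  refine ⟨s * s', R.mul_mem hs hs', by rw [map_mul, hsv, hsv', one_mul], ?_⟩
  have e : s * s' * (z * z') = (s * z) * (s' * z') := by ring
  rw [e]
  exact R.mul_mem hsz hsz'

theorem HorUnifLoc.val_le (hRW : ∀ r ∈ R, r ∈ W) {z : F} (h : HorUnifLoc R W z) :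
    W.valuation z ≤ 1 := by
  obtain ⟨s, hs, hsv, hsz⟩ := h
  have h1 := (W.valuation_le_one_iff _).mpr (hRW _ hsz)
  rwa [map_mul, hsv, one_mul] at h1

/-- the ideals `R ∩ (r / t ^ n) R_𝔭` -/
def horUnifChain (R : Subring F) (W : ValuationSubring F) (t r : F) (n : ℕ) : Ideal R where
  carrier := {a | HorUnifLoc R W ((a : F) * t ^ n / r)}
  add_mem' := by
    intro a b ha hb
    have e : ((a + b : R) : F) * t ^ n / r = (a : F) * t ^ n / r + (b : F) * t ^ n / r := by
      push_cast; ring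
    show HorUnifLoc R W _
    rw [e]
    exact HorUnifLoc.add ha hb
  zero_mem' := by
    show HorUnifLoc R W _
    simpa using horUnifLoc_of_mem (W := W) R.zero_mem
  smul_mem' := by
    intro c a ha
    have e : ((c • a : R) : F) * t ^ n / r = (c : F) * ((a : F) * t ^ n / r) := by
      rw [smul_eq_mul]; push_cast; ring
    show HorUnifLoc R W _
    rw [e]
    exact HorUnifLoc.mul (horUnifLoc_of_mem c.2) ha

theorem horUnifChain_le_succ {t : F} (ht : t ∈ R) (r : F) (n : ℕ) :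
    horUnifChain R W t r n ≤ horUnifChain R W t r (n + 1) := by
  intro a ha
  have e : (a : F) * t ^ (n + 1) / r = t * ((a : F) * t ^ n / r) := by ring
  show HorUnifLoc R W _
  rw [e]
  exact HorUnifLoc.mul (horUnifLoc_of_mem ht) ha

/-- Krull's intersection theorem for `(t)` in the localisation -/
theorem horUnif_exists_not_loc [IsNoetherianRing R] (hRW : ∀ r ∈ R, r ∈ W) {t : F} (ht : t ∈ R)
    (ht0 : t ≠ 0) (htW : W.valuation t < 1) {r : F} (hr0 : r ≠ 0) :
    ∃ n : ℕ, ¬ HorUnifLoc R W (r / t ^ n) := by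
  by_contra hall
  push Not at hall
  let f : ℕ →o Ideal R :=
    ⟨horUnifChain R W t r, monotone_nat_of_le_succ (horUnifChain_le_succ ht r)⟩
  obtain ⟨n, hn⟩ := monotone_stabilizes_iff_noetherian.mpr (inferInstance : IsNoetherian R R) f
  have hn1 : horUnifChain R W t r n = horUnifChain R W t r (n + 1) := hn (n + 1) (Nat.le_succ n)
  obtain ⟨s, hs, hsv, hsz⟩ := hall (n + 1)
  have hmem : (⟨s * (r / t ^ (n + 1)), hsz⟩ : R) ∈ horUnifChain R W t r (n + 1) := by
    show HorUnifLoc R W _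
    have e : s * (r / t ^ (n + 1)) * t ^ (n + 1) / r = s := by
      field_simp
    rw [e]
    exact horUnifLoc_of_mem hs
  rw [← hn1] at hmem
  have h1 : HorUnifLoc R W (s * (r / t ^ (n + 1)) * t ^ n / r) := hmem
  have e : s * (r / t ^ (n + 1)) * t ^ n / r = s / t := by
    field_simp
    ring
  rw [e] at h1
  have h2 := h1.val_le hRW
  rw [map_div₀, hsv, one_div] at h2
  have hv0 : W.valuation t ≠ 0 := (Valuation.ne_zero_iff _).mpr ht0
  exact absurd htW (not_lt.mpr ((inv_le_one₀ (zero_lt_iff.mpr hv0)).mp h2))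

/-- every nonzero element of `R` is a power of `t` times a unit of the localisation -/
theorem horUnif_exists_pow [IsNoetherianRing R] (hRW : ∀ r ∈ R, r ∈ W) {t π : F} (ht : t ∈ R)
    (ht0 : t ≠ 0) (htW : W.valuation t < 1) (hπ : π ∈ R) (hπW : W.valuation π = 1)
    (hdiv : ∀ r ∈ R, W.valuation r < 1 → ∃ m : ℕ, π ^ m * r / t ∈ R) {r : F} (hr : r ∈ R)
    (hr0 : r ≠ 0) :
    ∃ n : ℕ, HorUnifLoc R W (r / t ^ n) ∧ W.valuation (r / t ^ n) = 1 := by
  classical
  have hex := horUnif_exists_not_loc hRW ht ht0 htW hr0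
  have hn0 : Nat.find hex ≠ 0 := by
    intro h0
    have h1 := Nat.find_spec hex
    rw [h0, pow_zero, div_one] at h1
    exact h1 (horUnifLoc_of_mem hr)
  obtain ⟨k, hk⟩ := Nat.exists_eq_succ_of_ne_zero hn0
  have hloc : HorUnifLoc R W (r / t ^ k) := by
    by_contra h
    exact Nat.find_min hex (by omega : k < Nat.find hex) h
  refine ⟨k, hloc, ?_⟩
  obtain ⟨s, hs, hsv, hsz⟩ := hloc
  have hle := (W.valuation_le_one_iff _).mpr (hRW _ hsz)
  rcases lt_or_eq_of_le hle with hlt | heq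
  · exfalso
    obtain ⟨m, hm⟩ := hdiv _ hsz hlt
    have h1 := Nat.find_spec hex
    rw [hk] at h1
    apply h1
    refine ⟨π ^ m * s, R.mul_mem (R.pow_mem hπ m) hs, by
      rw [map_mul, map_pow, hπW, one_pow, hsv, one_mul], ?_⟩
    have e : π ^ m * s * (r / t ^ (k + 1)) = π ^ m * (s * (r / t ^ k)) / t := by
      field_simp
      ring
    rw [e]
    exact hm
  · rwa [map_mul, hsv, one_mul] at heq

/-- `W` is the localisation of `R` at `R ∩ 𝔪_W`, a discrete valuation ring with uniformiser `t` -/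
theorem horUnif_main [IsNoetherianRing R] (hRW : ∀ r ∈ R, r ∈ W) {t π : F} (ht : t ∈ R)
    (ht0 : t ≠ 0) (htW : W.valuation t < 1) (hπ : π ∈ R) (hπW : W.valuation π = 1)
    (hdiv : ∀ r ∈ R, W.valuation r < 1 → ∃ m : ℕ, π ^ m * r / t ∈ R)
    (hfrac : ∀ z : F, ∃ b ∈ R, b ≠ 0 ∧ b * z ∈ R) :
    IsUnif W t ∧ ∀ z ∈ W, HorUnifLoc R W z := by
  have hv0 : W.valuation t ≠ 0 := (Valuation.ne_zero_iff _).mpr ht0
  -- decomposition of an arbitrary nonzero element
  have key : ∀ z : F, z ≠ 0 → ∃ (n m : ℕ) (a b : F), HorUnifLoc R W a ∧ W.valuation a = 1 ∧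
      HorUnifLoc R W b ∧ W.valuation b = 1 ∧ z * (t ^ m * b) = t ^ n * a := by
    intro z hz
    obtain ⟨b, hb, hb0, hbz⟩ := hfrac z
    obtain ⟨n, hn, hnv⟩ := horUnif_exists_pow hRW ht ht0 htW hπ hπW hdiv hbz (mul_ne_zero hb0 hz)
    obtain ⟨m, hm, hmv⟩ := horUnif_exists_pow hRW ht ht0 htW hπ hπW hdiv hb hb0
    refine ⟨n, m, _, _, hn, hnv, hm, hmv, ?_⟩
    field_simp
  refine ⟨⟨hRW t ht, ?_, ?_⟩, ?_⟩
  · intro h
    have h1 := (W.valuation_le_one_iff _).mpr h
    rw [map_inv₀] at h1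
    exact absurd htW (not_lt.mpr ((inv_le_one₀ (zero_lt_iff.mpr hv0)).mp h1))
  · intro z hz
    obtain ⟨n, m, a, b, -, hav, -, hbv, e⟩ := key z hz
    have hb0 : b ≠ 0 := by
      rintro rfl
      rw [map_zero] at hbv
      exact zero_ne_one hbv
    have hval : W.valuation (z / t ^ ((n : ℤ) - m)) = 1 := by
      have e2 : z / t ^ ((n : ℤ) - m) = a / b := by
        rw [zpow_sub₀ ht0, zpow_natCast, zpow_natCast]
        field_simp
        linear_combination e
      rw [e2, map_div₀, hav, hbv, div_one]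
    refine ⟨(n : ℤ) - m, (W.valuation_le_one_iff _).mp hval.le, ?_⟩
    rw [← W.valuation_le_one_iff, map_inv₀, hval, inv_one]
  · intro z hzW
    rcases eq_or_ne z 0 with rfl | hz
    · exact horUnifLoc_of_mem R.zero_mem
    obtain ⟨n, m, a, b, ha, hav, hb, hbv, e⟩ := key z hz
    have hzv := (W.valuation_le_one_iff _).mpr hzW
    -- `m ≤ n`
    have hmn : m ≤ n := by
      by_contra hlt
      push Not at hlt
      have h1 := congrArg W.valuation e
      rw [map_mul, map_mul, map_mul, map_pow, map_pow, hav, hbv, mul_one, mul_one] at h1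
      obtain ⟨d, rfl⟩ : ∃ d, m = n + (d + 1) := ⟨m - n - 1, by omega⟩
      rw [pow_add, mul_comm (W.valuation t ^ n), ← mul_assoc] at h1
      have h2 : W.valuation z * W.valuation t ^ (d + 1) = 1 :=
        mul_right_cancel₀ (pow_ne_zero n hv0) (by rw [h1, one_mul])
      have h3 : W.valuation z * W.valuation t ^ (d + 1) < 1 :=
        lt_of_le_of_lt (mul_le_of_le_one_left' hzv) (pow_lt_one' htW (Nat.succ_ne_zero d))
      exact absurd h2 h3.ne
    obtain ⟨d, rfl⟩ := Nat.exists_eq_add_of_le hmn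
    obtain ⟨s₁, hs₁, hs₁v, hs₁a⟩ := ha
    obtain ⟨s₂, hs₂, hs₂v, hs₂b⟩ := hb
    refine ⟨s₁ * (s₂ * b), R.mul_mem hs₁ hs₂b, by
      rw [map_mul, map_mul, hs₁v, hs₂v, hbv, one_mul, one_mul], ?_⟩
    have e2 : s₁ * (s₂ * b) * z = t ^ d * (s₁ * a) * s₂ := by
      have h1 : z * b = t ^ d * a := by
        have : t ^ m * (z * b) = t ^ m * (t ^ d * a) := by
          rw [pow_add] at e
          linear_combination e
        exact mul_left_cancel₀ (pow_ne_zero m ht0) this
      linear_combination s₁ * s₂ * h1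
    rw [e2]
    exact R.mul_mem (R.mul_mem (R.pow_mem ht d) hs₁a) hs₂

end Core

theorem horUnif_val_const {W : ValuationSubring F} (hW : Hor K R W) {a : K} (ha : a ≠ 0) :
    W.valuation (algebraMap K F a) = 1 :=
  valuation_eq_one_of_mem_of_inv_mem W ((_root_.map_ne_zero _).mpr ha) (hW.1 a)
    (by rw [← map_inv₀]; exact hW.1 a⁻¹)

/-- the first half of `hor_unif`, together with the divisibility statement -/
theorem horUnif_pkg (M : NodalModel A ϖ e Vi V0 x y Smi Sm0 Nd) (hR : R ∈ Nd)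
    (hdivH : ∀ {W : ValuationSubring F}, Hor K R W → ∀ {P : K[X]}, P.Monic →
      W.valuation (aeval x P) < 1 → (∀ Q : K[X], W.valuation (aeval x Q) < 1 → P ∣ Q) →
      ∀ {r : F}, r ∈ R → W.valuation r < 1 →
      ∃ m : ℕ, algebraMap K F ϖ ^ m * r / aeval x P ∈ R)
    {W : ValuationSubring F} (hW : Hor K R W) :
    ∃ t ∈ R, IsUnif W t ∧ Vi.valuation t = 1 ∧ (∀ z ∈ W, HorUnifLoc R W z) ∧
      ∀ r ∈ R, W.valuation r < 1 → ∃ m : ℕ, algebraMap K F ϖ ^ m * r / t ∈ R := by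
  have hN := M.nd R hR
  have := hN.isPt.noeth
  obtain ⟨P, hP, hc, hPW, hmin⟩ := hor_minpoly M hR hW
  obtain ⟨htR, htV⟩ := val_aeval_monic M hR hP hc
  have ht0 : aeval x P ≠ 0 := by
    intro h0
    rw [h0, map_zero] at htV
    exact zero_ne_one htV
  have hϖ0 : ϖ ≠ 0 := M.unifA.ne_zero
  have hπ : algebraMap K F ϖ ∈ R := hN.isPt.const_mem ϖ M.unifA.mem
  have hdiv : ∀ r ∈ R, W.valuation r < 1 → ∃ m : ℕ, algebraMap K F ϖ ^ m * r / aeval x P ∈ R :=
    fun r hr hrW => hdivH hW hP hPW hmin hr hrW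
  have hfrac : ∀ z : F, ∃ b ∈ R, b ≠ 0 ∧ b * z ∈ R := by
    intro z
    obtain ⟨k, hk⟩ := M.unifi.exists_pow_mul_mem z
    obtain ⟨s, hs, hsv, hsz⟩ := hN.thri.loc _ hk
    have hs0 : s ≠ 0 := by
      rintro rfl
      rw [map_zero] at hsv
      exact zero_ne_one hsv
    refine ⟨s * algebraMap K F ϖ ^ k, R.mul_mem hs (R.pow_mem hπ k),
      mul_ne_zero hs0 (pow_ne_zero _ ((_root_.map_ne_zero _).mpr hϖ0)), ?_⟩
    rwa [mul_assoc]
  obtain ⟨hU, hloc⟩ := horUnif_main hW.2.1 htR ht0 hPW hπ (horUnif_val_const hW hϖ0) hdiv hfrac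
  exact ⟨_, htR, hU, htV, hloc, hdiv⟩

/-- D2U relative to D2D. -/
theorem horUnif_of_div (M : NodalModel A ϖ e Vi V0 x y Smi Sm0 Nd) (hR : R ∈ Nd)
    (hdivH : ∀ {W : ValuationSubring F}, Hor K R W → ∀ {P : K[X]}, P.Monic →
      W.valuation (aeval x P) < 1 → (∀ Q : K[X], W.valuation (aeval x Q) < 1 → P ∣ Q) →
      ∀ {r : F}, r ∈ R → W.valuation r < 1 →
      ∃ m : ℕ, algebraMap K F ϖ ^ m * r / aeval x P ∈ R)
    {W : ValuationSubring F} (hW : Hor K R W) :
    ∃ t ∈ R, IsUnif W t ∧ Vi.valuation t = 1 ∧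
      (∀ z ∈ W, ∃ s ∈ R, W.valuation s = 1 ∧ s * z ∈ R) ∧
      ∀ W' : ValuationSubring F, Hor K R W' → W'.valuation t < 1 → W' = W := by
  obtain ⟨t, htR, hU, htV, hloc, hdiv⟩ := horUnif_pkg M hR hdivH hW
  refine ⟨t, htR, hU, htV, hloc, fun W' hW' htW' => ?_⟩
  obtain ⟨t', -, hU', -, hloc', -⟩ := horUnif_pkg M hR hdivH hW'
  have hϖ0 : ϖ ≠ 0 := M.unifA.ne_zero
  have hle : W' ≤ W := by
    intro z hz
    obtain ⟨s, hs, hsv, hsz⟩ := hloc' z hz
    have hsW : W.valuation s = 1 := by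
      rcases lt_or_eq_of_le ((W.valuation_le_one_iff _).mpr (hW.2.1 s hs)) with hlt | heq
      · exfalso
        obtain ⟨m, hm⟩ := hdiv s hs hlt
        have h1 := (W'.valuation_le_one_iff _).mpr (hW'.2.1 _ hm)
        rw [map_div₀, map_mul, map_pow, horUnif_val_const hW' hϖ0, one_pow, one_mul, hsv,
          one_div] at h1
        have ht0 : W'.valuation t ≠ 0 := (Valuation.ne_zero_iff _).mpr hU.ne_zero
        exact absurd htW' (not_lt.mpr ((inv_le_one₀ (zero_lt_iff.mpr ht0)).mp h1))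
      · exact heq
    have h2 := (W.valuation_le_one_iff _).mpr (hW.2.1 _ hsz)
    rw [map_mul, hsW, one_mul] at h2
    exact (W.valuation_le_one_iff _).mp h2
  by_contra hne
  exact approx_not_le hU' hU hne hle

end Fermat.Agent.S44.Depth

end
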