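/-
S44 / DEPTH (architect helper219), node D2U (owner helper289): `hor_unif`.
-/
import Fermat.Agent.S44.Depth.Abs.HorUnifCore
import Fermat.Agent.S44.Depth.Abs.HorDiv

set_option autoImplicit false

noncomputable section

namespace Fermat.Agent.S44.Depth

open Fermat.Agent.S18 Fermat.Agent.S36.BP Polynomial

variable {K F : Type*} [Field K] [Field F] [Algebra K F]
variable {A : ValuationSubring K} {ϖ : K} {e : ℕ} {Vi V0 : ValuationSubring F} {x y : F}
  {Smi Sm0 Nd : Set (Subring F)} {R : Subring F}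

/-- D2U: **horizontal primes are principal up to `C_0`.** -/
theorem hor_unif (M : NodalModel A ϖ e Vi V0 x y Smi Sm0 Nd) (hR : R ∈ Nd)
    {W : ValuationSubring F} (hW : Hor K R W) :
    ∃ t ∈ R, IsUnif W t ∧ Vi.valuation t = 1 ∧
      (∀ z ∈ W, ∃ s ∈ R, W.valuation s = 1 ∧ s * z ∈ R) ∧
      ∀ W' : ValuationSubring F, Hor K R W' → W'.valuation t < 1 → W' = W :=
  horUnif_of_div M hR (@fun _ hW _ hP hPW hmin _ hr hrW => hor_div M hR hW hP hPW hmin hr hrW) hW

end Fermat.Agent.S44.Depth

end
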