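/-
S44 / DEPTH, node D2F: finiteness of the horizontal support.   Proofs: helper168.
-/
import Fermat.Agent.S44.Depth.Abs.HorUnif
import Fermat.Agent.S18.Chart.Unif

set_option autoImplicit false

noncomputable section

namespace Fermat.Agent.S44.Depth

open Fermat.Agent.S18 Fermat.Agent.S36.BP Polynomial

variable {K F : Type*} [Field K] [Field F] [Algebra K F]
variable {A : ValuationSubring K} {ϖ : K} {e : ℕ} {Vi V0 : ValuationSubring F} {x y : F}
  {Smi Sm0 Nd : Set (Subring F)} {R : Subring F}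

private theorem hf_lt_one_of_inv_notMem (W : ValuationSubring F) {z : F} (h : z⁻¹ ∉ W) :
    W.valuation z < 1 := by
  by_contra hcon
  rw [not_lt] at hcon
  apply h
  rw [← W.valuation_le_one_iff, map_inv₀]
  exact inv_le_one_of_one_le₀ hcon

private theorem hf_inv_notMem (W : ValuationSubring F) {z : F} (hz0 : z ≠ 0)
    (h : W.valuation z < 1) : z⁻¹ ∉ W := by
  intro hmem
  rw [← W.valuation_le_one_iff, map_inv₀] at hmem
  have hv : W.valuation z ≠ 0 := (_root_.map_ne_zero _).2 hz0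
  exact absurd ((inv_le_one₀ (zero_lt_iff.2 hv)).mp hmem) (not_le.mpr h)

private theorem hf_eq_one (W : ValuationSubring F) {z : F} (h1 : z ∈ W) (h2 : z⁻¹ ∈ W)
    (hz0 : z ≠ 0) : W.valuation z = 1 := by
  refine le_antisymm ((W.valuation_le_one_iff _).mpr h1) ?_
  by_contra hcon
  exact hf_inv_notMem W hz0 (not_le.mp hcon) h2

/-- the prime `R ∩ 𝔪_W` (meaningful for `R ⊆ W`). -/
private def hfPrime (R : Subring F) (W : ValuationSubring F) : Ideal R :=
  Ideal.span {r : R | W.valuation (r : F) < 1}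

private theorem hf_mem_prime {W : ValuationSubring F} (hle : ∀ r ∈ R, r ∈ W) (r : R) :
    r ∈ hfPrime R W ↔ W.valuation (r : F) < 1 := by
  constructor
  · intro hr
    induction hr using Submodule.span_induction with
    | mem x hx => exact hx
    | zero => simp
    | add x y _ _ hx hy => exact W.valuation.map_add_lt hx hy
    | smul c x _ hx =>
      have hc : W.valuation (c : F) ≤ 1 := (W.valuation_le_one_iff _).mpr (hle c c.2)
      show W.valuation ((c : F) * (x : F)) < 1
      rw [map_mul]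
      exact lt_of_le_of_lt (mul_le_of_le_one_left' hc) hx
  · intro hr
    exact Ideal.subset_span hr

private theorem hf_isPrime {W : ValuationSubring F} (hle : ∀ r ∈ R, r ∈ W) :
    (hfPrime R W).IsPrime := by
  refine ⟨fun htop => ?_, fun {a b} hab => ?_⟩
  · have h1 : (1 : R) ∈ hfPrime R W := htop ▸ Submodule.mem_top
    rw [hf_mem_prime hle] at h1
    simp at h1
  · rw [hf_mem_prime hle] at hab
    rw [hf_mem_prime hle, hf_mem_prime hle]
    by_contra hcon
    rw [not_or, not_lt, not_lt] at hcon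
    have : (1 : _) ≤ W.valuation ((a : F) * (b : F)) := by
      rw [map_mul]
      exact one_le_mul hcon.1 hcon.2
    exact absurd hab (not_lt.mpr this)

private theorem hf_finite_aux (M : NodalModel A ϖ e Vi V0 x y Smi Sm0 Nd) (hR : R ∈ Nd) {a : F}
    (haR : a ∈ R) (ha0 : a ≠ 0) :
    {W : ValuationSubring F | Hor K R W ∧ W.valuation a < 1}.Finite := by
  have : IsNoetherianRing R := (M.nd R hR).isPt.noeth
  have hfin := Ideal.finite_minimalPrimes_of_isNoetherianRing R (Ideal.span {(⟨a, haR⟩ : R)})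
  refine Set.Finite.of_injOn (f := hfPrime R) ?_ ?_ hfin
  · -- the primes are minimal over `a`
    rintro W ⟨hW, haW⟩
    have hle := hW.2.1
    obtain ⟨t, htR, hU, -, hloc, -⟩ := hor_unif M hR hW
    have ht0 : t ≠ 0 := hU.ne_zero
    refine ⟨⟨hf_isPrime hle, ?_⟩, ?_⟩
    · rw [Ideal.span_singleton_le_iff_mem, hf_mem_prime hle]
      exact haW
    · rintro 𝔮 ⟨h𝔮, ha𝔮⟩ h𝔮le
      rw [Ideal.span_singleton_le_iff_mem] at ha𝔮
      have hnot : ∀ s : R, W.valuation (s : F) = 1 → s ∉ 𝔮 := by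
        intro s hs hmem
        have := (hf_mem_prime hle s).mp (h𝔮le hmem)
        rw [hs] at this
        exact lt_irrefl _ this
      -- `t ∈ 𝔮`
      have ht𝔮 : (⟨t, htR⟩ : R) ∈ 𝔮 := by
        obtain ⟨n, hw, hw'⟩ := hU.exists_unit_div_pow (hle a haR) ha0
        have hw0 : a / t ^ n ≠ 0 := div_ne_zero ha0 (pow_ne_zero n ht0)
        obtain ⟨s', hs'R, hs'1, hs'w⟩ := hloc _ hw
        have hval : W.valuation (s' * (a / t ^ n)) = 1 := by
          rw [map_mul, hs'1, one_mul]
          exact hf_eq_one W hw hw' hw0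
        have e1 : (⟨a, haR⟩ : R) * ⟨s', hs'R⟩ = (⟨t, htR⟩ : R) ^ n * ⟨_, hs'w⟩ := by
          apply Subtype.ext
          show a * s' = t ^ n * (s' * (a / t ^ n))
          field_simp
        have h1 : (⟨t, htR⟩ : R) ^ n * ⟨_, hs'w⟩ ∈ 𝔮 := e1 ▸ 𝔮.mul_mem_right _ ha𝔮
        rcases h𝔮.mem_or_mem h1 with h2 | h2
        · exact h𝔮.mem_of_pow_mem n h2
        · exact absurd h2 (hnot _ hval)
      intro r hr
      rw [hf_mem_prime hle] at hr
      by_cases hr0 : (r : F) = 0
      · have : r = 0 := Subtype.ext hr0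
        rw [this]
        exact 𝔮.zero_mem
      have hdiv : (r : F) / t ∈ W := hU.div_mem (hle r r.2) (hf_inv_notMem W hr0 hr)
      obtain ⟨s, hsR, hs1, hsr⟩ := hloc _ hdiv
      have e2 : (⟨s, hsR⟩ : R) * r = (⟨t, htR⟩ : R) * ⟨_, hsr⟩ := by
        apply Subtype.ext
        show s * (r : F) = t * (s * ((r : F) / t))
        field_simp
      have h3 : (⟨s, hsR⟩ : R) * r ∈ 𝔮 := e2 ▸ 𝔮.mul_mem_right _ ht𝔮
      exact (h𝔮.mem_or_mem h3).resolve_left (hnot _ hs1)
  · -- injectivity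
    rintro W ⟨hW, -⟩ W' ⟨hW', -⟩ heq
    obtain ⟨t, htR, hU, -, -, huniq⟩ := hor_unif M hR hW
    have h1 : (⟨t, htR⟩ : R) ∈ hfPrime R W :=
      (hf_mem_prime hW.2.1 _).mpr (hf_lt_one_of_inv_notMem W hU.inv_notMem)
    have heq' : hfPrime R W = hfPrime R W' := heq
    rw [heq', hf_mem_prime hW'.2.1] at h1
    exact (huniq W' hW' h1).symm

/-- D2F: finiteness of the horizontal support. -/
theorem hor_finite (M : NodalModel A ϖ e Vi V0 x y Smi Sm0 Nd) (hR : R ∈ Nd) {u : F}
    (hu : u ≠ 0) : {W : ValuationSubring F | Hor K R W ∧ W.valuation u ≠ 1}.Finite := by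
  -- `u = a / s` or `u⁻¹ = a / s` with `a`, `s` nonzero elements of `R`
  have key : ∃ a ∈ R, ∃ s ∈ R, a ≠ 0 ∧ s ≠ 0 ∧ (s * u = a ∨ s * u⁻¹ = a) := by
    have hT := (M.nd R hR).thri
    rcases Vi.mem_or_inv_mem u with h | h
    · obtain ⟨s, hs, hs1, hsu⟩ := hT.loc u h
      have hs0 : s ≠ 0 := by
        rintro rfl
        simp at hs1
      exact ⟨_, hsu, s, hs, mul_ne_zero hs0 hu, hs0, Or.inl rfl⟩
    · obtain ⟨s, hs, hs1, hsu⟩ := hT.loc _ h
      have hs0 : s ≠ 0 := by
        rintro rfl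
        simp at hs1
      exact ⟨_, hsu, s, hs, mul_ne_zero hs0 (inv_ne_zero hu), hs0, Or.inr rfl⟩
  obtain ⟨a, haR, s, hsR, ha0, hs0, hor⟩ := key
  refine ((hf_finite_aux M hR haR ha0).union (hf_finite_aux M hR hsR hs0)).subset ?_
  rintro W ⟨hW, hWu⟩
  have hle := hW.2.1
  have ha1 : W.valuation a ≤ 1 := (W.valuation_le_one_iff _).mpr (hle a haR)
  have hs1 : W.valuation s ≤ 1 := (W.valuation_le_one_iff _).mpr (hle s hsR)
  by_contra hcon
  rw [Set.mem_union, not_or] at hcon
  have ha : W.valuation a = 1 :=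
    le_antisymm ha1 (not_lt.mp fun h => hcon.1 ⟨hW, h⟩)
  have hs : W.valuation s = 1 :=
    le_antisymm hs1 (not_lt.mp fun h => hcon.2 ⟨hW, h⟩)
  apply hWu
  rcases hor with h | h
  · have := congrArg W.valuation h
    rwa [map_mul, hs, ha, one_mul] at this
  · have := congrArg W.valuation h
    rw [map_mul, hs, ha, one_mul, map_inv₀] at this
    exact inv_eq_one.mp this

end Fermat.Agent.S44.Depth

end
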