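/-
S44 / DEPTH, node D2 (helper151): local factorisation at a node, CORE.
`lfNode_core` = `lf_node` with the four nodes `krull_node`, `hor_unif`, `hor_finite`, `branch_ord`
as hypotheses; `LfNode.lean` plugs them in.
-/
import Fermat.Agent.S44.Depth.Defs
import Fermat.Agent.S36.BP.Datum
import Fermat.Agent.S36.BP.OrdersAux
import Fermat.Agent.S36.BP.Cong

set_option autoImplicit false

noncomputable section

namespace Fermat.Agent.S44.Depth

open Fermat.Agent.S18 Fermat.Agent.S36.BP Fermat.Agent.S36.BP.DatumAux Polynomial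

variable {K F : Type*} [Field K] [Field F] [Algebra K F]
variable {A : ValuationSubring K} {ϖ : K} {e : ℕ} {Vi V0 : ValuationSubring F} {x y : F}
  {Smi Sm0 Nd : Set (Subring F)} {R : Subring F}

/-- constants are units of the horizontal valuation rings -/
private theorem lfNode_val_const {W : ValuationSubring F} (hW : Hor K R W) {κ : K} (hκ : κ ≠ 0) :
    W.valuation (algebraMap K F κ) = 1 := by
  refine valuation_eq_one_of_mem ((_root_.map_ne_zero _).2 hκ) (hW.1 κ) ?_
  rw [← map_inv₀]
  exact hW.1 κ⁻¹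

/-- `x` is a unit of the horizontal valuation rings -/
private theorem lfNode_val_x (M : NodalModel A ϖ e Vi V0 x y Smi Sm0 Nd) (hR : R ∈ Nd)
    {W : ValuationSubring F} (hW : Hor K R W) : W.valuation x = 1 := by
  have hN := M.nd R hR
  obtain ⟨c₀, hc₀, hxy⟩ := M.xy
  have hc0 : c₀ ≠ 0 := by
    intro h
    rw [h, map_zero] at hc₀
    exact pow_ne_zero e (ord_val_unif_ne_zero M.unifA) hc₀.symm
  have h1 : W.valuation x ≤ 1 := (W.valuation_le_one_iff _).2 (hW.2.1 _ hN.x_rad.1)
  have h2 : W.valuation y ≤ 1 := (W.valuation_le_one_iff _).2 (hW.2.1 _ hN.y_rad.1)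
  have h3 : W.valuation x * W.valuation y = 1 := by
    rw [← map_mul, hxy]
    exact lfNode_val_const hW hc0
  refine le_antisymm h1 ?_
  by_contra h
  have h4 : W.valuation x < 1 := lt_of_not_ge h
  have h5 : W.valuation x * W.valuation y < 1 := mul_lt_one_of_lt_of_le h4 h2
  rw [h3] at h5
  exact lt_irrefl _ h5

/-- the key exclusion: an element which is a unit on `C_∞` and on all the horizontal valuations,
and which is congruent to a unit of `R` on `C_∞`, cannot vanish on `C_0`. -/
private theorem lfNode_not_lt (M : NodalModel A ϖ e Vi V0 x y Smi Sm0 Nd) (hR : R ∈ Nd)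
    (hkrull : ∀ f : F, f ∈ Vi → f ∈ V0 → (∀ W : ValuationSubring F, Hor K R W → f ∈ W) → f ∈ R)
    {w ρ : F} (hi : Vi.valuation w = 1) (hW : ∀ W : ValuationSubring F, Hor K R W → W.valuation w = 1)
    (hρ : RUnit R ρ) (hc : Vi.valuation (w - ρ) < 1) : ¬ V0.valuation w < 1 := by
  intro h0
  have hN := M.nd R hR
  have hwR : w ∈ R := hkrull w (mem_of_valuation_eq_one hi)
    ((V0.valuation_le_one_iff _).1 h0.le) (fun W h => mem_of_valuation_eq_one (hW W h))
  have h1 : w ∈ rad R := mem_rad_of_valuation_lt_one hN.thr0.le hwR h0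
  have h2 : w - ρ ∈ rad R := mem_rad_of_valuation_lt_one hN.thri.le (R.sub_mem hwR hρ.2.1) hc
  have h3 : ρ ∈ rad R := by
    have := sub_mem_rad hN.isPt h1 h2
    rwa [sub_sub_cancel] at this
  exact h3.2 hρ

/-- for a horizontal `W` with uniformiser `t`, the order of `u` is divisible by `n` -/
private theorem lfNode_exists_k {W : ValuationSubring F} (hW : Hor K R W) {t : F} (ht : IsUnif W t)
    {n : ℕ} {u : F} (hd : HorDiv K n u) :
    ∃ k : ℤ, W.valuation u = W.valuation (t ^ k) ^ n := by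
  obtain ⟨s, hs, hus⟩ := hd W hW.1
  obtain ⟨k, hk⟩ := ord_exists_val ht hs
  refine ⟨-k, ?_⟩
  rw [map_mul, map_pow, hk] at hus
  rw [map_zpow₀, zpow_neg, inv_pow]
  exact eq_inv_of_mul_eq_one_left hus

/-- D2, **local factorisation at a node**, from the nodes `krull_node`, `hor_unif`, `hor_finite`,
`branch_ord` (as hypotheses). -/
theorem lfNode_core (M : NodalModel A ϖ e Vi V0 x y Smi Sm0 Nd) (hR : R ∈ Nd)
    (hkrull : ∀ f : F, f ∈ Vi → f ∈ V0 → (∀ W : ValuationSubring F, Hor K R W → f ∈ W) → f ∈ R)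
    (hunif : ∀ W : ValuationSubring F, Hor K R W → ∃ t ∈ R, IsUnif W t ∧ Vi.valuation t = 1 ∧
      ∀ W' : ValuationSubring F, Hor K R W' → W'.valuation t < 1 → W' = W)
    (hbranch : ∀ z : F, Vi.valuation z = 1 →
      ∃ (b : ℤ) (ρ : F), RUnit R ρ ∧ Vi.valuation (z / x ^ b - ρ) < 1)
    {n : ℕ} {u : F} (hu : u ≠ 0)
    (hfin : {W : ValuationSubring F | Hor K R W ∧ W.valuation u ≠ 1}.Finite)
    (hd : HorDiv K n u) : ∃ b : ℤ, NodeShape K Vi x R n u b := by
  classical
  have hN := M.nd R hR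
  -- choice of the uniformisers
  have hex : ∀ W : ValuationSubring F, ∃ (t : F) (k : ℤ), Hor K R W →
      (t ∈ R ∧ Vi.valuation t = 1 ∧ W.valuation u = W.valuation (t ^ k) ^ n ∧
        ∀ W' : ValuationSubring F, Hor K R W' → W'.valuation t < 1 → W' = W) := by
    intro W
    by_cases hW : Hor K R W
    · obtain ⟨t, htR, htU, hti, huniq⟩ := hunif W hW
      obtain ⟨k, hk⟩ := lfNode_exists_k hW htU hd
      exact ⟨t, k, fun _ => ⟨htR, hti, hk, huniq⟩⟩
    · exact ⟨0, 0, fun h => absurd h hW⟩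
  choose t k htk using hex
  set S : Finset (ValuationSubring F) := hfin.toFinset with hS
  have hSmem : ∀ W, W ∈ S ↔ (Hor K R W ∧ W.valuation u ≠ 1) := by
    intro W
    rw [hS, Set.Finite.mem_toFinset]
    rfl
  set G : F := ∏ W ∈ S, t W ^ k W with hG
  have hGi : Vi.valuation G = 1 := by
    rw [hG, map_prod]
    refine Finset.prod_eq_one fun W hW => ?_
    rw [map_zpow₀, (htk W ((hSmem W).1 hW).1).2.1, one_zpow]
  -- other uniformisers are units
  have hother : ∀ W W' : ValuationSubring F, Hor K R W → Hor K R W' → W' ≠ W →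
      W.valuation (t W' ^ k W') = 1 := by
    intro W W' hW hW' hne
    have h1 : W.valuation (t W') ≤ 1 := (W.valuation_le_one_iff _).2 (hW.2.1 _ (htk W' hW').1)
    have h2 : W.valuation (t W') = 1 := by
      refine le_antisymm h1 ?_
      by_contra h
      exact hne ((htk W' hW').2.2.2 W hW (lt_of_not_ge h)).symm
    rw [map_zpow₀, h2, one_zpow]
  have hGW : ∀ W : ValuationSubring F, Hor K R W → W.valuation u = W.valuation G ^ n := by
    intro W hW
    by_cases hWS : W ∈ S
    · have : W.valuation G = W.valuation (t W ^ k W) := by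
        rw [hG, map_prod, Finset.prod_eq_single_of_mem W hWS]
        intro W' hW' hne
        exact hother W W' hW ((hSmem W').1 hW').1 hne
      rw [this]
      exact (htk W hW).2.2.1
    · have h1 : W.valuation u = 1 := by
        by_contra h
        exact hWS ((hSmem W).2 ⟨hW, h⟩)
      have h2 : W.valuation G = 1 := by
        rw [hG, map_prod]
        refine Finset.prod_eq_one fun W' hW' => ?_
        refine hother W W' hW ((hSmem W').1 hW').1 ?_
        rintro rfl
        exact hWS hW'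
      rw [h1, h2, one_pow]
  have hG0 : G ≠ 0 := ne_zero_of_valuation_eq_one hGi
  have hϖ : ϖ ≠ 0 := ord_unif_ne_zero M.unifA
  have hx0 : x ≠ 0 := ne_zero_of_valuation_eq_one M.x_i
  -- the constant
  obtain ⟨a, ha⟩ := ord_exists_val M.unifi (div_ne_zero hu (pow_ne_zero n hG0))
  set κ : K := ϖ ^ a with hκ
  have hκ0 : κ ≠ 0 := zpow_ne_zero _ hϖ
  have hκF : algebraMap K F κ ≠ 0 := (_root_.map_ne_zero _).2 hκ0
  set u2 : F := u / G ^ n / algebraMap K F κ with hu2
  have hu2i : Vi.valuation u2 = 1 := by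
    rw [hu2, map_div₀, ha, hκ, map_zpow₀, map_zpow₀]
    exact div_self (zpow_ne_zero _ (ord_val_unif_ne_zero M.unifi))
  obtain ⟨b, ρ, hρ, hbρ⟩ := hbranch u2 hu2i
  set u3 : F := u2 / x ^ b with hu3
  have hu3i : Vi.valuation u3 = 1 := by
    rw [hu3, map_div₀, hu2i, map_zpow₀, M.x_i, one_zpow, div_one]
  have hu3W : ∀ W : ValuationSubring F, Hor K R W → W.valuation u3 = 1 := by
    intro W hW
    have hGne : W.valuation G ^ n ≠ 0 := pow_ne_zero n ((W.valuation.ne_zero_iff).2 hG0)
    rw [hu3, hu2, map_div₀, map_div₀, map_div₀, map_pow, hGW W hW, div_self hGne,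
      lfNode_val_const hW hκ0, map_zpow₀, lfNode_val_x M hR hW, one_zpow, div_one, div_one]
  have hu30 : u3 ≠ 0 := ne_zero_of_valuation_eq_one hu3i
  have hnot1 : ¬ V0.valuation u3 < 1 := lfNode_not_lt M hR hkrull hu3i hu3W hρ hbρ
  have hρi : Vi.valuation ρ = 1 := valuation_eq_one_of_rUnit hN.thri.le hρ
  have hnot2 : ¬ V0.valuation u3⁻¹ < 1 := by
    refine lfNode_not_lt M hR hkrull (valuation_inv_eq_one hu3i)
      (fun W hW => valuation_inv_eq_one (hu3W W hW)) (rUnit_inv hρ) ?_
    exact Cong.inv (V := Vi) hbρ hρi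
  have hu30' : V0.valuation u3 = 1 := by
    have h0 : V0.valuation u3 ≠ 0 := (V0.valuation.ne_zero_iff).2 hu30
    refine le_antisymm ?_ (not_lt.1 hnot1)
    rw [map_inv₀] at hnot2
    have := not_lt.1 hnot2
    exact (one_le_inv₀ (zero_lt_iff.2 h0)).1 this
  have hunit : RUnit R u3 := by
    refine ⟨hu30, ?_, ?_⟩
    · exact hkrull _ (mem_of_valuation_eq_one hu3i) (mem_of_valuation_eq_one hu30')
        (fun W hW => mem_of_valuation_eq_one (hu3W W hW))
    · exact hkrull _ (inv_mem_of_valuation_eq_one hu3i)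
        (inv_mem_of_valuation_eq_one hu30') (fun W hW => inv_mem_of_valuation_eq_one (hu3W W hW))
  refine ⟨b, κ, G, hκ0, hGi, ?_⟩
  have : u / (algebraMap K F κ * x ^ b * G ^ n) = u3 := by
    rw [hu3, hu2]
    field_simp
  rw [this]
  exact hunit

end Fermat.Agent.S44.Depth

end
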