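/-
S44 / DEPTH (architect helper219), node D2: local factorisation at a node (assembly).
-/
import Fermat.Agent.S44.Depth.Abs.LfNodeCore
import Fermat.Agent.S44.Depth.Abs.Krull
import Fermat.Agent.S44.Depth.Abs.HorUnif
import Fermat.Agent.S44.Depth.Abs.HorFinite
import Fermat.Agent.S44.Depth.Abs.Branch

set_option autoImplicit false

noncomputable section

namespace Fermat.Agent.S44.Depth

open Fermat.Agent.S18 Fermat.Agent.S36.BP Polynomial

variable {K F : Type*} [Field K] [Field F] [Algebra K F]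
variable {A : ValuationSubring K} {ϖ : K} {e : ℕ} {Vi V0 : ValuationSubring F} {x y : F}
  {Smi Sm0 Nd : Set (Subring F)} {R : Subring F}

/-- D2: **local factorisation at a node.** -/
theorem lf_node (M : NodalModel A ϖ e Vi V0 x y Smi Sm0 Nd) (hR : R ∈ Nd) {n : ℕ} (hn : n ≠ 0)
    {u : F} (hu : u ≠ 0) (hd : HorDiv K n u) : ∃ b : ℤ, NodeShape K Vi x R n u b :=
  lfNode_core M hR (fun _ hi h0 hW => krull_node M.unifA (M.nd R hR) hi h0 hW)
    (fun _ hW => by
      obtain ⟨t, ht, h1, h2, -, h3⟩ := hor_unif M hR hW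
      exact ⟨t, ht, h1, h2, h3⟩)
    (fun _ hz => branch_ord M hR hz) hu (hor_finite M hR hu) hd

end Fermat.Agent.S44.Depth

end
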