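/-
S44 / DEPTH (architect helper219), node D2S: local factorisation at a smooth point.
Owner: helper231 (task 2122).  Adapted from `S36/BP/LocalRoot/Abs.lean`.
-/
import Fermat.Agent.S44.Depth.Defs
import Fermat.Agent.S18.Chart.Unif
import Fermat.Agent.S18.Abs.UfdRoot
import Fermat.Agent.S18.Abs.PrimeVal
import Fermat.Agent.S36.BP.LocalRoot.Ufd
import Fermat.Agent.S36.BP.LocalRoot.Abs

set_option autoImplicit false

noncomputable section

namespace Fermat.Agent.S44.Depth

open Fermat.Agent.S18 Fermat.Agent.S36.BP Polynomial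
open Fermat.Agent.S18.Abs Fermat.Agent.S36.BP.LocalRoot

variable {K F : Type*} [Field K] [Field F] [Algebra K F]
variable {A : ValuationSubring K} {ϖ : K} {e : ℕ} {Vi V0 : ValuationSubring F} {x y : F}
  {Smi Sm0 Nd : Set (Subring F)} {R : Subring F}

private theorem lfSm_val_unif_lt_one {V : ValuationSubring F} {π : F} (hV : IsUnif V π) :
    V.valuation π < 1 := by
  by_contra h
  rw [not_lt] at h
  apply hV.inv_notMem
  rw [← V.valuation_le_one_iff, map_inv₀]
  exact inv_le_one_of_one_le₀ h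

private theorem lfSm_div_mem {V : ValuationSubring F} {π : F} (hV : IsUnif V π) {z : F}
    (hz : V.valuation z < 1) : z / π ∈ V := by
  rcases eq_or_ne z 0 with rfl | hz0
  · rw [zero_div]; exact V.zero_mem
  refine hV.div_mem ((V.valuation_le_one_iff z).1 hz.le) fun hinv => ?_
  rw [← V.valuation_le_one_iff, map_inv₀] at hinv
  have h0 : 0 < V.valuation z := zero_lt_iff.2 ((V.valuation.ne_zero_iff).2 hz0)
  exact absurd ((inv_le_one₀ h0).1 hinv) (not_le.2 hz)

private theorem lfSm_princ {V : ValuationSubring F} (hA : IsUnif A ϖ)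
    (hV : IsUnif V (algebraMap K F ϖ)) (hS : IsSm A ϖ V R) : Princ R V := by
  refine ⟨algebraMap K F ϖ, hS.isPt.const_mem ϖ hA.mem, hV.ne_zero, lfSm_val_unif_lt_one hV,
    fun z hz hzV => hS.qep _ ?_ (lfSm_div_mem hV hzV)⟩
  rw [mul_div_cancel₀ _ hV.ne_zero]
  exact hz

/-- local roots of vertical units. -/
private theorem lfSm_root {V : ValuationSubring F} (hA : IsUnif A ϖ)
    (hV : IsUnif V (algebraMap K F ϖ)) (hS : IsSm A ϖ V R) {n : ℕ} {u : F}
    (hu : V.valuation u = 1) (hd : HorDiv K n u) : ∃ g : F, RUnit R (g ^ n * u) := by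
  have hT := hS.thr
  have hR := hS.isPt
  have hufd : UniqueFactorizationMonoid R := ufd_of_through_princ hR hT (lfSm_princ hA hV hS)
  have hfrac : IsFractionRing R F := isFractionRing_of_through hT
  have hu0 : u ≠ 0 := by
    rintro rfl
    simp at hu
  have hπ0 : algebraMap K F ϖ ≠ 0 := hV.ne_zero
  have hπR : algebraMap K F ϖ ∈ R := hR.const_mem ϖ hA.mem
  have H : PUnitUpToPow R n u := by
    intro p hp
    set W := primeValSubring F p hp with hW
    have hRW : ∀ r ∈ R, r ∈ W := fun r hr => algebraMap_mem_primeValSubring hp ⟨r, hr⟩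
    by_cases hq : (algebraMap K F ϖ)⁻¹ ∈ W
    · -- horizontal prime
      have hK : ∀ a : K, algebraMap K F a ∈ W := by
        intro a
        obtain ⟨r, hr⟩ := hA.exists_pow_mul_mem a
        have h1 : algebraMap K F a = (algebraMap K F ϖ)⁻¹ ^ r * algebraMap K F (ϖ ^ r * a) := by
          rw [map_mul, map_pow, inv_pow]
          field_simp
        rw [h1]
        exact W.mul_mem _ _ (W.pow_mem hq r) (hRW _ (hR.const_mem _ hr))
      obtain ⟨t, ht0, ht⟩ := hd W hK
      have hy0 : t ^ n * u ≠ 0 := mul_ne_zero (pow_ne_zero _ ht0) hu0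
      have hval : W.valuation (t ^ n * u) = 1 := by rw [mul_comm]; exact ht
      have hy1 : t ^ n * u ∈ W := (W.valuation_le_one_iff _).1 hval.le
      have hy2 : (t ^ n * u)⁻¹ ∈ W := by
        rw [← W.valuation_le_one_iff, map_inv₀, hval, inv_one]
      obtain ⟨a, b, ha, hb, e⟩ := exists_of_mem_of_inv_mem hp hy0 hy1 hy2
      exact ⟨t, a, b, ht0, ha, hb, e⟩
    · -- vertical prime
      have hpq : p ∣ (⟨algebraMap K F ϖ, hπR⟩ : R) := by
        by_contra hnd
        exact hq (inv_mem_primeValSubring hp hnd)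
      have hpc : p ∈ contr R V hT := by
        by_contra hcon
        rw [mem_contr, not_lt] at hcon
        obtain ⟨m, hm⟩ := hpq
        have hp0 : (p : F) ≠ 0 := fun h => hp.ne_zero (Subtype.ext h)
        have h1 : ((p : F))⁻¹ ∈ R := by
          apply hS.qep
          · have h2 : algebraMap K F ϖ = (p : F) * (m : F) := congrArg Subtype.val hm
            rw [h2]
            have h3 : (p : F) * (m : F) * ((p : F))⁻¹ = m := by field_simp
            rw [h3]
            exact m.2
          · rw [← V.valuation_le_one_iff, map_inv₀]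
            exact inv_le_one_of_one_le₀ hcon
        exact hp.not_isUnit ((isUnit_iff_rUnit p).2 ⟨hp0, p.2, h1⟩)
      have hle := le_primeValSubring_of_mem_contr hT hp hpc
      have hu1 : u ∈ W := hle u ((V.valuation_le_one_iff _).1 hu.le)
      have hu2 : u⁻¹ ∈ W := by
        apply hle
        rw [← V.valuation_le_one_iff, map_inv₀, hu, inv_one]
      obtain ⟨a, b, ha, hb, e⟩ := exists_of_mem_of_inv_mem hp hu0 hu1 hu2
      exact ⟨1, a, b, one_ne_zero, ha, hb, by rw [one_pow, one_mul]; exact e⟩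
  obtain ⟨g, υ, -, e⟩ := exists_root_unit n hu0 H
  refine ⟨g, ?_⟩
  rw [e]
  exact (isUnit_iff_rUnit (υ : R)).1 υ.isUnit

/-- D2S: local factorisation at a smooth point (`R` is factorial: `ufd_of_through_princ`). -/
theorem lf_sm {V : ValuationSubring F} (hA : IsUnif A ϖ) (hV : IsUnif V (algebraMap K F ϖ))
    (hS : IsSm A ϖ V R) {n : ℕ} (hn : n ≠ 0) {u : F} (hu : u ≠ 0) (hd : HorDiv K n u) :
    SmShape K V R n u := by
  have hπ0 : algebraMap K F ϖ ≠ 0 := hV.ne_zero
  have hϖ0 : ϖ ≠ 0 := hA.ne_zero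
  obtain ⟨k, hk1, hk2⟩ := hV.exists_zpow u hu
  have hval : V.valuation (u / algebraMap K F ϖ ^ k) = 1 := by
    refine le_antisymm ((V.valuation_le_one_iff _).2 hk1) ?_
    have h := (V.valuation_le_one_iff _).2 hk2
    rw [map_inv₀] at h
    have h0 : 0 < V.valuation (u / algebraMap K F ϖ ^ k) :=
      zero_lt_iff.2 ((V.valuation.ne_zero_iff).2 (div_ne_zero hu (zpow_ne_zero _ hπ0)))
    exact (inv_le_one₀ h0).1 h
  have hd' : HorDiv K n (u / algebraMap K F ϖ ^ k) := by
    intro W hW
    obtain ⟨t, ht0, ht⟩ := hd W hW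
    refine ⟨t, ht0, ?_⟩
    have h1 : W.valuation (algebraMap K F ϖ ^ k) = 1 := by
      rw [← map_zpow₀]
      refine le_antisymm ((W.valuation_le_one_iff _).2 (hW _)) ?_
      have h := (W.valuation_le_one_iff _).2 (hW ((ϖ ^ k)⁻¹))
      rw [map_inv₀, map_inv₀] at h
      have h0 : 0 < W.valuation (algebraMap K F (ϖ ^ k)) :=
        zero_lt_iff.2 ((W.valuation.ne_zero_iff).2
          ((map_ne_zero (algebraMap K F)).2 (zpow_ne_zero _ hϖ0)))
      exact (inv_le_one₀ h0).1 h
    have h2 : u / algebraMap K F ϖ ^ k * t ^ n = u * t ^ n / algebraMap K F ϖ ^ k := by ring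
    rw [h2, map_div₀, ht, h1, div_one]
  obtain ⟨g, hg⟩ := lfSm_root hA hV hS hval hd'
  have hg0 : g ≠ 0 := by
    rintro rfl
    rw [zero_pow hn, zero_mul] at hg
    exact hg.1 rfl
  have hgval : V.valuation g = 1 := by
    have h1 : V.valuation (g ^ n * (u / algebraMap K F ϖ ^ k)) = 1 := by
      refine le_antisymm ((V.valuation_le_one_iff _).2 (hS.thr.le _ hg.2.1)) ?_
      have h := (V.valuation_le_one_iff _).2 (hS.thr.le _ hg.2.2)
      rw [map_inv₀] at h
      exact (inv_le_one₀ (zero_lt_iff.2 ((V.valuation.ne_zero_iff).2 hg.1))).1 h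
    rw [map_mul, hval, mul_one, map_pow] at h1
    exact (pow_eq_one_iff.1 h1).resolve_right hn
  refine ⟨ϖ ^ k, g⁻¹, zpow_ne_zero _ hϖ0, by rw [map_inv₀, hgval, inv_one], ?_⟩
  have h3 : u / (algebraMap K F (ϖ ^ k) * g⁻¹ ^ n) = g ^ n * (u / algebraMap K F ϖ ^ k) := by
    rw [map_zpow₀, inv_pow]
    field_simp
  rw [h3]
  exact hg

end Fermat.Agent.S44.Depth

end
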