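/-
S44 / DEPTH (architect helper219), task D3: the one-constant lemma.
Simultaneous induction on both components with one constant.
-/
import Fermat.Agent.S44.Depth.Defs
import Fermat.Agent.S44.Depth.Abs.Rad

set_option autoImplicit false

noncomputable section

namespace Fermat.Agent.S44.Depth

open Fermat.Agent.S18 Fermat.Agent.S36.BP Fermat.Agent.S36.BP.DatumAux Polynomial

variable {K F : Type*} [Field K] [Field F] [Algebra K F]
variable {A : ValuationSubring K} {ϖ : K} {e : ℕ} {Vi V0 : ValuationSubring F} {x y : F}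
  {Smi Sm0 Nd : Set (Subring F)} {R : Subring F}

/-! ### A small API for `Dp` -/

section DpApi

variable {V : ValuationSubring F} {π : F} {n m : ℕ} {a b r : F}

private theorem ol_dp_add (ha : Dp V π n a) (hb : Dp V π n b) : Dp V π n (a + b) := by
  unfold Dp at *
  rw [add_div]
  exact V.add_mem _ _ ha hb

private theorem ol_dp_sub (ha : Dp V π n a) (hb : Dp V π n b) : Dp V π n (a - b) := by
  unfold Dp at *
  rw [sub_div]
  exact sub_mem ha hb

private theorem ol_dp_mul (ha : Dp V π n a) (hr : r ∈ V) : Dp V π n (a * r) := by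
  unfold Dp at *
  rw [mul_div_right_comm]
  exact V.mul_mem _ _ ha hr

private theorem ol_dp_mono (hV : IsUnif V π) (hmn : m ≤ n) (ha : Dp V π n a) : Dp V π m a := by
  unfold Dp at *
  obtain ⟨k, rfl⟩ := Nat.exists_eq_add_of_le hmn
  have h0 := hV.ne_zero
  have e1 : a / π ^ m = π ^ k * (a / π ^ (m + k)) := by
    rw [pow_add]
    field_simp
  rw [e1]
  exact V.mul_mem _ _ (pow_mem hV.mem k) ha

private theorem ol_dp_succ (hV : IsUnif V π) :
    Dp V π (n + 1) a ↔ V.valuation (a / π ^ n) < 1 := by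
  have h0 := hV.ne_zero
  have e1 : a / π ^ (n + 1) = a / π ^ n / π := by rw [pow_succ, div_div]
  constructor
  · intro h
    unfold Dp at h
    have e2 : a / π ^ n = π * (a / π ^ (n + 1)) := by
      rw [e1]
      field_simp
    rw [e2, map_mul]
    exact mul_lt_one_of_lt_of_le (valuation_lt_one_of_isUnif hV)
      ((V.valuation_le_one_iff _).mpr h)
  · intro h
    unfold Dp
    rw [e1]
    exact NodalModel.div_unif_mem hV h

private theorem ol_dp_pow_mul (hV : IsUnif V π) (hr : r ∈ V) : Dp V π n (π ^ n * r) := by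
  unfold Dp
  rw [mul_div_cancel_left₀ _ (pow_ne_zero _ hV.ne_zero)]
  exact hr

private theorem ol_dp_zero : Dp V π 0 a ↔ a ∈ V := by
  unfold Dp
  rw [pow_zero, div_one]

private theorem ol_lt_sub {V : ValuationSubring F} {a b : F} (ha : V.valuation a < 1)
    (hb : V.valuation b < 1) : V.valuation (a - b) < 1 :=
  lt_of_le_of_lt (V.valuation.map_sub _ _) (max_lt ha hb)

end DpApi

/-! ### Iterated `q`-expansion principle -/

private theorem ol_qep_iter {π : F} (hπ0 : π ≠ 0) {P : F → Prop} (hπP : ∀ z, P z → P (π * z))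
    (hq : ∀ z, π * z ∈ R → P z → z ∈ R) :
    ∀ (d : ℕ) (z : F), z ∈ R → P (z / π ^ d) → z / π ^ d ∈ R
  | 0, z, hz, _ => by simpa using hz
  | d + 1, z, hz, hP => by
    have e1 : π * (z / π ^ (d + 1)) = z / π ^ d := by
      rw [pow_succ]
      field_simp
    refine hq _ ?_ hP
    rw [e1]
    refine ol_qep_iter hπ0 hπP hq d z hz ?_
    rw [← e1]
    exact hπP _ hP

/-! ### One valuation -/

section One

variable {V : ValuationSubring F} {π h g r κ η : F} {d : ℕ}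

private theorem ol_a (hh : h = g * r) (hg : Dp V π d (g - 1)) (hr : r ∈ V)
    (hd : Dp V π d (h - κ)) : Dp V π d (r - κ) := by
  have e1 : r - κ = (h - κ) - (g - 1) * r := by
    rw [hh]
    ring
  rw [e1]
  exact ol_dp_sub hd (ol_dp_mul hg hr)

private theorem ol_b (hV : IsUnif V π) (hh : h = g * r) (hg : Dp V π (d + 1) (g - 1))
    (hr : r ∈ V) : V.valuation ((h - κ) / π ^ d - (r - κ) / π ^ d) < 1 := by
  have e1 : (h - κ) / π ^ d - (r - κ) / π ^ d = (g - 1) * r / π ^ d := by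
    rw [hh, ← sub_div]
    ring
  rw [e1]
  exact (ol_dp_succ hV).1 (ol_dp_mul hg hr)

private theorem ol_c (hV : IsUnif V π) (hh : h = g * r)
    (hg : Dp V π (d + 1) (g - 1 - π ^ d * η)) (hr : r ∈ V) :
    V.valuation ((h - κ) / π ^ d - ((r - κ) / π ^ d + η * r)) < 1 := by
  have h0 : π ^ d ≠ 0 := pow_ne_zero _ hV.ne_zero
  have e1 : (h - κ) / π ^ d - ((r - κ) / π ^ d + η * r) = (g - 1 - π ^ d * η) * r / π ^ d := by
    rw [hh]
    field_simp
    ring
  rw [e1]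
  exact (ol_dp_succ hV).1 (ol_dp_mul hg hr)

end One

/-! ### The points -/

private theorem ol_eq {h g : F} (hu : RUnit R (h / g)) : h = g * (h / g) := by
  have h1 := hu.1
  have h2 : g ≠ 0 := by
    rintro rfl
    rw [div_zero] at h1
    exact h1 rfl
  field_simp

private theorem ol_sm {V : ValuationSubring F} (hV : IsUnif V (algebraMap K F ϖ))
    (hS : IsSm A ϖ V R) {h g κ : F} {d : ℕ} (hκ : κ ∈ R) (hu : RUnit R (h / g))
    (hg : Dp V (algebraMap K F ϖ) d (g - 1)) (hd : Dp V (algebraMap K F ϖ) d (h - κ)) :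
    (h / g - κ) / algebraMap K F ϖ ^ d ∈ R := by
  have hr : h / g ∈ V := hS.thr.le _ hu.2.1
  have h1 : Dp V (algebraMap K F ϖ) d (h / g - κ) := ol_a (ol_eq hu) hg hr hd
  exact ol_qep_iter (P := fun z => z ∈ V) hV.ne_zero (fun z hz => V.mul_mem _ _ hV.mem hz)
    hS.qep d _ (R.sub_mem hu.2.1 hκ) h1

private theorem ol_nd (hVi : IsUnif Vi (algebraMap K F ϖ)) (hV0 : IsUnif V0 (algebraMap K F ϖ))
    (hN : IsNode A ϖ Vi V0 x y R) {h g κ : F} {d : ℕ} (hκ : κ ∈ R) (hu : RUnit R (h / g))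
    (hgi : Dp Vi (algebraMap K F ϖ) d (g - 1)) (hg0 : Dp V0 (algebraMap K F ϖ) d (g - 1))
    (hdi : Dp Vi (algebraMap K F ϖ) d (h - κ)) (hd0 : Dp V0 (algebraMap K F ϖ) d (h - κ)) :
    (h / g - κ) / algebraMap K F ϖ ^ d ∈ R := by
  have hri : h / g ∈ Vi := hN.thri.le _ hu.2.1
  have hr0 : h / g ∈ V0 := hN.thr0.le _ hu.2.1
  have h1 : Dp Vi (algebraMap K F ϖ) d (h / g - κ) := ol_a (ol_eq hu) hgi hri hdi
  have h2 : Dp V0 (algebraMap K F ϖ) d (h / g - κ) := ol_a (ol_eq hu) hg0 hr0 hd0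
  exact ol_qep_iter (P := fun z => z ∈ Vi ∧ z ∈ V0) hVi.ne_zero
    (fun z hz => ⟨Vi.mul_mem _ _ hVi.mem hz.1, V0.mul_mem _ _ hV0.mem hz.2⟩)
    (fun z hz hP => hN.qep z hz hP.1 hP.2) d _ (R.sub_mem hu.2.1 hκ) ⟨h1, h2⟩

/-! ### D3 : the one-constant lemma -/

/-- D3. -/
theorem one_lemma (M : NodalModel A ϖ e Vi V0 x y Smi Sm0 Nd) {C : ℕ} (hC : 1 ≤ C) {h : F}
    (h0 : h ≠ 0) (γ : Subring F → F) (η : Subring F → K) (hη : ∀ R ∈ Nd, η R ∈ A)
    (hunit : ∀ R ∈ Smi ∪ Sm0 ∪ Nd, RUnit R (h / γ R))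
    (hSmi : ∀ R ∈ Smi, Dp Vi (algebraMap K F ϖ) (C + 1) (γ R - 1))
    (hSm0 : ∀ R ∈ Sm0, Dp V0 (algebraMap K F ϖ) (C + 1) (γ R - 1))
    (hNdi : ∀ R ∈ Nd, Dp Vi (algebraMap K F ϖ) (C + 1) (γ R - 1))
    (hNd0 : ∀ R ∈ Nd, Dp V0 (algebraMap K F ϖ) (C + 1)
      (γ R - 1 - algebraMap K F (ϖ ^ C * η R))) :
    ∃ c ∈ A, ∀ R ∈ Nd, A.valuation (η R - c) < 1 := by
  set π : F := algebraMap K F ϖ with hπ
  have hπ0 : π ≠ 0 := M.unif_ne_zero
  have hui := M.unifi
  have hu0 := M.unif0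
  have huSmi : ∀ R ∈ Smi, RUnit R (h / γ R) := fun R hR => hunit R (Or.inl (Or.inl hR))
  have huSm0 : ∀ R ∈ Sm0, RUnit R (h / γ R) := fun R hR => hunit R (Or.inl (Or.inr hR))
  have huNd : ∀ R ∈ Nd, RUnit R (h / γ R) := fun R hR => hunit R (Or.inr hR)
  have hNd0' : ∀ R ∈ Nd, Dp V0 π (C + 1) (γ R - 1 - π ^ C * algebraMap K F (η R)) := by
    intro R hR
    have := hNd0 R hR
    rwa [map_mul, map_pow] at this
  -- depth `C` of `γ R - 1` on `V0` at the nodes
  have hNd0C : ∀ R ∈ Nd, Dp V0 π C (γ R - 1) := by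
    intro R hR
    have h1 := ol_dp_mono hu0 (Nat.le_succ C) (hNd0' R hR)
    have h2 : Dp V0 π C (π ^ C * algebraMap K F (η R)) :=
      ol_dp_pow_mul hu0 (M.const0 _ (hη R hR))
    have := ol_dp_add h1 h2
    rwa [sub_add_cancel] at this
  -- the elements `ρ_R`
  have hρSmi : ∀ d ≤ C, ∀ κ ∈ A, Dp Vi π d (h - algebraMap K F κ) → ∀ R ∈ Smi,
      (h / γ R - algebraMap K F κ) / π ^ d ∈ R := fun d hd κ hκ hdi R hR =>
    ol_sm hui (M.smi R hR) ((M.smi R hR).isPt.const_mem κ hκ) (huSmi R hR)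
      (ol_dp_mono hui (by omega) (hSmi R hR)) hdi
  have hρSm0 : ∀ d ≤ C, ∀ κ ∈ A, Dp V0 π d (h - algebraMap K F κ) → ∀ R ∈ Sm0,
      (h / γ R - algebraMap K F κ) / π ^ d ∈ R := fun d hd κ hκ hd0 R hR =>
    ol_sm hu0 (M.sm0 R hR) ((M.sm0 R hR).isPt.const_mem κ hκ) (huSm0 R hR)
      (ol_dp_mono hu0 (by omega) (hSm0 R hR)) hd0
  have hρNd : ∀ d ≤ C, ∀ κ ∈ A, Dp Vi π d (h - algebraMap K F κ) →
      Dp V0 π d (h - algebraMap K F κ) → ∀ R ∈ Nd,
      (h / γ R - algebraMap K F κ) / π ^ d ∈ R := fun d hd κ hκ hdi hd0 R hR =>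
    ol_nd hui hu0 (M.nd R hR) ((M.nd R hR).isPt.const_mem κ hκ) (huNd R hR)
      (ol_dp_mono hui (by omega) (hNdi R hR)) (ol_dp_mono hu0 hd (hNd0C R hR)) hdi hd0
  -- congruences on `Vi`
  have hcSmi : ∀ d ≤ C, ∀ κ : F, ∀ R ∈ Smi,
      Vi.valuation ((h - κ) / π ^ d - (h / γ R - κ) / π ^ d) < 1 := fun d hd κ R hR =>
    ol_b hui (ol_eq (huSmi R hR)) (ol_dp_mono hui (by omega) (hSmi R hR))
      ((M.smi R hR).thr.le _ (huSmi R hR).2.1)
  have hcNdi : ∀ d ≤ C, ∀ κ : F, ∀ R ∈ Nd,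
      Vi.valuation ((h - κ) / π ^ d - (h / γ R - κ) / π ^ d) < 1 := fun d hd κ R hR =>
    ol_b hui (ol_eq (huNd R hR)) (ol_dp_mono hui (by omega) (hNdi R hR))
      ((M.nd R hR).thri.le _ (huNd R hR).2.1)
  have hcSm0 : ∀ d ≤ C, ∀ κ : F, ∀ R ∈ Sm0,
      V0.valuation ((h - κ) / π ^ d - (h / γ R - κ) / π ^ d) < 1 := fun d hd κ R hR =>
    ol_b hu0 (ol_eq (huSm0 R hR)) (ol_dp_mono hu0 (by omega) (hSm0 R hR))
      ((M.sm0 R hR).thr.le _ (huSm0 R hR).2.1)
  have hcNd0 : ∀ d < C, ∀ κ : F, ∀ R ∈ Nd,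
      V0.valuation ((h - κ) / π ^ d - (h / γ R - κ) / π ^ d) < 1 := fun d hd κ R hR =>
    ol_b hu0 (ol_eq (huNd R hR)) (ol_dp_mono hu0 (by omega) (hNd0C R hR))
      ((M.nd R hR).thr0.le _ (huNd R hR).2.1)
  have hcNd0C : ∀ κ : F, ∀ R ∈ Nd,
      V0.valuation ((h - κ) / π ^ C -
        ((h / γ R - κ) / π ^ C + algebraMap K F (η R) * (h / γ R))) < 1 := fun κ R hR =>
    ol_c hu0 (ol_eq (huNd R hR)) (hNd0' R hR) ((M.nd R hR).thr0.le _ (huNd R hR).2.1)
  -- the constant on `Vi`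
  have hai : ∀ d ≤ C, ∀ κ ∈ A, Dp Vi π d (h - algebraMap K F κ) →
      Dp V0 π d (h - algebraMap K F κ) →
      ∃ a ∈ A, Vi.valuation ((h - algebraMap K F κ) / π ^ d - algebraMap K F a) < 1 := by
    intro d hd κ hκ hdi hd0
    refine M.regi _ hdi ?_
    rintro R (hR | hR)
    · exact ⟨_, hρSmi d hd κ hκ hdi R hR, hcSmi d hd _ R hR⟩
    · exact ⟨_, hρNd d hd κ hκ hdi hd0 R hR, hcNdi d hd _ R hR⟩
  rcases Nd.eq_empty_or_nonempty with hemp | ⟨R₀, hR₀⟩
  · exact ⟨0, A.zero_mem, fun R hR => absurd hR (by rw [hemp]; exact Set.notMem_empty R)⟩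
  -- `h` is integral on both components
  have hhi : h ∈ Vi := by
    rw [ol_eq (huNd R₀ hR₀)]
    refine Vi.mul_mem _ _ ?_ ((M.nd R₀ hR₀).thri.le _ (huNd R₀ hR₀).2.1)
    have h1 := ol_dp_zero.1 (ol_dp_mono hui (Nat.zero_le _) (hNdi R₀ hR₀))
    have := Vi.add_mem _ _ h1 Vi.one_mem
    rwa [sub_add_cancel] at this
  have hh0 : h ∈ V0 := by
    rw [ol_eq (huNd R₀ hR₀)]
    refine V0.mul_mem _ _ ?_ ((M.nd R₀ hR₀).thr0.le _ (huNd R₀ hR₀).2.1)
    have h1 := ol_dp_zero.1 (ol_dp_mono hu0 (Nat.zero_le _) (hNd0C R₀ hR₀))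
    have := V0.add_mem _ _ h1 V0.one_mem
    rwa [sub_add_cancel] at this
  -- the induction
  have hP : ∀ d ≤ C, ∃ κ ∈ A, Dp Vi π d (h - algebraMap K F κ) ∧
      Dp V0 π d (h - algebraMap K F κ) := by
    intro d
    induction d with
    | zero =>
      intro _
      refine ⟨0, A.zero_mem, ?_, ?_⟩
      · rw [map_zero, sub_zero]
        exact ol_dp_zero.2 hhi
      · rw [map_zero, sub_zero]
        exact ol_dp_zero.2 hh0
    | succ d ih =>
      intro hd
      have hd' : d ≤ C := by omega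
      have hdlt : d < C := by omega
      obtain ⟨κ, hκ, hdi, hd0⟩ := ih hd'
      obtain ⟨ai, hai_mem, hai_val⟩ := hai d hd' κ hκ hdi hd0
      obtain ⟨a0, ha0_mem, ha0_val⟩ : ∃ a ∈ A,
          V0.valuation ((h - algebraMap K F κ) / π ^ d - algebraMap K F a) < 1 := by
        refine M.reg0 _ hd0 ?_
        rintro R (hR | hR)
        · exact ⟨_, hρSm0 d hd' κ hκ hd0 R hR, hcSm0 d hd' _ R hR⟩
        · exact ⟨_, hρNd d hd' κ hκ hdi hd0 R hR, hcNd0 d hdlt _ R hR⟩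
      -- compare at the node `R₀`
      have hN := M.nd R₀ hR₀
      have hρ := hρNd d hd' κ hκ hdi hd0 R₀ hR₀
      set f : F := (h - algebraMap K F κ) / π ^ d with hf
      set ρ : F := (h / γ R₀ - algebraMap K F κ) / π ^ d with hρdef
      have t1 : ρ - algebraMap K F ai ∈ rad R₀ := by
        refine mem_rad_of_valuation_lt_one hN.thri.le
          (R₀.sub_mem hρ (hN.isPt.const_mem _ hai_mem)) ?_
        have e1 : ρ - algebraMap K F ai = (f - algebraMap K F ai) - (f - ρ) := by ring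
        rw [e1]
        exact ol_lt_sub hai_val (hcNdi d hd' _ R₀ hR₀)
      have t2 : ρ - algebraMap K F a0 ∈ rad R₀ := by
        refine mem_rad_of_valuation_lt_one hN.thr0.le
          (R₀.sub_mem hρ (hN.isPt.const_mem _ ha0_mem)) ?_
        have e1 : ρ - algebraMap K F a0 = (f - algebraMap K F a0) - (f - ρ) := by ring
        rw [e1]
        exact ol_lt_sub ha0_val (hcNd0 d hdlt _ R₀ hR₀)
      have t3 : algebraMap K F (ai - a0) ∈ rad R₀ := by
        have := sub_mem_rad hN.isPt t2 t1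
        have e1 : algebraMap K F (ai - a0) =
            (ρ - algebraMap K F a0) - (ρ - algebraMap K F ai) := by
          rw [map_sub]
          ring
        rw [e1]
        exact this
      have t4 : A.valuation (ai - a0) < 1 :=
        valuation_lt_one_of_const_mem_rad hN.isPt (A.sub_mem hai_mem ha0_mem) t3
      have t5 : V0.valuation (f - algebraMap K F ai) < 1 := by
        have e1 : f - algebraMap K F ai = (f - algebraMap K F a0) - algebraMap K F (ai - a0) := by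
          rw [map_sub]
          ring
        rw [e1]
        exact ol_lt_sub ha0_val (M.val_const_0_lt_one t4)
      have e2 : (h - algebraMap K F (κ + ai * ϖ ^ d)) / π ^ d = f - algebraMap K F ai := by
        rw [hf, map_add, map_mul, map_pow, ← hπ]
        have := pow_ne_zero d hπ0
        field_simp
        ring
      refine ⟨κ + ai * ϖ ^ d, A.add_mem _ _ hκ (A.mul_mem _ _ hai_mem (pow_mem M.unifA.mem d)),
        ?_, ?_⟩
      · rw [ol_dp_succ hui, e2]
        exact hai_val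
      · rw [ol_dp_succ hu0, e2]
        exact t5
  -- the final step
  obtain ⟨κ, hκ, hdi, hd0⟩ := hP C le_rfl
  obtain ⟨ai, hai_mem, hai_val⟩ := hai C le_rfl κ hκ hdi hd0
  obtain ⟨a0, ha0_mem, ha0_val⟩ : ∃ a ∈ A,
      V0.valuation ((h - algebraMap K F κ) / π ^ C - algebraMap K F a) < 1 := by
    refine M.reg0 _ hd0 ?_
    rintro R (hR | hR)
    · exact ⟨_, hρSm0 C le_rfl κ hκ hd0 R hR, hcSm0 C le_rfl _ R hR⟩
    · exact ⟨_, R.add_mem (hρNd C le_rfl κ hκ hdi hd0 R hR)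
        (R.mul_mem ((M.nd R hR).isPt.const_mem _ (hη R hR)) (huNd R hR).2.1), hcNd0C _ R hR⟩
  -- `r_R ≡ κ` at the nodes
  have hrκ : ∀ R ∈ Nd, h / γ R - algebraMap K F κ ∈ rad R := by
    intro R hR
    have hρ := hρNd C le_rfl κ hκ hdi hd0 R hR
    have e1 : h / γ R - algebraMap K F κ =
        ((h / γ R - algebraMap K F κ) / π ^ C * π ^ (C - 1)) * π := by
      obtain ⟨k, rfl⟩ : ∃ k, C = k + 1 := ⟨C - 1, by omega⟩
      rw [Nat.add_sub_cancel, mul_assoc, ← pow_succ, div_mul_cancel₀ _ (pow_ne_zero _ hπ0)]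
    rw [e1]
    exact mul_mem_rad (R.mul_mem hρ (pow_mem (M.unif_mem_rad (M.nd R hR).isPt).1 _))
      (M.unif_mem_rad (M.nd R hR).isPt)
  -- `κ` is a unit
  have hκ1 : A.valuation κ = 1 := by
    have hN := M.nd R₀ hR₀
    have h1 : RUnit R₀ (algebraMap K F κ) := by
      have := rUnit_add_rad hN.isPt (huNd R₀ hR₀) (neg_mem_rad (hrκ R₀ hR₀))
      have e1 : h / γ R₀ + -(h / γ R₀ - algebraMap K F κ) = algebraMap K F κ := by ring
      rwa [e1] at this
    rcases ((A.valuation_le_one_iff _).mpr hκ).lt_or_eq with h2 | h2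
    · exact absurd h1 (hN.isPt.const_rad κ h2).2
    · exact h2
  have hκ0 : κ ≠ 0 := by
    rintro rfl
    rw [map_zero] at hκ1
    exact zero_ne_one hκ1
  refine ⟨(a0 - ai) * κ⁻¹, A.mul_mem _ _ (A.sub_mem ha0_mem hai_mem)
    (inv_mem_of_valuation_eq_one hκ1), ?_⟩
  intro R hR
  have hN := M.nd R hR
  have hρ := hρNd C le_rfl κ hκ hdi hd0 R hR
  set f : F := (h - algebraMap K F κ) / π ^ C with hf
  set ρ : F := (h / γ R - algebraMap K F κ) / π ^ C with hρdef
  have hηR : algebraMap K F (η R) ∈ R := hN.isPt.const_mem _ (hη R hR)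
  have t1 : ρ - algebraMap K F ai ∈ rad R := by
    refine mem_rad_of_valuation_lt_one hN.thri.le
      (R.sub_mem hρ (hN.isPt.const_mem _ hai_mem)) ?_
    have e1 : ρ - algebraMap K F ai = (f - algebraMap K F ai) - (f - ρ) := by ring
    rw [e1]
    exact ol_lt_sub hai_val (hcNdi C le_rfl _ R hR)
  have t2 : ρ + algebraMap K F (η R) * (h / γ R) - algebraMap K F a0 ∈ rad R := by
    refine mem_rad_of_valuation_lt_one hN.thr0.le
      (R.sub_mem (R.add_mem hρ (R.mul_mem hηR (huNd R hR).2.1))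
        (hN.isPt.const_mem _ ha0_mem)) ?_
    have e1 : ρ + algebraMap K F (η R) * (h / γ R) - algebraMap K F a0 =
        (f - algebraMap K F a0) - (f - (ρ + algebraMap K F (η R) * (h / γ R))) := by ring
    rw [e1]
    exact ol_lt_sub ha0_val (hcNd0C _ R hR)
  have t3 : algebraMap K F (η R * κ - (a0 - ai)) ∈ rad R := by
    have h1 := sub_mem_rad hN.isPt (sub_mem_rad hN.isPt t2 t1) (mul_mem_rad hηR (hrκ R hR))
    have e1 : algebraMap K F (η R * κ - (a0 - ai)) =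
        (ρ + algebraMap K F (η R) * (h / γ R) - algebraMap K F a0) - (ρ - algebraMap K F ai) -
          algebraMap K F (η R) * (h / γ R - algebraMap K F κ) := by
      rw [map_sub, map_sub, map_mul]
      ring
    rw [e1]
    exact h1
  have t4 : A.valuation (η R * κ - (a0 - ai)) < 1 :=
    valuation_lt_one_of_const_mem_rad hN.isPt
      (A.sub_mem (A.mul_mem _ _ (hη R hR) hκ) (A.sub_mem ha0_mem hai_mem)) t3
  have e3 : η R - (a0 - ai) * κ⁻¹ = (η R * κ - (a0 - ai)) * κ⁻¹ := by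
    field_simp
  rw [e3, map_mul, map_inv₀, hκ1, inv_one, mul_one]
  exact t4

end Fermat.Agent.S44.Depth

end
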