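/-
S44 / DEPTH, node D4 (task 2124, helper288): `ram_quot`.
`τ g / g ≡ 1 + ν δ` modulo `ϖ ^ (c + 1)` for a wildly ramified automorphism of depth `c`.
-/
import Fermat.Agent.S44.Depth.Defs

set_option autoImplicit false

noncomputable section

namespace Fermat.Agent.S44.Depth

open Fermat.Agent.S18 Fermat.Agent.S36.BP

variable {F : Type*} [Field F]

private theorem ram_unif_ne_zero {V : ValuationSubring F} {ϖF : F} (hV : IsUnif V ϖF) :
    ϖF ≠ 0 := by
  rintro rfl
  exact hV.inv_notMem (by simp [V.zero_mem])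

private theorem ram_val_pos {V : ValuationSubring F} {ϖF : F} (hV : IsUnif V ϖF) :
    0 < V.valuation ϖF :=
  zero_lt_iff.2 ((Valuation.ne_zero_iff _).2 (ram_unif_ne_zero hV))

private theorem ram_dp_iff {V : ValuationSubring F} {ϖF : F} (hV : IsUnif V ϖF) (n : ℕ) (z : F) :
    Dp V ϖF n z ↔ V.valuation z ≤ V.valuation ϖF ^ n := by
  have hpos : 0 < V.valuation ϖF ^ n := pow_pos (ram_val_pos hV) n
  unfold Dp
  rw [← ValuationSubring.valuation_le_one_iff, map_div₀, map_pow, div_le_one₀ hpos]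

private theorem ram_val_unif_lt_one {V : ValuationSubring F} {ϖF : F} (hV : IsUnif V ϖF) :
    V.valuation ϖF < 1 := by
  have h := hV.inv_notMem
  rw [← ValuationSubring.valuation_le_one_iff, not_le, map_inv₀] at h
  exact (one_lt_inv₀ (ram_val_pos hV)).1 h

private theorem ram_q_add {V : ValuationSubring F} {t : V.ValueGroup} {a b : F}
    (ha : V.valuation a ≤ t) (hb : V.valuation b ≤ t) : V.valuation (a + b) ≤ t :=
  Valuation.map_add_le _ ha hb

private theorem ram_q_mul {V : ValuationSubring F} {t : V.ValueGroup} {a b : F}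
    (ha : V.valuation a ≤ 1) (hb : V.valuation b ≤ t) : V.valuation (a * b) ≤ t := by
  rw [map_mul]
  calc V.valuation a * V.valuation b ≤ 1 * t := mul_le_mul' ha hb
    _ = t := one_mul t

private theorem ram_val_nat (V : ValuationSubring F) (n : ℕ) : V.valuation (n : F) ≤ 1 :=
  (ValuationSubring.valuation_le_one_iff V _).2 (natCast_mem V n)

private theorem ram_pow_nat {V : ValuationSubring F} {t : V.ValueGroup} {δ : F}
    (hδ : V.valuation δ ≤ 1) (hδ2 : V.valuation (δ * δ) ≤ t) (n : ℕ) :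
    V.valuation ((1 + δ) ^ n - 1 - (n : F) * δ) ≤ t := by
  induction n with
  | zero => simp
  | succ n ih =>
    have h1 : V.valuation (1 + δ) ≤ 1 := ram_q_add (by simp) hδ
    have e : (1 + δ) ^ (n + 1) - 1 - ((n + 1 : ℕ) : F) * δ
        = (1 + δ) * ((1 + δ) ^ n - 1 - (n : F) * δ) + (n : F) * (δ * δ) := by
      push_cast; ring
    rw [e]
    exact ram_q_add (ram_q_mul h1 ih) (ram_q_mul (ram_val_nat V n) hδ2)

private theorem ram_pow_int {V : ValuationSubring F} {t : V.ValueGroup} {δ : F}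
    (hδ : V.valuation δ < 1) (hδ2 : V.valuation (δ * δ) ≤ t) (ν : ℤ) :
    V.valuation ((1 + δ) ^ ν - 1 - (ν : F) * δ) ≤ t := by
  have h1 : V.valuation (1 + δ) = 1 := Valuation.map_one_add_of_lt _ hδ
  obtain ⟨n, rfl | rfl⟩ := ν.eq_nat_or_neg
  · simpa using ram_pow_nat hδ.le hδ2 n
  · have hn := ram_pow_nat hδ.le hδ2 n
    set u : F := (1 + δ) ^ n with hu
    have hvu : V.valuation u = 1 := by rw [hu, map_pow, h1, one_pow]
    have hu0 : u ≠ 0 := by
      intro h; rw [h, map_zero] at hvu; exact zero_ne_one hvu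
    have e : (1 + δ) ^ (-(n : ℤ)) - 1 - ((-(n : ℤ) : ℤ) : F) * δ
        = u⁻¹ * (-1 * (u - 1 - (n : F) * δ) + ((n : F) * δ * (u - 1 - (n : F) * δ)
            + (n : F) * ((n : F) * (δ * δ)))) := by
      rw [zpow_neg, zpow_natCast, ← hu]
      push_cast
      field_simp
      ring
    rw [e]
    refine ram_q_mul (by rw [map_inv₀, hvu, inv_one]) (ram_q_add (ram_q_mul (by simp) hn)
      (ram_q_add (ram_q_mul ?_ hn) (ram_q_mul (ram_val_nat V n)
        (ram_q_mul (ram_val_nat V n) hδ2))))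
    exact ram_q_mul (ram_val_nat V n) hδ.le

/-- D4. -/
theorem ram_quot {V : ValuationSubring F} {ϖF δF : F} (hV : IsUnif V ϖF) (τ : F ≃+* F) {c : ℕ}
    (hc : 1 ≤ c) (hτ : τ ϖF = ϖF * (1 + δF)) (hδ : Dp V ϖF c δF)
    (hram : ∀ z ∈ V, Dp V ϖF (c + 1) (τ z - z)) {g : F} {ν : ℤ}
    (hg : V.valuation g = V.valuation ϖF ^ ν) :
    Dp V ϖF (c + 1) (τ g / g - 1 - (ν : F) * δF) := by
  have h0 : ϖF ≠ 0 := ram_unif_ne_zero hV
  have hpos := ram_val_pos hV
  have hlt := ram_val_unif_lt_one hV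
  rw [ram_dp_iff hV] at hδ ⊢
  have hδ1 : V.valuation δF < 1 :=
    lt_of_le_of_lt hδ (pow_lt_one₀ (le_of_lt hpos) hlt (by omega))
  have hδ2 : V.valuation (δF * δF) ≤ V.valuation ϖF ^ (c + 1) := by
    rw [map_mul]
    calc V.valuation δF * V.valuation δF ≤ V.valuation ϖF ^ c * V.valuation ϖF ^ c :=
          mul_le_mul' hδ hδ
      _ = V.valuation ϖF ^ (c + c) := (pow_add _ _ _).symm
      _ ≤ V.valuation ϖF ^ (c + 1) := pow_le_pow_of_le_one (le_of_lt hpos) hlt.le (by omega)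
  have hz0 : ϖF ^ ν ≠ 0 := zpow_ne_zero _ h0
  set g₀ : F := g / ϖF ^ ν with hg₀
  have hvg₀ : V.valuation g₀ = 1 := by
    rw [hg₀, map_div₀, map_zpow₀, hg]
    exact div_self (zpow_ne_zero _ hpos.ne')
  have hg₀0 : g₀ ≠ 0 := by
    intro h; rw [h, map_zero] at hvg₀; exact zero_ne_one hvg₀
  have hgeq : g = ϖF ^ ν * g₀ := by rw [hg₀]; field_simp
  have hmem : g₀ ∈ V := (ValuationSubring.valuation_le_one_iff V _).1 hvg₀.le
  have hr := (ram_dp_iff hV _ _).1 (hram g₀ hmem)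
  have h1 : V.valuation (1 + δF) = 1 := Valuation.map_one_add_of_lt _ hδ1
  have h1ne : (1 + δF) ≠ 0 := by
    intro h; rw [h, map_zero] at h1; exact zero_ne_one h1
  have e : τ g / g - 1 - (ν : F) * δF
      = (1 + δF) ^ ν * (g₀⁻¹ * (τ g₀ - g₀)) + ((1 + δF) ^ ν - 1 - (ν : F) * δF) := by
    rw [hgeq, map_mul, map_zpow₀, hτ, mul_zpow]
    field_simp
    ring
  rw [e]
  refine ram_q_add (ram_q_mul (by rw [map_zpow₀, h1, one_zpow]) (ram_q_mul ?_ hr))
    (ram_pow_int hδ1 hδ2 ν)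
  rw [map_inv₀, hvg₀, inv_one]

end Fermat.Agent.S44.Depth

end
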