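/-
S44 / DEPTH (architect helper219), node D6 (proof helper21, assembly helper70): the slopes `b_R` of `u` at the
nodes
are constant modulo `p`.
-/
import Fermat.Agent.S44.Depth.Abs.LfNode
import Fermat.Agent.S44.Depth.Abs.LfSm
import Fermat.Agent.S44.Depth.Abs.Ram
import Fermat.Agent.S44.Depth.Abs.OneLemma
import Fermat.Agent.S36.BP.Rad
import Fermat.Agent.S36.BP.Base
import Fermat.Agent.S36.BP.OrdersAux
import Fermat.Agent.S18.Chart.Unif

set_option autoImplicit false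

noncomputable section

namespace Fermat.Agent.S44.Depth

open Fermat.Agent.S18 Fermat.Agent.S36.BP Polynomial

variable {K F : Type*} [Field K] [Field F] [Algebra K F]
variable {A : ValuationSubring K} {ϖ : K} {e : ℕ} {Vi V0 : ValuationSubring F} {x y : F}
  {Smi Sm0 Nd : Set (Subring F)} {R : Subring F}

/-! ### Valuations of constants -/

theorem slope_val_const {V : ValuationSubring F} (hA : IsUnif A ϖ)
    (hc : ∀ a ∈ A, algebraMap K F a ∈ V) {κ : K} {k : ℤ}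
    (h : A.valuation κ = A.valuation ϖ ^ k) :
    V.valuation (algebraMap K F κ) = V.valuation (algebraMap K F ϖ) ^ k := by
  have hϖ0 : ϖ ≠ 0 := ord_unif_ne_zero hA
  have hv0 : A.valuation ϖ ^ k ≠ 0 := zpow_ne_zero _ (ord_val_unif_ne_zero hA)
  have he : A.valuation (κ / ϖ ^ k) = 1 := by
    rw [map_div₀, map_zpow₀, h, div_self hv0]
  have h1 := ord_val_const_unit hc he
  have h2 : κ = κ / ϖ ^ k * ϖ ^ k := by
    rw [div_mul_cancel₀ _ (zpow_ne_zero _ hϖ0)]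
  rw [h2, map_mul, map_mul, h1, one_mul, map_zpow₀, map_zpow₀]

theorem slope_val_x (M : NodalModel A ϖ e Vi V0 x y Smi Sm0 Nd) :
    V0.valuation x = V0.valuation (algebraMap K F ϖ) ^ (e : ℤ) := by
  obtain ⟨c₀, hc₀, hxy⟩ := M.xy
  have h1 := slope_val_const (V := V0) (k := (e : ℤ)) M.unifA M.const0
    (by rw [hc₀, zpow_natCast])
  rw [← hxy, map_mul, M.y_0, mul_one] at h1
  exact h1

theorem slope_val_y (M : NodalModel A ϖ e Vi V0 x y Smi Sm0 Nd) :
    Vi.valuation y = Vi.valuation (algebraMap K F ϖ) ^ (e : ℤ) := by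
  obtain ⟨c₀, hc₀, hxy⟩ := M.xy
  have h1 := slope_val_const (V := Vi) (k := (e : ℤ)) M.unifA M.consti
    (by rw [hc₀, zpow_natCast])
  rw [← hxy, map_mul, M.x_i, one_mul] at h1
  exact h1

theorem slope_unif_pow_lt {V : ValuationSubring F} {ϖF : F} (hV : IsUnif V ϖF) {n : ℕ}
    (hn : 0 < n) : V.valuation ϖF ^ (n : ℤ) < 1 := by
  rw [zpow_natCast]
  exact pow_lt_one₀ zero_le' (valuation_lt_one_of_isUnif hV) hn.ne'

theorem slope_x_ne_zero (M : NodalModel A ϖ e Vi V0 x y Smi Sm0 Nd) : x ≠ 0 :=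
  ne_zero_of_valuation_eq_one M.x_i

/-! ### The relation between the slope and the vertical orders -/

theorem slope_node_rel (M : NodalModel A ϖ e Vi V0 x y Smi Sm0 Nd) (hR : R ∈ Nd) {p : ℕ} {u : F}
    {b : ℤ} {κ : K} {G : F} (hκ : κ ≠ 0) (hG : Vi.valuation G = 1)
    (hr : RUnit R (u / (algebraMap K F κ * x ^ b * G ^ p))) {ν ai a0 : ℤ}
    (hν : V0.valuation G = V0.valuation (algebraMap K F ϖ) ^ ν)
    (hai : Vi.valuation u = Vi.valuation (algebraMap K F ϖ) ^ ai)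
    (ha0 : V0.valuation u = V0.valuation (algebraMap K F ϖ) ^ a0) :
    a0 - ai = e * b + p * ν := by
  have hN := M.nd R hR
  have hG0 : G ≠ 0 := ne_zero_of_valuation_eq_one hG
  have hx0 := slope_x_ne_zero M
  have hκF : algebraMap K F κ ≠ 0 := by simpa using hκ
  have hden : algebraMap K F κ * x ^ b * G ^ p ≠ 0 :=
    mul_ne_zero (mul_ne_zero hκF (zpow_ne_zero _ hx0)) (pow_ne_zero _ hG0)
  have hu : u = u / (algebraMap K F κ * x ^ b * G ^ p) * (algebraMap K F κ * x ^ b * G ^ p) := by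
    rw [div_mul_cancel₀ _ hden]
  obtain ⟨k, hk⟩ := ord_exists_val M.unifA hκ
  have h0 : V0.valuation (algebraMap K F ϖ) ≠ 0 := ord_val_unif_ne_zero M.unif0
  have e1 : Vi.valuation u = Vi.valuation (algebraMap K F ϖ) ^ k := by
    rw [hu, map_mul, hr.val_eq_one hN.thri.le, one_mul, map_mul, map_mul, map_zpow₀, map_pow,
      M.x_i, hG, one_zpow, one_pow, mul_one, mul_one, slope_val_const M.unifA M.consti hk]
  have e2 : V0.valuation u = V0.valuation (algebraMap K F ϖ) ^ (k + e * b + ν * p) := by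
    rw [hu, map_mul, hr.val_eq_one hN.thr0.le, one_mul, map_mul, map_mul, map_zpow₀, map_pow,
      slope_val_x M, hν, slope_val_const M.unifA M.const0 hk, zpow_add₀ h0, zpow_add₀ h0,
      zpow_mul, zpow_mul, zpow_natCast (_ ^ ν)]
  have f1 : ai = k := ord_zpow_inj M.unifi (hai.symm.trans e1)
  have f2 : a0 = k + e * b + ν * p := ord_zpow_inj M.unif0 (ha0.symm.trans e2)
  rw [f1, f2]
  ring

theorem slope_exists_node (M : NodalModel A ϖ e Vi V0 x y Smi Sm0 Nd) {p : ℕ} (hp : p ≠ 0)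
    {u : F} (hu : u ≠ 0) (hd : HorDiv K p u) {ai a0 : ℤ}
    (hai : Vi.valuation u = Vi.valuation (algebraMap K F ϖ) ^ ai)
    (ha0 : V0.valuation u = V0.valuation (algebraMap K F ϖ) ^ a0) (hR : R ∈ Nd) :
    ∃ (b ν : ℤ) (κ : K) (G : F), κ ≠ 0 ∧ Vi.valuation G = 1 ∧
      RUnit R (u / (algebraMap K F κ * x ^ b * G ^ p)) ∧
      V0.valuation G = V0.valuation (algebraMap K F ϖ) ^ ν ∧ a0 - ai = e * b + p * ν := by
  obtain ⟨b, κ, G, hκ, hG, hr⟩ := lf_node M hR hp hu hd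
  obtain ⟨ν, hν⟩ := ord_exists_val M.unif0 (ne_zero_of_valuation_eq_one hG)
  exact ⟨b, ν, κ, G, hκ, hG, hr, hν, slope_node_rel M hR hκ hG hr hν hai ha0⟩

/-- D6t: the tame case. -/
theorem slope_tame (M : NodalModel A ϖ e Vi V0 x y Smi Sm0 Nd) {p : ℕ} (hp : p.Prime)
    (he : ¬ p ∣ e) {u : F} (hu : u ≠ 0) (hd : HorDiv K p u) :
    ∃ b₀ : ℤ, ∀ R ∈ Nd, ∃ b : ℤ, NodeShape K Vi x R p u b ∧ (p : ℤ) ∣ b - b₀ := by
  rcases Nd.eq_empty_or_nonempty with hemp | ⟨R₀, hR₀⟩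
  · exact ⟨0, fun R hR => absurd hR (by rw [hemp]; exact Set.notMem_empty R)⟩
  obtain ⟨ai, hai⟩ := ord_exists_val M.unifi hu
  obtain ⟨a0, ha0⟩ := ord_exists_val M.unif0 hu
  obtain ⟨b₀, ν₀, -, -, -, -, -, -, h₀⟩ := slope_exists_node M hp.ne_zero hu hd hai ha0 hR₀
  refine ⟨b₀, fun R hR => ?_⟩
  obtain ⟨b, ν, κ, G, hκ, hG, hr, -, h⟩ := slope_exists_node M hp.ne_zero hu hd hai ha0 hR
  refine ⟨b, ⟨κ, G, hκ, hG, hr⟩, ?_⟩
  have hp' : Prime (p : ℤ) := Nat.prime_iff_prime_int.mp hp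
  have h1 : (p : ℤ) ∣ (e : ℤ) * (b - b₀) := ⟨ν₀ - ν, by linear_combination h₀ - h⟩
  exact (hp'.dvd_or_dvd h1).resolve_left (fun h2 => he (Int.natCast_dvd_natCast.mp h2))

/-! ### Calculus of `Dp` -/

theorem slope_dp_sub {V : ValuationSubring F} {ϖF : F} {n : ℕ} {a b : F} (ha : Dp V ϖF n a)
    (hb : Dp V ϖF n b) : Dp V ϖF n (a - b) := by
  unfold Dp at *
  rw [sub_div]
  exact V.sub_mem ha hb

theorem slope_dp_mul {V : ValuationSubring F} {ϖF : F} {n : ℕ} {w a : F} (hw : w ∈ V)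
    (ha : Dp V ϖF n a) : Dp V ϖF n (w * a) := by
  unfold Dp at *
  rw [mul_div_assoc]
  exact V.mul_mem _ _ hw ha

theorem slope_dp_lt {V : ValuationSubring F} {ϖF : F} (hV : IsUnif V ϖF) {n : ℕ} (hn : 0 < n)
    {a : F} (ha : Dp V ϖF n a) : V.valuation a < 1 := by
  have h0 : ϖF ≠ 0 := ord_unif_ne_zero hV
  have h1 : a = a / ϖF ^ n * ϖF ^ n := by
    rw [div_mul_cancel₀ _ (pow_ne_zero _ h0)]
  rw [h1, map_mul, map_pow]
  have h2 : V.valuation (a / ϖF ^ n) ≤ 1 := (V.valuation_le_one_iff _).2 ha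
  have h3 : V.valuation ϖF ^ n < 1 :=
    pow_lt_one₀ zero_le' (valuation_lt_one_of_isUnif hV) hn.ne'
  exact lt_of_le_of_lt (mul_le_of_le_one_left' h2) h3

/-! ### Disjointness of the three kinds of points -/

theorem slope_sm_lt {V V' : ValuationSubring F} (hS : IsSm A ϖ V R)
    (hV : IsUnif V (algebraMap K F ϖ)) (hV' : IsUnif V' (algebraMap K F ϖ))
    (hle : ∀ r ∈ R, r ∈ V') {s : F} (hs : s ∈ R) (h : V.valuation s < 1) :
    V'.valuation s < 1 := by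
  have h0 : algebraMap K F ϖ ≠ 0 := ord_unif_ne_zero hV
  rcases eq_or_ne s 0 with rfl | hs0
  · simp
  have h1 : s / algebraMap K F ϖ ∈ V :=
    hV.div_mem ((V.valuation_le_one_iff _).1 h.le) ((valuation_lt_one_iff_inv_not_mem hs0).1 h)
  have h2 : s / algebraMap K F ϖ ∈ R := hS.qep _ (by rw [mul_div_cancel₀ _ h0]; exact hs) h1
  have h3 : Dp V' (algebraMap K F ϖ) 1 s := by
    unfold Dp
    rw [pow_one]
    exact hle _ h2
  exact slope_dp_lt hV' one_pos h3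

theorem slope_not_smi_nd (M : NodalModel A ϖ e Vi V0 x y Smi Sm0 Nd) (h1 : R ∈ Smi)
    (h2 : R ∈ Nd) : False := by
  have hN := M.nd R h2
  have h3 : Vi.valuation y < 1 := by
    rw [slope_val_y M]
    exact slope_unif_pow_lt M.unifi M.e_pos
  have h4 := slope_sm_lt (M.smi R h1) M.unifi M.unif0 hN.thr0.le hN.y_rad.1 h3
  rw [M.y_0] at h4
  exact lt_irrefl _ h4

theorem slope_not_sm0_nd (M : NodalModel A ϖ e Vi V0 x y Smi Sm0 Nd) (h1 : R ∈ Sm0)
    (h2 : R ∈ Nd) : False := by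
  have hN := M.nd R h2
  have h3 : V0.valuation x < 1 := by
    rw [slope_val_x M]
    exact slope_unif_pow_lt M.unif0 M.e_pos
  have h4 := slope_sm_lt (M.sm0 R h1) M.unif0 M.unifi hN.thri.le hN.x_rad.1 h3
  rw [M.x_i] at h4
  exact lt_irrefl _ h4

theorem slope_not_smi_sm0 (M : NodalModel A ϖ e Vi V0 x y Smi Sm0 Nd) (h1 : R ∈ Smi)
    (h2 : R ∈ Sm0) : False := by
  have hi := M.smi R h1
  have h0 := M.sm0 R h2
  have h3 : V0.valuation x < 1 := by
    rw [slope_val_x M]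
    exact slope_unif_pow_lt M.unif0 M.e_pos
  obtain ⟨s, hs, hs1, hsx⟩ := h0.thr.loc x ((V0.valuation_le_one_iff _).1 h3.le)
  have h4 : V0.valuation (s * x) < 1 := by
    rw [map_mul, hs1, one_mul]
    exact h3
  have h5 := slope_sm_lt h0 M.unif0 M.unifi hi.thr.le hsx h4
  rw [map_mul, M.x_i, mul_one] at h5
  have h6 := slope_sm_lt hi M.unifi M.unif0 h0.thr.le hs h5
  rw [hs1] at h6
  exact lt_irrefl _ h6

/-! ### Arithmetic -/

theorem slope_dvd_of_val_lt {p : ℕ} (hp : p.Prime) (hpA : A.valuation (p : K) < 1) {n : ℤ}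
    (hn : A.valuation (n : K) < 1) : (p : ℤ) ∣ n := by
  by_contra hnd
  have hp' : Prime (p : ℤ) := Nat.prime_iff_prime_int.mp hp
  obtain ⟨a, b, hab⟩ := (hp'.coprime_iff_not_dvd).2 hnd
  have h1 : (a : K) * (p : K) + (b : K) * (n : K) = 1 := by exact_mod_cast congrArg (Int.cast : ℤ → K) hab
  have ha : A.valuation (a : K) ≤ 1 := (A.valuation_le_one_iff _).2 (intCast_mem A a)
  have hb : A.valuation (b : K) ≤ 1 := (A.valuation_le_one_iff _).2 (intCast_mem A b)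
  have h2 : A.valuation ((a : K) * (p : K) + (b : K) * (n : K)) < 1 := by
    refine lt_of_le_of_lt (A.valuation.map_add _ _) (max_lt ?_ ?_)
    · rw [map_mul]
      exact lt_of_le_of_lt (mul_le_of_le_one_left' ha) hpA
    · rw [map_mul]
      exact lt_of_le_of_lt (mul_le_of_le_one_left' hb) hn
  rw [h1, map_one] at h2
  exact lt_irrefl _ h2

theorem slope_arith {p e : ℕ} (hp : p.Prime) (he : ¬ p ^ 2 ∣ e) {b b₀ ν ν₀ D : ℤ}
    (h : D = e * b + p * ν) (h₀ : D = e * b₀ + p * ν₀) (hν : (p : ℤ) ∣ ν - ν₀) :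
    (p : ℤ) ∣ b - b₀ := by
  by_contra hnd
  have hp' : Prime (p : ℤ) := Nat.prime_iff_prime_int.mp hp
  obtain ⟨m, hm⟩ := hν
  have h1 : (p : ℤ) ^ 2 ∣ (b - b₀) * (e : ℤ) := ⟨-m, by linear_combination h₀ - h - (p : ℤ) * hm⟩
  have h2 : IsCoprime ((p : ℤ) ^ 2) (b - b₀) := ((hp'.coprime_iff_not_dvd).2 hnd).pow_left
  have h3 : (p : ℤ) ^ 2 ∣ (e : ℤ) := h2.dvd_of_dvd_mul_left h1
  exact he (by exact_mod_cast h3)

/-! ### The automorphism -/

section Aut

variable {τ : F ≃+* F} {δ : K} {c : ℕ} {Pts : Set (Subring F)}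

theorem slope_eps_val (hA : IsUnif A ϖ) (T : RamAut A ϖ Vi V0 x Pts τ δ c) :
    A.valuation (δ / ϖ ^ c) = 1 := by
  rw [map_div₀, map_pow, T.δ_val, div_self (pow_ne_zero _ (ord_val_unif_ne_zero hA))]

theorem slope_dp_delta {V : ValuationSubring F} (hA : IsUnif A ϖ)
    (hc : ∀ a ∈ A, algebraMap K F a ∈ V) (T : RamAut A ϖ Vi V0 x Pts τ δ c) :
    Dp V (algebraMap K F ϖ) c (algebraMap K F δ) := by
  unfold Dp
  rw [← map_pow, ← map_div₀]
  exact hc _ ((A.valuation_le_one_iff _).1 (slope_eps_val hA T).le)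

theorem slope_map_unif (T : RamAut A ϖ Vi V0 x Pts τ δ c) :
    τ (algebraMap K F ϖ) = algebraMap K F ϖ * (1 + algebraMap K F δ) := by
  rw [T.map_unif, map_mul, map_add, map_one]

/-- the estimate for `γ = (τ G / G) / g`. -/
theorem slope_gamma {V : ValuationSubring F} (hA : IsUnif A ϖ) (hV : IsUnif V (algebraMap K F ϖ))
    (hc : ∀ a ∈ A, algebraMap K F a ∈ V) (T : RamAut A ϖ Vi V0 x Pts τ δ c)
    (hram : ∀ z ∈ V, Dp V (algebraMap K F ϖ) (c + 1) (τ z - z)) {G g : F} {ν : ℤ}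
    (hG : V.valuation G = V.valuation (algebraMap K F ϖ) ^ ν)
    (hg : Dp V (algebraMap K F ϖ) (c + 1) (g - 1)) :
    Dp V (algebraMap K F ϖ) (c + 1) (τ G / G / g - 1 - (ν : F) * algebraMap K F δ) ∧
      V.valuation (τ G / G / g) = 1 := by
  have hdδ := slope_dp_delta (V := V) hA hc T
  have hq := ram_quot hV τ T.c_pos (slope_map_unif T) hdδ hram hG
  have hg1 : V.valuation g = 1 :=
    Cong.eq_one (b := 1) (slope_dp_lt hV (Nat.succ_pos c) hg) (map_one _)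
  have hg0 : g ≠ 0 := ne_zero_of_valuation_eq_one hg1
  have hginv : g⁻¹ ∈ V := (V.valuation_le_one_iff _).1 (by rw [map_inv₀, hg1, inv_one])
  have hδV : algebraMap K F δ ∈ V := hV.mem_of_div_pow hdδ
  have hνV : (ν : F) ∈ V := intCast_mem V ν
  have hw : 1 + (ν : F) * algebraMap K F δ ∈ V := V.add_mem _ _ V.one_mem (V.mul_mem _ _ hνV hδV)
  have key : τ G / G / g - 1 - (ν : F) * algebraMap K F δ =
      g⁻¹ * ((τ G / G - 1 - (ν : F) * algebraMap K F δ) -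
        (1 + (ν : F) * algebraMap K F δ) * (g - 1)) := by
    field_simp
    ring
  have h1 : Dp V (algebraMap K F ϖ) (c + 1) (τ G / G / g - 1 - (ν : F) * algebraMap K F δ) := by
    rw [key]
    exact slope_dp_mul hginv (slope_dp_sub hq (slope_dp_mul hw hg))
  refine ⟨h1, ?_⟩
  have h2 := slope_dp_lt hV (Nat.succ_pos c) h1
  have h3 : V.valuation ((ν : F) * algebraMap K F δ) < 1 := by
    rw [map_mul]
    exact lt_of_le_of_lt (mul_le_of_le_one_left' ((V.valuation_le_one_iff _).2 hνV))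
      (slope_dp_lt hV T.c_pos hdδ)
  have h4 : V.valuation (τ G / G / g - 1) < 1 := by
    have e1 : τ G / G / g - 1 = (τ G / G / g - 1 - (ν : F) * algebraMap K F δ) +
        (ν : F) * algebraMap K F δ := by ring
    rw [e1]
    exact lt_of_le_of_lt (V.valuation.map_add _ _) (max_lt h2 h3)
  exact Cong.eq_one (b := 1) h4 (map_one _)

/-- the unit relation at a point. -/
theorem slope_unit_rel (hRpt : IsPt A R) (hτR : ∀ r ∈ R, τ r ∈ R)
    (hconst : ∀ a : K, ∃ a' : K, τ (algebraMap K F a) = algebraMap K F a' ∧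
      A.valuation a' = A.valuation a)
    {p : ℕ} (hp : p ≠ 0) {u uy h X G g : F} {cst κ : K}
    (hrel : τ u = u * uy * algebraMap K F cst * h ^ p)
    (hX0 : X ≠ 0) (hτX : τ X = X) (hκ : κ ≠ 0) (hG0 : G ≠ 0)
    (hr : RUnit R (u / (algebraMap K F κ * X * G ^ p))) (hs : RUnit R (uy / g ^ p)) :
    RUnit R (algebraMap K F cst * (h / (τ G / G / g)) ^ p) := by
  obtain ⟨κ', hκ', hval⟩ := hconst κ
  have hvκ : A.valuation κ ≠ 0 := (Valuation.ne_zero_iff _).2 hκ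
  have hκ'0 : κ' ≠ 0 := (Valuation.ne_zero_iff A.valuation).1 (by rw [hval]; exact hvκ)
  have hκF : algebraMap K F κ ≠ 0 := by simpa using hκ
  have hκ'F : algebraMap K F κ' ≠ 0 := by simpa using hκ'0
  have hden : algebraMap K F κ * X * G ^ p ≠ 0 :=
    mul_ne_zero (mul_ne_zero hκF hX0) (pow_ne_zero _ hG0)
  obtain ⟨r, hrdef⟩ : ∃ r, r = u / (algebraMap K F κ * X * G ^ p) := ⟨_, rfl⟩
  rw [← hrdef] at hr
  have hr0 := hr.ne_zero
  have hτr : RUnit R (τ r) :=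
    ⟨by simpa using hr0, hτR _ hr.mem, by rw [← map_inv₀]; exact hτR _ hr.inv_mem⟩
  have hcu : RUnit R (algebraMap K F (κ' / κ)) :=
    hRpt.runit_const (by rw [map_div₀, hval, div_self hvκ])
  have huy0 : uy ≠ 0 := (div_ne_zero_iff.1 hs.ne_zero).1
  have hg0 : g ≠ 0 := fun h0 => (div_ne_zero_iff.1 hs.ne_zero).2 (by
    rw [h0]
    exact zero_pow hp)
  have hτG0 : τ G ≠ 0 := by simpa using hG0
  have hu_eq : u = algebraMap K F κ * X * G ^ p * r := by
    rw [hrdef, mul_div_cancel₀ _ hden]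
  have hτu : τ u = algebraMap K F κ' * X * (τ G) ^ p * τ r := by
    rw [hu_eq, map_mul, map_mul, map_mul, map_pow, hκ', hτX]
  have h1 : algebraMap K F κ' * (τ G) ^ p * τ r =
      algebraMap K F κ * G ^ p * r * uy * algebraMap K F cst * h ^ p := by
    apply mul_left_cancel₀ hX0
    have h2 := hτu.symm.trans hrel
    rw [hu_eq] at h2
    linear_combination h2
  have key : algebraMap K F cst * (h / (τ G / G / g)) ^ p =
      algebraMap K F (κ' / κ) * (τ r / r) * (uy / g ^ p)⁻¹ := by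
    rw [map_div₀]
    field_simp
    rw [div_pow, mul_pow, mul_pow]
    have hτGp : (τ G) ^ p ≠ 0 := pow_ne_zero _ hτG0
    field_simp
    linear_combination (-1 : F) * h1
  rw [key]
  exact (hcu.mul (hτr.div hr)).mul hs.inv

end Aut

/-! ### Assembly (helper70) -/

section Assembly

variable {τ : F ≃+* F} {δ : K} {c : ℕ} {Pts : Set (Subring F)}

/-- the data at a node. -/
theorem slope_pt_node (M : NodalModel A ϖ e Vi V0 x y Smi Sm0 Nd) {p : ℕ} (hp : p ≠ 0)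
    (T : RamAut A ϖ Vi V0 x Pts τ δ c) (hτR : ∀ r ∈ R, τ r ∈ R) {u uy h : F} {cst : K}
    (hu : u ≠ 0) (hd : HorDiv K p u) (hrel : τ u = u * uy * algebraMap K F cst * h ^ p)
    {ai a0 : ℤ} (hai : Vi.valuation u = Vi.valuation (algebraMap K F ϖ) ^ ai)
    (ha0 : V0.valuation u = V0.valuation (algebraMap K F ϖ) ^ a0) (hR : R ∈ Nd) {g : F}
    (hg : RUnit R (uy / g ^ p)) (hgi : Dp Vi (algebraMap K F ϖ) (c + 1) (g - 1))
    (hg0 : Dp V0 (algebraMap K F ϖ) (c + 1) (g - 1)) :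
    ∃ (γ : F) (b ν : ℤ), RUnit R (algebraMap K F cst * (h / γ) ^ p) ∧
      Dp Vi (algebraMap K F ϖ) (c + 1) (γ - 1) ∧
      Dp V0 (algebraMap K F ϖ) (c + 1) (γ - 1 - (ν : F) * algebraMap K F δ) ∧
      Vi.valuation γ = 1 ∧ NodeShape K Vi x R p u b ∧ a0 - ai = e * b + p * ν := by
  obtain ⟨b, ν, κ, G, hκ, hG, hr, hν, hrel'⟩ := slope_exists_node M hp hu hd hai ha0 hR
  have hG0 : G ≠ 0 := ne_zero_of_valuation_eq_one hG
  have hi := slope_gamma M.unifA M.unifi M.consti T T.rami (G := G) (g := g) (ν := 0)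
    (by rw [hG, zpow_zero]) hgi
  have h0 := slope_gamma M.unifA M.unif0 M.const0 T T.ram0 hν hg0
  refine ⟨τ G / G / g, b, ν, ?_, ?_, h0.1, hi.2, ⟨κ, G, hκ, hG, hr⟩, hrel'⟩
  · exact slope_unit_rel (M.nd R hR).isPt hτR T.map_const hp hrel
      (zpow_ne_zero _ (slope_x_ne_zero M)) (by rw [map_zpow₀, T.fix_x]) hκ hG0 hr hg
  · simpa using hi.1

/-- the data at a smooth point. -/
theorem slope_pt_sm {V : ValuationSubring F} (hA : IsUnif A ϖ)
    (hV : IsUnif V (algebraMap K F ϖ)) (hc : ∀ a ∈ A, algebraMap K F a ∈ V) (hS : IsSm A ϖ V R)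
    (T : RamAut A ϖ Vi V0 x Pts τ δ c)
    (hram : ∀ z ∈ V, Dp V (algebraMap K F ϖ) (c + 1) (τ z - z)) (hτR : ∀ r ∈ R, τ r ∈ R)
    {p : ℕ} (hp : p ≠ 0) {u uy h : F} {cst : K} (hu : u ≠ 0) (hd : HorDiv K p u)
    (hrel : τ u = u * uy * algebraMap K F cst * h ^ p) {g : F} (hg : RUnit R (uy / g ^ p))
    (hgV : Dp V (algebraMap K F ϖ) (c + 1) (g - 1)) :
    ∃ γ : F, RUnit R (algebraMap K F cst * (h / γ) ^ p) ∧
      Dp V (algebraMap K F ϖ) (c + 1) (γ - 1) := by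
  obtain ⟨κ, G, hκ, hG, hr⟩ := lf_sm hA hV hS hp hu hd
  have h1 := slope_gamma hA hV hc T hram (G := G) (g := g) (ν := 0) (by rw [hG, zpow_zero]) hgV
  refine ⟨τ G / G / g, ?_, by simpa using h1.1⟩
  exact slope_unit_rel hS.isPt hτR T.map_const hp hrel one_ne_zero (map_one τ) hκ
    (ne_zero_of_valuation_eq_one hG) (by rwa [mul_one]) hg

/-- normalisation of `h`. -/
theorem slope_normalise (hA : IsUnif A ϖ) (hRpt : IsPt A R) {p : ℕ} (hp : p ≠ 0) {cst : K}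
    {h γ : F} {k i : ℤ} (hk : A.valuation cst = A.valuation ϖ ^ k) (hki : k + p * i = 0)
    (hr : RUnit R (algebraMap K F cst * (h / γ) ^ p)) :
    RUnit R (h / algebraMap K F ϖ ^ i / γ) := by
  have hϖ0 : ϖ ≠ 0 := ord_unif_ne_zero hA
  have hϖF : algebraMap K F ϖ ≠ 0 := by simpa using hϖ0
  have hc1 : A.valuation (cst * ϖ ^ ((p : ℤ) * i)) = 1 := by
    rw [map_mul, map_zpow₀, hk, ← zpow_add₀ (ord_val_unif_ne_zero hA), hki, zpow_zero]
  have hcu := hRpt.runit_const hc1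
  have hcF : algebraMap K F cst ≠ 0 := (mul_ne_zero_iff.1 hr.ne_zero).1
  apply hRpt.runit_of_pow hp
  have key : (h / algebraMap K F ϖ ^ i / γ) ^ p =
      algebraMap K F cst * (h / γ) ^ p / algebraMap K F (cst * ϖ ^ ((p : ℤ) * i)) := by
    have hz : algebraMap K F ϖ ^ i ≠ 0 := zpow_ne_zero _ hϖF
    rw [map_mul, map_zpow₀, mul_comm (p : ℤ) i, zpow_mul, zpow_natCast, div_pow, div_pow, div_pow]
    have hzp : (algebraMap K F ϖ ^ i) ^ p ≠ 0 := pow_ne_zero _ hz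
    rw [mul_div_mul_left _ _ hcF, div_div, div_div, mul_comm]
  rw [key]
  exact hr.div hcu

end Assembly

/-- D6 (statement verbatim from WIP/Abs.lean). -/
theorem slope (M : NodalModel A ϖ e Vi V0 x y Smi Sm0 Nd) {p : ℕ} (hp : p.Prime)
    (hpA : A.valuation (p : K) < 1) (he : ¬ p ^ 2 ∣ e) {τ : F ≃+* F} {δ : K} {c : ℕ}
    (T : RamAut A ϖ Vi V0 x (Smi ∪ Sm0 ∪ Nd) τ δ c) {u uy h : F} {cst : K} (hu : u ≠ 0)
    (hd : HorDiv K p u) (hrel : τ u = u * uy * algebraMap K F cst * h ^ p)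
    (hSmi : ∀ R ∈ Smi, ∃ g : F, RUnit R (uy / g ^ p) ∧ Dp Vi (algebraMap K F ϖ) (c + 1) (g - 1))
    (hSm0 : ∀ R ∈ Sm0, ∃ g : F, RUnit R (uy / g ^ p) ∧ Dp V0 (algebraMap K F ϖ) (c + 1) (g - 1))
    (hNd : ∀ R ∈ Nd, ∃ g : F, RUnit R (uy / g ^ p) ∧ Dp Vi (algebraMap K F ϖ) (c + 1) (g - 1) ∧
      Dp V0 (algebraMap K F ϖ) (c + 1) (g - 1)) :
    ∃ b₀ : ℤ, ∀ R ∈ Nd, ∃ b : ℤ, NodeShape K Vi x R p u b ∧ (p : ℤ) ∣ b - b₀ := by
  rcases Nd.eq_empty_or_nonempty with hemp | ⟨R₀, hR₀⟩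
  · exact ⟨0, fun R hR => absurd hR (by rw [hemp]; exact Set.notMem_empty R)⟩
  obtain ⟨ai, hai⟩ := ord_exists_val M.unifi hu
  obtain ⟨a0, ha0⟩ := ord_exists_val M.unif0 hu
  have hp0 : p ≠ 0 := hp.ne_zero
  -- step 1 : the local data
  have key : ∀ R : Subring F, ∃ (γ : F) (b ν : ℤ),
      (R ∈ Smi ∪ Sm0 ∪ Nd → RUnit R (algebraMap K F cst * (h / γ) ^ p)) ∧
      (R ∈ Smi → Dp Vi (algebraMap K F ϖ) (c + 1) (γ - 1)) ∧
      (R ∈ Sm0 → Dp V0 (algebraMap K F ϖ) (c + 1) (γ - 1)) ∧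
      (R ∈ Nd → Dp Vi (algebraMap K F ϖ) (c + 1) (γ - 1) ∧
        Dp V0 (algebraMap K F ϖ) (c + 1) (γ - 1 - (ν : F) * algebraMap K F δ) ∧
        Vi.valuation γ = 1 ∧ NodeShape K Vi x R p u b ∧ a0 - ai = e * b + p * ν) := by
    intro R
    by_cases hN : R ∈ Nd
    · obtain ⟨g, hg, hgi, hg0⟩ := hNd R hN
      obtain ⟨γ, b, ν, h1, h2, h3, h4, h5, h6⟩ := slope_pt_node M hp0 T (T.pts R (Or.inr hN)) hu hd
        hrel hai ha0 hN hg hgi hg0
      exact ⟨γ, b, ν, fun _ => h1, fun hs => (slope_not_smi_nd M hs hN).elim,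
        fun hs => (slope_not_sm0_nd M hs hN).elim, fun _ => ⟨h2, h3, h4, h5, h6⟩⟩
    · by_cases hS : R ∈ Smi
      · obtain ⟨g, hg, hgi⟩ := hSmi R hS
        obtain ⟨γ, h1, h2⟩ := slope_pt_sm M.unifA M.unifi M.consti (M.smi R hS) T T.rami
          (T.pts R (Or.inl (Or.inl hS))) hp0 hu hd hrel hg hgi
        exact ⟨γ, 0, 0, fun _ => h1, fun _ => h2, fun hs => (slope_not_smi_sm0 M hS hs).elim,
          fun hn => (hN hn).elim⟩
      · by_cases hS0 : R ∈ Sm0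
        · obtain ⟨g, hg, hg0⟩ := hSm0 R hS0
          obtain ⟨γ, h1, h2⟩ := slope_pt_sm M.unifA M.unif0 M.const0 (M.sm0 R hS0) T T.ram0
            (T.pts R (Or.inl (Or.inr hS0))) hp0 hu hd hrel hg hg0
          exact ⟨γ, 0, 0, fun _ => h1, fun hs => (hS hs).elim, fun _ => h2,
            fun hn => (hN hn).elim⟩
        · refine ⟨1, 0, 0, fun hh => ?_, fun hs => (hS hs).elim, fun hs => (hS0 hs).elim,
            fun hn => (hN hn).elim⟩
          rcases hh with (hh | hh) | hh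
          · exact (hS hh).elim
          · exact (hS0 hh).elim
          · exact (hN hh).elim
  choose γ b ν k1 k2 k3 k4 using key
  have hPt : ∀ R ∈ Smi ∪ Sm0 ∪ Nd, IsPt A R := by
    rintro R ((hh | hh) | hh)
    · exact (M.smi R hh).isPt
    · exact (M.sm0 R hh).isPt
    · exact (M.nd R hh).isPt
  -- step 2 : normalisation of `h`
  have hr₀ := k1 R₀ (Or.inr hR₀)
  have hcF : algebraMap K F cst ≠ 0 := (mul_ne_zero_iff.1 hr₀.ne_zero).1
  have hcst : cst ≠ 0 := by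
    intro h0
    exact hcF (by rw [h0, map_zero])
  have hh0 : h ≠ 0 := by
    intro h0
    apply (mul_ne_zero_iff.1 hr₀.ne_zero).2
    rw [h0, zero_div, zero_pow hp0]
  obtain ⟨k, hk⟩ := ord_exists_val M.unifA hcst
  obtain ⟨i, hi⟩ := ord_exists_val M.unifi hh0
  have hki : k + p * i = 0 := by
    have h1 := hr₀.val_eq_one (M.nd R₀ hR₀).thri.le
    rw [map_mul, map_pow, map_div₀, (k4 R₀ hR₀).2.2.1, div_one, hi,
      slope_val_const M.unifA M.consti hk, ← zpow_natCast, ← zpow_mul,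
      ← zpow_add₀ (ord_val_unif_ne_zero M.unifi)] at h1
    have h2 := ord_zpow_inj M.unifi (h1.trans (zpow_zero _).symm)
    rw [← h2]
    ring
  have hϖF : algebraMap K F ϖ ≠ 0 := ord_unif_ne_zero M.unifi
  have hϖ0 : ϖ ≠ 0 := ord_unif_ne_zero M.unifA
  have hε := slope_eps_val M.unifA T
  -- step 3 : the one-constant lemma
  obtain ⟨c', -, hc'⟩ := one_lemma M (C := c) T.c_pos (h := h / algebraMap K F ϖ ^ i)
    (div_ne_zero hh0 (zpow_ne_zero _ hϖF)) γ (fun R => (ν R : K) * (δ / ϖ ^ c))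
    (fun R _ => A.mul_mem _ _ (intCast_mem A _) ((A.valuation_le_one_iff _).1 hε.le))
    (fun R hR => slope_normalise M.unifA (hPt R hR) hp0 hk hki (k1 R hR))
    k2 k3 (fun R hR => (k4 R hR).1)
    (fun R hR => by
      have h1 : algebraMap K F (ϖ ^ c * ((ν R : K) * (δ / ϖ ^ c))) =
          (ν R : F) * algebraMap K F δ := by
        have h2 : ϖ ^ c * ((ν R : K) * (δ / ϖ ^ c)) = (ν R : K) * δ := by
          field_simp
        rw [h2, map_mul, map_intCast]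
      rw [h1]
      exact (k4 R hR).2.1)
  refine ⟨b R₀, fun R hR => ⟨b R, (k4 R hR).2.2.2.1, ?_⟩⟩
  have h1 : A.valuation (((ν R - ν R₀ : ℤ) : K)) < 1 := by
    have h2 : A.valuation (((ν R : K) * (δ / ϖ ^ c) - c') - ((ν R₀ : K) * (δ / ϖ ^ c) - c')) < 1 :=
      lt_of_le_of_lt (A.valuation.map_sub _ _) (max_lt (hc' R hR) (hc' R₀ hR₀))
    have h3 : ((ν R : K) * (δ / ϖ ^ c) - c') - ((ν R₀ : K) * (δ / ϖ ^ c) - c') =
        ((ν R - ν R₀ : ℤ) : K) * (δ / ϖ ^ c) := by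
      push_cast
      ring
    rwa [h3, map_mul, hε, mul_one] at h2
  exact slope_arith hp he (k4 R hR).2.2.2.2 (k4 R₀ hR₀).2.2.2.2 (slope_dvd_of_val_lt hp hpA h1)

end Fermat.Agent.S44.Depth

end
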