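/-
S44 / DEPTH (architect helper219), task D5: tame depth (shadow proof by helper250).
`tameCore_sm` = `tame_sm`; `tameCore_node` = `tame_node` with the conclusion of `lf_node` as a
hypothesis.  `Tame.lean` is the wrapper.
-/
import Fermat.Agent.S44.Depth.Abs.LfSm
import Fermat.Agent.S44.Depth.Abs.Rad
import Fermat.Agent.S44.Depth.Abs.Branch
import Fermat.Agent.S36.BP.Normal
import Fermat.Agent.S36.BP.Rad

set_option autoImplicit false

noncomputable section

namespace Fermat.Agent.S44.Depth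

open Fermat.Agent.S18 Fermat.Agent.S36.BP Polynomial

variable {K F : Type*} [Field K] [Field F] [Algebra K F]
variable {A : ValuationSubring K} {ϖ : K} {e : ℕ} {Vi V0 : ValuationSubring F} {x y : F}
  {Smi Sm0 Nd : Set (Subring F)} {R : Subring F}

/-- a constant which is a unit of a vertical valuation is a unit of `A`. -/
theorem tameCore_const_unit {V : ValuationSubring F} (hA : IsUnif A ϖ)
    (hV : IsUnif V (algebraMap K F ϖ)) (hc : ∀ a ∈ A, algebraMap K F a ∈ V) {κ : K}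
    (h : V.valuation (algebraMap K F κ) = 1) : A.valuation κ = 1 := by
  rcases lt_trichotomy (A.valuation κ) 1 with h1 | h1 | h1
  · have := NodalModel.val_const_lt_one_of hA hV hc h1
    rw [h] at this
    exact absurd this (lt_irrefl _)
  · exact h1
  · have h2 : A.valuation κ⁻¹ < 1 := by
      rw [map_inv₀]
      exact inv_lt_one_of_one_lt₀ h1
    have := NodalModel.val_const_lt_one_of hA hV hc h2
    rw [map_inv₀, map_inv₀, h, inv_one] at this
    exact absurd this (lt_irrefl _)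

/-- extraction of the root on one branch. -/
theorem tameCore_root {V : ValuationSubring F} (hR : IsPt A R) (hT : Through R V) {p : ℕ}
    (hp : p ≠ 0) {g r : F} (hg : V.valuation g = 1) (hr : RUnit R r)
    (h : V.valuation (g ^ p * r - 1) < 1) :
    ∃ ρ : F, RUnit R ρ ∧ Cg V g⁻¹ ρ ∧ Cr R (ρ ^ p) r := by
  have hg0 : g ≠ 0 := ne_zero_of_val_eq_one hg
  have hgi : V.valuation g⁻¹ = 1 := val_inv_eq_one hg
  have h1 : Cg V (g⁻¹ ^ p) r := by
    have hgg : g⁻¹ ^ p * g ^ p = 1 := by rw [← mul_pow, inv_mul_cancel₀ hg0, one_pow]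
    have e1 : g⁻¹ ^ p - r = -(g⁻¹ ^ p * (g ^ p * r - 1)) := by
      linear_combination r * hgg
    unfold Cg
    rw [e1, Valuation.map_neg, map_mul, map_pow, hgi, one_pow, one_mul]
    exact h
  obtain ⟨ρ, hρ, hρ1⟩ := hT.normal hR hp hr.mem h1
  have h2 : Cg V (ρ ^ p) r := (Cg.pow (Cg.symm hρ1) hgi.le p).trans h1
  have h3 : Cr R (ρ ^ p) r := h2.cr hT.le (R.pow_mem hρ p) hr.mem
  exact ⟨ρ, RUnit.of_pow hp hρ (hR.runit_of_cr h3 hr), hρ1, h3⟩

/-- `g ρ ≡ 1` if `ρ ≡ g⁻¹`. -/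
theorem tameCore_mul_sub_one {V : ValuationSubring F} {g ρ : F} (hg : V.valuation g = 1)
    (h : Cg V g⁻¹ ρ) : V.valuation (g * ρ - 1) < 1 := by
  have hg0 : g ≠ 0 := ne_zero_of_val_eq_one hg
  have e1 : g * ρ - 1 = -(g * (g⁻¹ - ρ)) := by
    field_simp
    ring
  rw [e1, Valuation.map_neg, map_mul, hg, one_mul]
  exact h

/-- D5a. -/
theorem tameCore_sm {V : ValuationSubring F} (hA : IsUnif A ϖ) (hV : IsUnif V (algebraMap K F ϖ))
    (hS : IsSm A ϖ V R) {p : ℕ} (hp : p.Prime) (_hpA : A.valuation (p : K) < 1) {u : F}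
    (hu : V.valuation (u - 1) < 1) (hd : HorDiv K p u) :
    ∃ g : F, RUnit R (u / g ^ p) ∧ V.valuation (g - 1) < 1 := by
  have hu1 : V.valuation u = 1 := Cg.val_eq_one (b := 1) hu (map_one _)
  have hu0 : u ≠ 0 := ne_zero_of_val_eq_one hu1
  obtain ⟨κ, G, hκ, hG, hr⟩ := lf_sm hA hV hS hp.ne_zero hu0 hd
  have hG0 : G ≠ 0 := ne_zero_of_val_eq_one hG
  have hκF : algebraMap K F κ ≠ 0 := by simpa using hκ
  have hc : ∀ a ∈ A, algebraMap K F a ∈ V := fun a ha => hS.thr.le _ (hS.isPt.const_mem a ha)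
  have hκ1 : V.valuation (algebraMap K F κ) = 1 := by
    have h1 := hr.val_eq_one hS.thr.le
    rw [map_div₀, map_mul, map_pow, hG, one_pow, mul_one, hu1, one_div, inv_eq_one] at h1
    exact h1
  have hκu := hS.isPt.runit_const (tameCore_const_unit hA hV hc hκ1)
  have hr' : RUnit R (u / G ^ p) := by
    have e1 : u / G ^ p = algebraMap K F κ * (u / (algebraMap K F κ * G ^ p)) := by
      field_simp
    rw [e1]
    exact hκu.mul hr
  have h2 : V.valuation (G ^ p * (u / G ^ p) - 1) < 1 := by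
    rw [mul_div_cancel₀ _ (pow_ne_zero _ hG0)]
    exact hu
  obtain ⟨ρ, hρ, hρ1, -⟩ := tameCore_root hS.isPt hS.thr hp.ne_zero hG hr' h2
  refine ⟨G * ρ, ?_, tameCore_mul_sub_one hG hρ1⟩
  have e2 : u / (G * ρ) ^ p = u / G ^ p / ρ ^ p := by
    rw [mul_pow, div_div]
  rw [e2]
  exact hr'.div (hρ.pow p)

/-- a power of `x` with nonzero exponent is not congruent to a unit of `R` on `C_∞`. -/
theorem tameCore_exp_zero (hN : IsNode A ϖ Vi V0 x y R) {n : ℤ}
    {ε : F} (hε : RUnit R ε) (h : Cg Vi (x ^ n) ε) : n = 0 := by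
  have key : ∀ (m : ℕ) (η : F), m ≠ 0 → RUnit R η → ¬ Cg Vi (x ^ m) η := by
    intro m η hm hη hc
    have hxm : x ^ m ∈ rad R := by
      obtain ⟨k, rfl⟩ := Nat.exists_eq_succ_of_ne_zero hm
      rw [pow_succ]
      exact mul_mem_rad (R.pow_mem hN.x_rad.1 k) hN.x_rad
    have h1 : Cr R (x ^ m) η := hc.cr hN.thri.le hxm.1 hη.mem
    exact hxm.2 (hN.isPt.runit_of_cr h1 hη)
  by_contra hn
  rcases lt_or_gt_of_ne hn with hneg | hpos
  · obtain ⟨m, hm⟩ := Int.eq_ofNat_of_zero_le (neg_nonneg.2 hneg.le)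
    have hm0 : m ≠ 0 := by
      rintro rfl
      simp at hm
      exact hn hm
    have h2 : Cg Vi (x ^ m) ε⁻¹ := by
      have := Cg.inv h (hε.val_eq_one hN.thri.le)
      rwa [← zpow_neg, hm, zpow_natCast] at this
    exact key m _ hm0 hε.inv h2
  · obtain ⟨m, hm⟩ := Int.eq_ofNat_of_zero_le hpos.le
    have hm0 : m ≠ 0 := by
      rintro rfl
      simp at hm
      exact hn hm
    rw [hm, zpow_natCast] at h
    exact key m _ hm0 hε h

/-- `p`-th powers are injective modulo the nonunits of `R`. -/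
theorem tameCore_cr_of_pow (hR : IsPt A R) {p : ℕ} (hp : p.Prime) (hpA : A.valuation (p : K) < 1)
    {a b : F} (ha : a ∈ R) (hb : b ∈ R) (h : Cr R (a ^ p) (b ^ p)) : Cr R a b := by
  obtain ⟨s, hs⟩ := exists_add_pow_prime_eq hp (⟨a - b, R.sub_mem ha hb⟩ : R) ⟨b, hb⟩
  have hs' : (a - b + b) ^ p = (a - b) ^ p + b ^ p + (p : F) * (a - b) * b * (s : F) := by
    have := congrArg (Subtype.val) hs
    simpa using this
  rw [sub_add_cancel] at hs'
  have hpr : (p : F) ∈ rad R := by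
    have := hR.const_rad (p : K) hpA
    rwa [map_natCast] at this
  have h1 : (a - b) ^ p = (a ^ p - b ^ p) + -((a - b) * b * (s : F) * (p : F)) := by
    rw [hs']
    ring
  have h2 : (a - b) ^ p ∈ rad R := by
    rw [h1]
    exact hR.add_rad _ h _ (neg_mem_rad (mul_mem_rad
      (R.mul_mem (R.mul_mem (R.sub_mem ha hb) hb) s.2) hpr))
  rcases runit_or_mem_rad (R.sub_mem ha hb) with hu | hr
  · exact absurd (hu.pow p) h2.2
  · exact hr

/-- D5b, with the local factorisation as a hypothesis. -/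
theorem tameCore_node (M : NodalModel A ϖ e Vi V0 x y Smi Sm0 Nd) (hR : R ∈ Nd) {p : ℕ}
    (hp : p.Prime) (hpA : A.valuation (p : K) < 1) {u : F} (hui : Vi.valuation (u - 1) < 1)
    (hu0 : V0.valuation (u - 1) < 1) (hlf : ∃ b : ℤ, NodeShape K Vi x R p u b) :
    ∃ g : F, RUnit R (u / g ^ p) ∧ Vi.valuation (g - 1) < 1 ∧ V0.valuation (g - 1) < 1 := by
  have hN := M.nd R hR
  have hP := hN.isPt
  have hx := M.x_i
  have hx0 : x ≠ 0 := ne_zero_of_val_eq_one hx
  have hu1 : Vi.valuation u = 1 := Cg.val_eq_one (b := 1) hui (map_one _)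
  have hu2 : V0.valuation u = 1 := Cg.val_eq_one (b := 1) hu0 (map_one _)
  have hune : u ≠ 0 := ne_zero_of_val_eq_one hu1
  obtain ⟨b, κ, G, hκ, hG, hr⟩ := hlf
  have hG0 : G ≠ 0 := ne_zero_of_val_eq_one hG
  have hκF : algebraMap K F κ ≠ 0 := by simpa using hκ
  have hκ1 : Vi.valuation (algebraMap K F κ) = 1 := by
    have h1 := hr.val_eq_one hN.thri.le
    rw [map_div₀, map_mul, map_mul, map_pow, hG, one_pow, mul_one, map_zpow₀, hx, one_zpow,
      mul_one, hu1, one_div, inv_eq_one] at h1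
    exact h1
  have hκu := hP.runit_const (tameCore_const_unit M.unifA M.unifi M.consti hκ1)
  have hxb : x ^ b ≠ 0 := zpow_ne_zero _ hx0
  have hr' : RUnit R (u / (x ^ b * G ^ p)) := by
    have e1 : u / (x ^ b * G ^ p) = algebraMap K F κ * (u / (algebraMap K F κ * x ^ b * G ^ p)) := by
      field_simp
    rw [e1]
    exact hκu.mul hr
  set r := u / (x ^ b * G ^ p) with hrdef
  have hur : u = x ^ b * G ^ p * r := by
    rw [hrdef, mul_div_cancel₀ _ (mul_ne_zero hxb (pow_ne_zero _ hG0))]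
  -- the order of `G` on the branch
  obtain ⟨k, ρ', hρ', hk⟩ := branch_ord M hR hG
  have hxk : Vi.valuation (x ^ k) = 1 := val_zpow_eq_one hx k
  have hρv : Vi.valuation ρ' = 1 := hρ'.val_eq_one hN.thri.le
  have hrv : Vi.valuation r = 1 := hr'.val_eq_one hN.thri.le
  have hGk : Cg Vi G (x ^ k * ρ') := by
    have h1 : Cg Vi (x ^ k * (G / x ^ k)) (x ^ k * ρ') := Cg.mul_left hk hxk.le
    rwa [mul_div_cancel₀ _ (zpow_ne_zero _ hx0)] at h1
  have hbk : b + p * k = 0 := by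
    have h1 : Cg Vi (G ^ p) ((x ^ k * ρ') ^ p) :=
      Cg.pow hGk (by rw [map_mul, hxk, hρv, one_mul]) p
    have h2 : Cg Vi (x ^ b * G ^ p * r) (x ^ b * (x ^ k * ρ') ^ p * r) :=
      Cg.mul_right (Cg.mul_left h1 (val_zpow_eq_one hx b).le) hrv.le
    rw [← hur] at h2
    have h3 : Cg Vi (x ^ b * (x ^ k * ρ') ^ p * r) 1 := (Cg.symm h2).trans hui
    have e1 : x ^ b * (x ^ k * ρ') ^ p * r = x ^ (b + p * k) * (ρ' ^ p * r) := by
      rw [zpow_add₀ hx0, mul_pow, mul_comm (p : ℤ) k, zpow_mul, zpow_natCast]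
      ring
    rw [e1] at h3
    have hε : RUnit R (ρ' ^ p * r) := (hρ'.pow p).mul hr'
    have h4 := Cg.eq_inv_of_mul h3 (hε.val_eq_one hN.thri.le)
    exact tameCore_exp_zero hN hε.inv h4
  -- the normalised root
  set g₀ := x ^ (-k) * G with hg₀
  have hg₀p : g₀ ^ p = x ^ b * G ^ p := by
    have hb : b = -k * p := by linarith
    rw [hg₀, mul_pow, hb, zpow_mul, zpow_natCast]
  have hg₀i : Vi.valuation g₀ = 1 := by
    rw [hg₀, map_mul, hG, mul_one]
    exact val_zpow_eq_one hx _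
  have hrv0 : V0.valuation r = 1 := hr'.val_eq_one hN.thr0.le
  have hg₀0 : V0.valuation g₀ = 1 := by
    apply val_eq_one_of_pow hp.ne_zero
    have h1 := hu2
    rw [hur, ← hg₀p, map_mul, hrv0, mul_one] at h1
    exact h1
  have hur' : u = g₀ ^ p * r := by rw [hg₀p]; exact hur
  obtain ⟨r₁, hr₁, hr₁c, hr₁p⟩ := tameCore_root hP hN.thri hp.ne_zero hg₀i hr' (by rwa [← hur'])
  obtain ⟨r₂, hr₂, hr₂c, hr₂p⟩ := tameCore_root hP hN.thr0 hp.ne_zero hg₀0 hr' (by rwa [← hur'])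
  have h12 : Cr R r₁ r₂ :=
    tameCore_cr_of_pow hP hp hpA hr₁.mem hr₂.mem (hP.cr_trans hr₁p hr₂p.symm)
  obtain ⟨a, ha, b', hb', c, hc, habc⟩ := rad_eq M hR h12
  set r₃ := r₁ - b' * y with hr₃
  have hby : b' * y ∈ rad R := mul_mem_rad hb' hN.y_rad
  have hr₃u : RUnit R r₃ := by
    refine hP.runit_of_cr (b := r₁) ?_ hr₁
    unfold Cr
    have : r₃ - r₁ = -(b' * y) := by rw [hr₃]; ring
    rw [this]
    exact neg_mem_rad hby
  have h3i : Cg Vi r₁ r₃ := by
    unfold Cg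
    have : r₁ - r₃ = b' * y := by rw [hr₃]; ring
    rw [this, map_mul, mul_comm]
    exact mul_lt_one_of_lt_of_le M.val_y_i_lt_one (mem_iff_val_le.1 (hN.thri.le _ hb'))
  have h30 : Cg V0 r₂ r₃ := by
    unfold Cg
    have : r₂ - r₃ = -(a * x + c * algebraMap K F ϖ) := by
      rw [hr₃]
      linear_combination -habc
    rw [this, Valuation.map_neg]
    refine lt_of_le_of_lt (Valuation.map_add _ _ _) (max_lt ?_ ?_)
    · rw [map_mul, mul_comm]
      exact mul_lt_one_of_lt_of_le M.val_x_0_lt_one (mem_iff_val_le.1 (hN.thr0.le _ ha))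
    · rw [map_mul, mul_comm]
      exact mul_lt_one_of_lt_of_le M.val_unif_0_lt_one (mem_iff_val_le.1 (hN.thr0.le _ hc))
  refine ⟨g₀ * r₃, ?_, tameCore_mul_sub_one hg₀i (hr₁c.trans h3i),
    tameCore_mul_sub_one hg₀0 (hr₂c.trans h30)⟩
  have hg₀ne : g₀ ≠ 0 := ne_zero_of_val_eq_one hg₀i
  have e2 : u / (g₀ * r₃) ^ p = r / r₃ ^ p := by
    rw [hur', mul_pow g₀ r₃, mul_div_mul_left _ _ (pow_ne_zero _ hg₀ne)]
  rw [e2]
  exact hr'.div (hr₃u.pow p)

end Fermat.Agent.S44.Depth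

end
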