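/-
S44 / DEPTH (architect helper219), task D5: tame depth (wrapper of `TameCore.lean`).
-/
import Fermat.Agent.S44.Depth.Abs.TameCore
import Fermat.Agent.S44.Depth.Abs.LfNode

set_option autoImplicit false

noncomputable section

namespace Fermat.Agent.S44.Depth

open Fermat.Agent.S18 Fermat.Agent.S36.BP Polynomial

variable {K F : Type*} [Field K] [Field F] [Algebra K F]
variable {A : ValuationSubring K} {ϖ : K} {e : ℕ} {Vi V0 : ValuationSubring F} {x y : F}
  {Smi Sm0 Nd : Set (Subring F)} {R : Subring F}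

/-- D5a. -/
theorem tame_sm {V : ValuationSubring F} (hA : IsUnif A ϖ) (hV : IsUnif V (algebraMap K F ϖ))
    (hS : IsSm A ϖ V R) {p : ℕ} (hp : p.Prime) (hpA : A.valuation (p : K) < 1) {u : F}
    (hu : V.valuation (u - 1) < 1) (hd : HorDiv K p u) :
    ∃ g : F, RUnit R (u / g ^ p) ∧ V.valuation (g - 1) < 1 :=
  tameCore_sm hA hV hS hp hpA hu hd

/-- D5b. -/
theorem tame_node (M : NodalModel A ϖ e Vi V0 x y Smi Sm0 Nd) (hR : R ∈ Nd) {p : ℕ}
    (hp : p.Prime) (hpA : A.valuation (p : K) < 1) {u : F} (hui : Vi.valuation (u - 1) < 1)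
    (hu0 : V0.valuation (u - 1) < 1) (hd : HorDiv K p u) :
    ∃ g : F, RUnit R (u / g ^ p) ∧ Vi.valuation (g - 1) < 1 ∧ V0.valuation (g - 1) < 1 :=
  tameCore_node M hR hp hpA hui hu0
    (lf_node M hR hp.ne_zero (ne_zero_of_val_eq_one (Cg.val_eq_one (b := 1) hui (map_one _))) hd)

end Fermat.Agent.S44.Depth

end
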