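/-
S44 / DEPTH, node D7: normalisation of the toric class.  A class on which `σ` acts by `m ≢ 1`
modulo `p` has a representative which is `≡ 1` on both components.
-/
import Fermat.Agent.S44.Depth.Defs
import Fermat.Agent.S36.BP.Cong
import Fermat.Agent.S36.BP.Approx
import Fermat.Agent.S36.BP.OrdersAux

set_option autoImplicit false

noncomputable section

namespace Fermat.Agent.S44.Depth

open Fermat.Agent.S18 Fermat.Agent.S36.BP Polynomial

variable {K F : Type*} [Field K] [Field F] [Algebra K F]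
variable {A : ValuationSubring K} {ϖ : K} {e : ℕ} {Vi V0 : ValuationSubring F} {x y : F}
  {Smi Sm0 Nd : Set (Subring F)} {R : Subring F}

/-! ### one vertical valuation -/

section one

variable {V : ValuationSubring F}

theorem Toric.val_const (hA : IsUnif A ϖ) (hc : ∀ a ∈ A, algebraMap K F a ∈ V) {c : K} {j : ℤ}
    (h : A.valuation c = A.valuation ϖ ^ j) :
    V.valuation (algebraMap K F c) = V.valuation (algebraMap K F ϖ) ^ j := by
  have hϖ0 : ϖ ≠ 0 := ord_unif_ne_zero hA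
  have hw : A.valuation (c / ϖ ^ j) = 1 := by
    rw [map_div₀, map_zpow₀, h, div_self (zpow_ne_zero _ (ord_val_unif_ne_zero hA))]
  have h1 := ord_val_const_unit hc hw
  have h2 : c = c / ϖ ^ j * ϖ ^ j := (div_mul_cancel₀ _ (zpow_ne_zero _ hϖ0)).symm
  rw [h2, map_mul, map_mul, h1, one_mul, map_zpow₀, map_zpow₀]

theorem Toric.val_const_lt (hA : IsUnif A ϖ) (hV : IsUnif V (algebraMap K F ϖ))
    (hc : ∀ a ∈ A, algebraMap K F a ∈ V) {c : K} (h : A.valuation c < 1) :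
    V.valuation (algebraMap K F c) < 1 := by
  have hϖ0 : ϖ ≠ 0 := ord_unif_ne_zero hA
  have h1 : A.valuation c ≤ A.valuation ϖ := approx_val_le_unif hA h
  have h2 : c / ϖ ∈ A := by
    rw [← A.valuation_le_one_iff, map_div₀]
    exact (div_le_one₀ (zero_lt_iff.mpr (ord_val_unif_ne_zero hA))).mpr h1
  have h3 : V.valuation (algebraMap K F (c / ϖ)) ≤ 1 := (V.valuation_le_one_iff _).mpr (hc _ h2)
  have h4 : c = c / ϖ * ϖ := (div_mul_cancel₀ _ hϖ0).symm
  rw [h4, map_mul, map_mul]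
  exact lt_of_le_of_lt (mul_le_of_le_one_left' h3) (approx_val_unif_lt_one hV)

theorem Toric.val_sigma (hA : IsUnif A ϖ) (hV : IsUnif V (algebraMap K F ϖ))
    (hc : ∀ a ∈ A, algebraMap K F a ∈ V) (σ : F ≃+* F)
    (hσc : ∀ a : K, ∃ a' : K, σ (algebraMap K F a) = algebraMap K F a' ∧
      A.valuation a' = A.valuation a)
    (hσ : ∀ z ∈ V, V.valuation (σ z - z) < 1) (z : F) :
    V.valuation (σ z) = V.valuation z := by
  rcases eq_or_ne z 0 with rfl | hz
  · rw [map_zero]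
  obtain ⟨n, hn⟩ := ord_exists_val hV hz
  have hπ0 : algebraMap K F ϖ ≠ 0 := ord_unif_ne_zero hV
  have hw : V.valuation (z / algebraMap K F ϖ ^ n) = 1 := by
    rw [map_div₀, map_zpow₀, hn, div_self (zpow_ne_zero _ (ord_val_unif_ne_zero hV))]
  have h1 : V.valuation (σ (z / algebraMap K F ϖ ^ n)) = 1 :=
    Cong.eq_one (hσ _ ((V.valuation_le_one_iff _).mp hw.le)) hw
  obtain ⟨a', ha', hv'⟩ := hσc ϖ
  have h2 : V.valuation (σ (algebraMap K F ϖ)) = V.valuation (algebraMap K F ϖ) := by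
    rw [ha', Toric.val_const hA hc (j := 1) (by rw [hv', zpow_one]), zpow_one]
  have h3 : z = z / algebraMap K F ϖ ^ n * algebraMap K F ϖ ^ n :=
    (div_mul_cancel₀ _ (zpow_ne_zero _ hπ0)).symm
  conv_lhs => rw [h3, map_mul, map_mul, h1, one_mul, map_zpow₀, map_zpow₀, h2]
  exact hn.symm

/-- the relation between the orders. -/
theorem Toric.ord_rel (hA : IsUnif A ϖ) (hV : IsUnif V (algebraMap K F ϖ))
    (hc : ∀ a ∈ A, algebraMap K F a ∈ V) (σ : F ≃+* F)
    (hσc : ∀ a : K, ∃ a' : K, σ (algebraMap K F a) = algebraMap K F a' ∧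
      A.valuation a' = A.valuation a)
    (hσ : ∀ z ∈ V, V.valuation (σ z - z) < 1) {u h : F} {cst : K} {m p : ℕ} {a j r : ℤ}
    (hrel : σ u = u ^ m * algebraMap K F cst * h ^ p)
    (ha : V.valuation u = V.valuation (algebraMap K F ϖ) ^ a)
    (hj : A.valuation cst = A.valuation ϖ ^ j)
    (hr : V.valuation h = V.valuation (algebraMap K F ϖ) ^ r) :
    a = m * a + j + p * r := by
  have h1 := Toric.val_sigma hA hV hc σ hσc hσ u
  rw [hrel, map_mul, map_mul, map_pow, map_pow, ha, hr, Toric.val_const hA hc hj,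
    ← zpow_natCast, ← zpow_natCast, ← zpow_mul, ← zpow_mul,
    ← zpow_add₀ (ord_val_unif_ne_zero hV), ← zpow_add₀ (ord_val_unif_ne_zero hV)] at h1
  have h2 := ord_zpow_inj hV h1
  calc a = a * m + j + r * p := h2.symm
    _ = m * a + j + p * r := by ring

/-- the congruence at one valuation, in the normalised situation. -/
theorem Toric.cong_one (hA : IsUnif A ϖ) (hV : IsUnif V (algebraMap K F ϖ))
    (hc : ∀ a ∈ A, algebraMap K F a ∈ V) (σ : F ≃+* F)
    (hσ : ∀ z ∈ V, V.valuation (σ z - z) < 1) {u h : F} {cst b : K} {m p : ℕ} {s t : ℤ}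
    (hp : p ≠ 0)
    (hrel : σ u = u ^ m * algebraMap K F cst * h ^ p) (hu : V.valuation u = 1)
    (hh : V.valuation h = 1) (hcst : A.valuation cst = 1) (hb : A.valuation (cst - b ^ p) < 1)
    (hst : s * ((m : ℤ) - 1) + t * p = 1) :
    V.valuation ((algebraMap K F b * h) ^ (-s) * u ^ t) = 1 ∧
      Cong V u (((algebraMap K F b * h) ^ (-s) * u ^ t) ^ p) := by
  have hu0 : u ≠ 0 := ne_zero_of_valuation_eq_one hu
  have hbA : A.valuation b = 1 := by
    have h1 : A.valuation (b ^ p) = 1 := Cong.eq_one (Cong.symm hb) hcst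
    exact valuation_eq_one_of_pow hp h1
  have hbV : V.valuation (algebraMap K F b) = 1 := ord_val_const_unit hc hbA
  set B : F := algebraMap K F b * h with hB
  have hBV : V.valuation B = 1 := valuation_mul_eq_one hbV hh
  have hB0 : B ≠ 0 := ne_zero_of_valuation_eq_one hBV
  have hBp : V.valuation (B ^ p) = 1 := valuation_pow_eq_one hBV p
  have c1 : Cong V (u ^ m * algebraMap K F cst * h ^ p) u := by
    rw [← hrel]
    exact hσ u ((V.valuation_le_one_iff _).mp hu.le)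
  have c2 : Cong V (algebraMap K F cst) (algebraMap K F b ^ p) := by
    rw [cong_iff, ← map_pow, ← map_sub]
    exact Toric.val_const_lt hA hV hc hb
  have c3 : Cong V (u ^ m * algebraMap K F cst * h ^ p) (u ^ m * B ^ p) := by
    have e1 : u ^ m * B ^ p = u ^ m * algebraMap K F b ^ p * h ^ p := by
      rw [hB, mul_pow, mul_assoc]
    rw [e1]
    exact (c2.mul_left (valuation_pow_eq_one hu m).le).mul_right (valuation_pow_eq_one hh p).le
  set X : F := u ^ ((m : ℤ) - 1) with hX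
  have e2 : u ^ m * B ^ p = u * (X * B ^ p) := by
    rw [hX, ← mul_assoc, ← zpow_one_add₀ hu0, ← zpow_natCast u m]
    congr 2
    ring
  have c4 : Cong V (X * B ^ p) 1 := by
    have : Cong V (u * (X * B ^ p)) (u * 1) := by
      rw [← e2, mul_one]
      exact c3.symm.trans c1
    exact this.of_mul_left hu
  have c5 : Cong V X (B ^ p)⁻¹ := by
    have := c4.mul_right (c := (B ^ p)⁻¹) (valuation_inv_eq_one hBp).le
    rwa [mul_assoc, mul_inv_cancel₀ (pow_ne_zero p hB0), mul_one, one_mul] at this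
  have c6 : Cong V (X ^ s) ((B ^ p)⁻¹ ^ s) := c5.zpow (valuation_inv_eq_one hBp) s
  have e3 : u = X ^ s * (u ^ t) ^ p := by
    rw [hX, ← zpow_mul, ← zpow_natCast (u ^ t) p, ← zpow_mul, ← zpow_add₀ hu0]
    have : ((m : ℤ) - 1) * s + t * p = 1 := by linarith
    rw [this, zpow_one]
  have e4 : (B ^ (-s) * u ^ t) ^ p = (B ^ p)⁻¹ ^ s * (u ^ t) ^ p := by
    rw [mul_pow]
    congr 1
    rw [← zpow_natCast (B ^ (-s)) p, ← zpow_mul, ← zpow_natCast B p, ← zpow_neg, ← zpow_mul]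
    congr 1
    ring
  refine ⟨valuation_mul_eq_one (valuation_zpow_eq_one hBV _) (valuation_zpow_eq_one hu _), ?_⟩
  rw [e4]
  have c7 := c6.mul_right (c := (u ^ t) ^ p)
    (valuation_pow_eq_one (valuation_zpow_eq_one hu t) p).le
  rwa [← e3] at c7

end one

/-! ### the two vertical valuations -/

theorem Toric.ne (M : NodalModel A ϖ e Vi V0 x y Smi Sm0 Nd) : Vi ≠ V0 := by
  intro h
  obtain ⟨c₀, hc₀, hxy⟩ := M.xy
  have h1 : V0.valuation (algebraMap K F c₀) = V0.valuation (algebraMap K F ϖ) ^ (e : ℤ) :=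
    Toric.val_const M.unifA M.const0 (by rw [hc₀, zpow_natCast])
  rw [← hxy, map_mul, M.y_0, mul_one, zpow_natCast] at h1
  have h2 : V0.valuation x < 1 := by
    rw [h1]
    exact pow_lt_one' (approx_val_unif_lt_one M.unif0) M.e_pos.ne'
  have h3 := M.x_i
  rw [h] at h3
  exact absurd h3 h2.ne

/-- the case of a unit on both components. -/
theorem Toric.unit_case (M : NodalModel A ϖ e Vi V0 x y Smi Sm0 Nd) {p : ℕ} (hp : p.Prime)
    (hroot : ∀ a ∈ A, ∃ b ∈ A, A.valuation (a - b ^ p) < 1) (σ : F ≃+* F)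
    (hσc : ∀ a : K, ∃ a' : K, σ (algebraMap K F a) = algebraMap K F a' ∧
      A.valuation a' = A.valuation a)
    (hσi : ∀ z ∈ Vi, Vi.valuation (σ z - z) < 1) (hσ0 : ∀ z ∈ V0, V0.valuation (σ z - z) < 1)
    {u h : F} {cst : K} {m : ℕ} (hui : Vi.valuation u = 1) (hu0 : V0.valuation u = 1)
    (hm : ¬ (p : ℤ) ∣ (m : ℤ) - 1)
    (hrel : σ u = u ^ m * algebraMap K F cst * h ^ p) :
    ∃ w : F, Vi.valuation w = 1 ∧ V0.valuation w = 1 ∧ Cong Vi u (w ^ p) ∧ Cong V0 u (w ^ p) := by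
  have hune : u ≠ 0 := ne_zero_of_valuation_eq_one hui
  have hσu : σ u ≠ 0 := by rwa [Ne, map_eq_zero_iff σ σ.injective]
  have hcst0 : cst ≠ 0 := by
    rintro rfl
    rw [map_zero, mul_zero, zero_mul] at hrel
    exact hσu hrel
  have hh0 : h ≠ 0 := by
    rintro rfl
    rw [zero_pow hp.ne_zero, mul_zero] at hrel
    exact hσu hrel
  have hϖ0 : ϖ ≠ 0 := ord_unif_ne_zero M.unifA
  have hπ0 : algebraMap K F ϖ ≠ 0 := ord_unif_ne_zero M.unifi
  obtain ⟨j, hj⟩ := ord_exists_val M.unifA hcst0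
  obtain ⟨ri, hri⟩ := ord_exists_val M.unifi hh0
  obtain ⟨r0, hr0⟩ := ord_exists_val M.unif0 hh0
  have ei := Toric.ord_rel M.unifA M.unifi M.consti σ hσc hσi (a := 0) hrel
    (by rw [hui, zpow_zero]) hj hri
  have e0 := Toric.ord_rel M.unifA M.unif0 M.const0 σ hσc hσ0 (a := 0) hrel
    (by rw [hu0, zpow_zero]) hj hr0
  have hpZ : (p : ℤ) ≠ 0 := by exact_mod_cast hp.ne_zero
  have hr : r0 = ri := by
    have : (p : ℤ) * r0 = p * ri := by linarith
    exact mul_left_cancel₀ hpZ this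
  subst hr
  -- rescale
  set h₂ : F := h / algebraMap K F ϖ ^ r0 with hh₂
  set cst₂ : K := cst * ϖ ^ ((p : ℤ) * r0) with hcst₂
  have hrel₂ : σ u = u ^ m * algebraMap K F cst₂ * h₂ ^ p := by
    have e1 : algebraMap K F (ϖ ^ ((p : ℤ) * r0)) = (algebraMap K F ϖ ^ r0) ^ p := by
      rw [map_zpow₀, mul_comm, zpow_mul, zpow_natCast]
    have hne : algebraMap K F ϖ ^ r0 ≠ 0 := zpow_ne_zero _ hπ0
    rw [hrel, hh₂, hcst₂, map_mul, e1, div_pow]
    field_simp
  have hcstA : A.valuation cst₂ = 1 := by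
    rw [hcst₂, map_mul, map_zpow₀, hj, ← zpow_add₀ (ord_val_unif_ne_zero M.unifA)]
    have : j + (p : ℤ) * r0 = 0 := by linarith
    rw [this, zpow_zero]
  have hhi : Vi.valuation h₂ = 1 := by
    rw [hh₂, map_div₀, map_zpow₀, hri, div_self (zpow_ne_zero _ (ord_val_unif_ne_zero M.unifi))]
  have hh0' : V0.valuation h₂ = 1 := by
    rw [hh₂, map_div₀, map_zpow₀, hr0, div_self (zpow_ne_zero _ (ord_val_unif_ne_zero M.unif0))]
  obtain ⟨b, -, hb⟩ := hroot cst₂ ((A.valuation_le_one_iff _).mp hcstA.le)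
  -- Bezout
  have hcop : IsCoprime ((m : ℤ) - 1) (p : ℤ) := by
    rw [isCoprime_comm]
    exact ((Nat.prime_iff_prime_int.mp hp).coprime_iff_not_dvd).mpr hm
  obtain ⟨s, t, hst⟩ := hcop
  obtain ⟨w1, w2⟩ := Toric.cong_one M.unifA M.unifi M.consti σ hσi hp.ne_zero hrel₂ hui hhi hcstA
    hb hst
  obtain ⟨w3, w4⟩ := Toric.cong_one M.unifA M.unif0 M.const0 σ hσ0 hp.ne_zero hrel₂ hu0 hh0' hcstA
    hb hst
  exact ⟨_, w1, w3, w2, w4⟩

/-- D7. -/
theorem toric_normal (M : NodalModel A ϖ e Vi V0 x y Smi Sm0 Nd) {p : ℕ} (hp : p.Prime)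
    (hroot : ∀ a ∈ A, ∃ b ∈ A, A.valuation (a - b ^ p) < 1) (σ : F ≃+* F)
    (hσc : ∀ a : K, ∃ a' : K, σ (algebraMap K F a) = algebraMap K F a' ∧
      A.valuation a' = A.valuation a)
    (hσi : ∀ z ∈ Vi, Vi.valuation (σ z - z) < 1) (hσ0 : ∀ z ∈ V0, V0.valuation (σ z - z) < 1)
    {u h : F} {cst : K} {m : ℕ} (hu : u ≠ 0) (hm : ¬ (p : ℤ) ∣ (m : ℤ) - 1)
    (hrel : σ u = u ^ m * algebraMap K F cst * h ^ p) :
    ∃ (κ : K) (g : F), κ ≠ 0 ∧ g ≠ 0 ∧ Vi.valuation (u * algebraMap K F κ * g ^ p - 1) < 1 ∧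
      V0.valuation (u * algebraMap K F κ * g ^ p - 1) < 1 := by
  have hσu : σ u ≠ 0 := by rwa [Ne, map_eq_zero_iff σ σ.injective]
  have hcst0 : cst ≠ 0 := by
    rintro rfl
    rw [map_zero, mul_zero, zero_mul] at hrel
    exact hσu hrel
  have hh0 : h ≠ 0 := by
    rintro rfl
    rw [zero_pow hp.ne_zero, mul_zero] at hrel
    exact hσu hrel
  have hϖ0 : ϖ ≠ 0 := ord_unif_ne_zero M.unifA
  have hπ0 : algebraMap K F ϖ ≠ 0 := ord_unif_ne_zero M.unifi
  obtain ⟨j, hj⟩ := ord_exists_val M.unifA hcst0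
  obtain ⟨ai, hai⟩ := ord_exists_val M.unifi hu
  obtain ⟨a0, ha0⟩ := ord_exists_val M.unif0 hu
  obtain ⟨ri, hri⟩ := ord_exists_val M.unifi hh0
  obtain ⟨r0, hr0⟩ := ord_exists_val M.unif0 hh0
  have ei := Toric.ord_rel M.unifA M.unifi M.consti σ hσc hσi hrel hai hj hri
  have e0 := Toric.ord_rel M.unifA M.unif0 M.const0 σ hσc hσ0 hrel ha0 hj hr0
  have hdvd : (p : ℤ) ∣ a0 - ai := by
    have h1 : (p : ℤ) ∣ ((m : ℤ) - 1) * (a0 - ai) := ⟨ri - r0, by linarith⟩
    exact ((Nat.prime_iff_prime_int.mp hp).dvd_or_dvd h1).resolve_left hm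
  obtain ⟨t, ht⟩ := hdvd
  -- weak approximation
  have hinj : Function.Injective ![Vi, V0] := by
    have hne := Toric.ne M
    intro a b hab
    fin_cases a <;> fin_cases b
    · rfl
    · exact absurd hab hne
    · exact absurd hab.symm hne
    · rfl
  obtain ⟨g₁, hg₁, hg⟩ := exists_prescribed_orders ![Vi, V0] (fun _ => algebraMap K F ϖ)
    (by
      intro c
      fin_cases c
      · exact M.unifi
      · exact M.unif0) hinj ![0, -t]
  have hgi : Vi.valuation g₁ = 1 := by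
    have : Vi.valuation g₁ = Vi.valuation (algebraMap K F ϖ) ^ (0 : ℤ) := hg 0
    rw [this, zpow_zero]
  have hg0 : V0.valuation g₁ = V0.valuation (algebraMap K F ϖ) ^ (-t) := hg 1
  set κ₁ : K := ϖ ^ (-ai) with hκ₁
  have hκ0 : κ₁ ≠ 0 := zpow_ne_zero _ hϖ0
  have hκF : algebraMap K F κ₁ ≠ 0 := by rwa [Ne, map_eq_zero]
  set u₁ : F := u * algebraMap K F κ₁ * g₁ ^ p with hu₁
  have hui : Vi.valuation u₁ = 1 := by
    rw [hu₁, map_mul, map_mul, map_pow, hgi, one_pow, mul_one, hai, hκ₁, map_zpow₀, map_zpow₀,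
      ← zpow_add₀ (ord_val_unif_ne_zero M.unifi), add_neg_cancel, zpow_zero]
  have hu0 : V0.valuation u₁ = 1 := by
    rw [hu₁, map_mul, map_mul, map_pow, hg0, ha0, hκ₁, map_zpow₀, map_zpow₀, ← zpow_natCast,
      ← zpow_mul, ← zpow_add₀ (ord_val_unif_ne_zero M.unif0),
      ← zpow_add₀ (ord_val_unif_ne_zero M.unif0)]
    have : a0 + -ai + -t * (p : ℤ) = 0 := by linarith
    rw [this, zpow_zero]
  obtain ⟨κ', hκ', -⟩ := hσc κ₁
  have hrel₁ : σ u₁ = u₁ ^ m * algebraMap K F (cst * κ' / κ₁ ^ m) * (h * σ g₁ / g₁ ^ m) ^ p := by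
    rw [hu₁, map_mul, map_mul, map_pow, hrel, hκ', map_div₀, map_mul, map_pow]
    simp only [div_pow, mul_pow]
    field_simp
    ring
  obtain ⟨w, hwi, hw0, ci, c0⟩ := Toric.unit_case M hp hroot σ hσc hσi hσ0 hui hu0 hm hrel₁
  have hwne : w ≠ 0 := ne_zero_of_valuation_eq_one hwi
  have key : u * algebraMap K F κ₁ * (g₁ / w) ^ p = u₁ / w ^ p := by
    rw [hu₁, div_pow]
    ring
  refine ⟨κ₁, g₁ / w, hκ0, div_ne_zero hg₁ hwne, ?_, ?_⟩
  · rw [key]
    have := ci.div (Cong.refl Vi (w ^ p)) (valuation_pow_eq_one hwi p).le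
      (valuation_pow_eq_one hwi p)
    rwa [div_self (pow_ne_zero p hwne)] at this
  · rw [key]
    have := c0.div (Cong.refl V0 (w ^ p)) (valuation_pow_eq_one hw0 p).le
      (valuation_pow_eq_one hw0 p)
    rwa [div_self (pow_ne_zero p hwne)] at this

end Fermat.Agent.S44.Depth

end
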